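/-
MLT (project S59) / L2-JL, package P7 (helper2): (S3) Hecke-equivariance of slopes, file 1:
**pull-back of the normal form of a node along a morphism of nodes**.

`𝒩 : DlNode L F` (node `P` of the model of `F`, `t · t' = ϖ ^ w`), `𝒩' : DlNode L F'` (node `P'` of the model
of `F'`, `s · s' = ϖ ^ w'`), `φ : F →+* F'` a NODE HOM (`MltJ7NodeHom`): `φ ϖ = ϖ`, `φ A_P ⊆ A_{P'}`, and the
branches `W_{P'}`, `W'_{P'}` lie over `W_P`, `W'_P` (units go to units).  Put `μ := slope_{P'}(φ t)` (the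
ramification index of the reduced map on the branch).  Then

* `MltJ7NodeHom.slope_law` : `w = μ · w'`;
* `MltJ7NodeHom.isU_t`, `isU_t'` : `φ t = s ^ μ · unit`, `φ t' = s' ^ μ · unit` (units of `A_{P'}`);
* `MltJ7NodeHom.oW_map`, `oW'_map` : `ord_{W_{P'}}(φ z) = ord_{W_P}(z)`, same for `W'`;
* `MltJ7NodeHom.slope_map` : `slope_{P'}(φ z) = μ · slope_P(z)`;
* `mltj7Lam 𝒩 z := slope(z) · w − (ord_{W'} z − ord_W z)` and **`MltJ7NodeHom.lam_map`** :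
  `λ_{P'}(φ z) = λ_P(z)`.
-/
import Mathlib
import Fermat.Agent.Lib.Delta.Node.Slope

set_option autoImplicit false
set_option linter.style.haveILetI false
set_option linter.unusedSectionVars false
set_option linter.unusedVariables false

namespace Fermat.Agent.MLT

open Fermat.Agent.Delta Fermat.Agent.T4

variable {L F F' : Type*} [Field L] [Field F] [Field F'] [Algebra L F] [Algebra L F']

/-- **the local height at a node**: `λ(z) = slope(z) · w − (ord_{W'} z − ord_W z)`; it vanishes on the functions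
without horizontal part through the node (`dln_slope_law`) -/
noncomputable def mltj7Lam (𝒩 : DlNode L F) (z : F) : ℤ :=
  𝒩.slope z * 𝒩.w - (𝒩.oW' z - 𝒩.oW z)

variable (𝒩 : DlNode L F) (𝒩' : DlNode L F') (φ : F →+* F')

/-- the hypotheses on a morphism of nodes -/
structure MltJ7NodeHom : Prop where
  /-- `φ ϖ = ϖ` -/
  pi : φ 𝒩.pi = 𝒩'.pi
  /-- `φ A_P ⊆ A_{P'}` -/
  mem : ∀ f ∈ 𝒩.A, φ f ∈ 𝒩'.A
  /-- `W_{P'}` lies over `W_P` -/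
  unitW : ∀ f : F, 𝒩.W.valuation f = 1 → 𝒩'.W.valuation (φ f) = 1
  /-- `W'_{P'}` lies over `W'_P` -/
  unitW' : ∀ f : F, 𝒩.W'.valuation f = 1 → 𝒩'.W'.valuation (φ f) = 1

variable {𝒩 𝒩' φ}

namespace MltJ7NodeHom

variable (h : MltJ7NodeHom 𝒩 𝒩' φ)

include h

theorem t_ne_zero : φ 𝒩.t ≠ 0 := (map_ne_zero φ).mpr 𝒩.t_ne_zero

theorem t'_ne_zero : φ 𝒩.t' ≠ 0 := (map_ne_zero φ).mpr 𝒩.t'_ne_zero

theorem tt' : φ 𝒩.t * φ 𝒩.t' = 𝒩'.pi ^ 𝒩.w := by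
  rw [← map_mul, 𝒩.tt', map_pow]
  exact congrArg (· ^ 𝒩.w) h.pi

theorem isU_map {u : F} (hu : 𝒩.IsU u) : 𝒩'.IsU (φ u) :=
  ⟨h.mem u hu.1, by rw [← map_inv₀]; exact h.mem _ hu.2.1, (map_ne_zero φ).mpr hu.2.2⟩

/-- `ord_{W_{P'}}(φ z) = ord_{W_P}(z)` -/
theorem oW_map {z : F} (hz : z ≠ 0) : 𝒩'.oW (φ z) = 𝒩.oW z := by
  have hp := dln_pi_ne_zero 𝒩.toDlLocal
  have hp' := dln_pi_ne_zero 𝒩'.toDlLocal
  have h1 : 𝒩.oW (𝒩.nrm z) = 0 := 𝒩.oW_nrm hz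
  have h2 : 𝒩'.W.valuation (φ (𝒩.nrm z)) = 1 :=
    h.unitW _ ((dl_valuation_eq_one_iff 𝒩.W (𝒩.nrm_ne_zero hz)).mpr h1)
  have h3 : 𝒩'.oW (φ (𝒩.nrm z)) = 0 :=
    (dl_valuation_eq_one_iff 𝒩'.W ((map_ne_zero φ).mpr (𝒩.nrm_ne_zero hz))).mp h2
  have e : φ z = φ (𝒩.nrm z) * 𝒩'.pi ^ (𝒩.oW z) := by
    rw [← h.pi, ← map_zpow₀, ← map_mul]
    congr 1
    unfold DlNode.nrm
    rw [div_mul_cancel₀ _ (zpow_ne_zero _ hp)]
  rw [e, dln_oW_mul 𝒩'.toDlLocal ((map_ne_zero φ).mpr (𝒩.nrm_ne_zero hz)) (zpow_ne_zero _ hp'),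
    h3, dln_oW_zpow, dln_oW_pi]
  ring

/-- `ord_{W'_{P'}}(φ z) = ord_{W'_P}(z)` -/
theorem oW'_map {z : F} (hz : z ≠ 0) : 𝒩'.oW' (φ z) = 𝒩.oW' z := by
  have hp := dln_pi_ne_zero 𝒩.toDlLocal
  have hp' := dln_pi_ne_zero 𝒩'.toDlLocal
  set z₀ : F := z / 𝒩.pi ^ (𝒩.oW' z) with hz₀
  have hz₀0 : z₀ ≠ 0 := div_ne_zero hz (zpow_ne_zero _ hp)
  have h1 : 𝒩.oW' z₀ = 0 := by
    rw [hz₀, dln_oW'_div 𝒩.toDlLocal hz (zpow_ne_zero _ hp), dln_oW'_zpow, dln_oW'_pi]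
    ring
  have h2 : 𝒩'.W'.valuation (φ z₀) = 1 :=
    h.unitW' _ ((dl_valuation_eq_one_iff 𝒩.W' hz₀0).mpr h1)
  have h3 : 𝒩'.oW' (φ z₀) = 0 :=
    (dl_valuation_eq_one_iff 𝒩'.W' ((map_ne_zero φ).mpr hz₀0)).mp h2
  have e : φ z = φ z₀ * 𝒩'.pi ^ (𝒩.oW' z) := by
    rw [← h.pi, ← map_zpow₀, ← map_mul]
    congr 1
    rw [hz₀, div_mul_cancel₀ _ (zpow_ne_zero _ hp)]
  rw [e, dln_oW'_mul 𝒩'.toDlLocal ((map_ne_zero φ).mpr hz₀0) (zpow_ne_zero _ hp'),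
    h3, dln_oW'_zpow, dln_oW'_pi]
  ring

theorem oW_t : 𝒩'.oW (φ 𝒩.t) = 0 := by rw [h.oW_map 𝒩.t_ne_zero, 𝒩.oW_t]

theorem oW'_t : 𝒩'.oW' (φ 𝒩.t) = 𝒩.w := by rw [h.oW'_map 𝒩.t_ne_zero, 𝒩.oW'_t]

theorem oH_t {V : ValuationSubring F'} (hV : V ∈ 𝒩'.hor) : 𝒩'.oH V hV (φ 𝒩.t) = 0 := by
  have h1 := congrArg (𝒩'.oH V hV) h.tt'
  rw [dln_oH_mul 𝒩'.toDlLocal hV h.t_ne_zero h.t'_ne_zero, dln_oH_pow, dln_oH_pi] at h1
  have h2 := dln_oH_nonneg 𝒩'.toDlLocal (h.mem _ 𝒩.ht) hV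
  have h3 := dln_oH_nonneg 𝒩'.toDlLocal (h.mem _ 𝒩.ht') hV
  linarith

/-- **the thickness is multiplied by the ramification index of the branch**: `w = slope(φ t) · w'` -/
theorem slope_law : (𝒩.w : ℤ) = 𝒩'.slope (φ 𝒩.t) * 𝒩'.w := by
  have h1 := dln_slope_law 𝒩' h.t_ne_zero (fun V hV => h.oH_t hV)
  rw [h.oW'_t, h.oW_t] at h1
  linarith

/-- the ramification index `μ` is positive -/
theorem slope_t_pos : 0 < 𝒩'.slope (φ 𝒩.t) := by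
  have h1 := h.slope_law
  have h2 : (0 : ℤ) < 𝒩'.w := by exact_mod_cast 𝒩'.hw
  have h3 : (0 : ℤ) < 𝒩.w := by exact_mod_cast 𝒩.hw
  by_contra h4
  rw [not_lt] at h4
  nlinarith

/-- **the pull-back of the node coordinate `t` is `s ^ μ · unit`** -/
theorem isU_t : 𝒩'.IsU (φ 𝒩.t / 𝒩'.t ^ (𝒩'.slope (φ 𝒩.t))) := by
  have h1 := dln_slope_form 𝒩' h.t_ne_zero (fun V hV => h.oH_t hV)
  rw [h.oW_t, zpow_zero, one_mul] at h1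
  exact h1

/-- `slope_{P'}(φ z) = μ · slope_P(z)` -/
theorem slope_map {z : F} (hz : z ≠ 0) :
    𝒩'.slope (φ z) = 𝒩'.slope (φ 𝒩.t) * 𝒩.slope z := by
  obtain ⟨u, hu, hc⟩ := 𝒩.slope_spec hz
  have hφz : φ z ≠ 0 := (map_ne_zero φ).mpr hz
  have hp := dln_pi_ne_zero 𝒩.toDlLocal
  set μ := 𝒩'.slope (φ 𝒩.t) with hμ
  set m := 𝒩.slope z with hm
  -- `φ (nrm z) = nrm' (φ z)`
  have e1 : 𝒩'.nrm (φ z) = φ (𝒩.nrm z) := by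
    unfold DlNode.nrm
    rw [h.oW_map hz, map_div₀, map_zpow₀, h.pi]
  -- the unit
  set u₀ : F' := φ 𝒩.t / 𝒩'.t ^ μ with hu₀
  have hu₀U : 𝒩'.IsU u₀ := h.isU_t
  have ht' : φ 𝒩.t = 𝒩'.t ^ μ * u₀ := by
    rw [hu₀, mul_div_cancel₀ _ (zpow_ne_zero _ 𝒩'.t_ne_zero)]
  have hU : 𝒩'.IsU (u₀ ^ m * φ u) := (hu₀U.zpow 𝒩'.toDlLocal m).mul 𝒩'.toDlLocal (h.isU_map hu)
  refine 𝒩'.slope_eq hφz hU ?_
  rw [e1]
  have e2 : 𝒩'.t ^ (μ * m) * (u₀ ^ m * φ u) = φ (𝒩.t ^ m * u) := by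
    rw [map_mul, map_zpow₀, ht', mul_zpow, zpow_mul]
    ring
  rw [e2]
  rcases hc with hc | hc
  · exact Or.inl (by rw [hc])
  · right
    have hne : 𝒩.nrm z - 𝒩.t ^ m * u ≠ 0 := dln_ne_zero_of_ord_ne 𝒩.W (by
      have : 0 < dlOrd 𝒩.W (𝒩.nrm z - 𝒩.t ^ m * u) := hc
      omega)
    rw [← map_sub, h.oW_map hne]
    exact hc

/-- **the local height is invariant under pull-back along a morphism of nodes** -/
theorem lam_map {z : F} (hz : z ≠ 0) : mltj7Lam 𝒩' (φ z) = mltj7Lam 𝒩 z := by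
  unfold mltj7Lam
  rw [h.slope_map hz, h.oW_map hz, h.oW'_map hz, mul_comm (𝒩'.slope (φ 𝒩.t)), mul_assoc,
    ← h.slope_law]

/-- **the pull-back of the node coordinate `t'` is `s' ^ μ · unit`** -/
theorem isU_t' : 𝒩'.IsU (φ 𝒩.t' / 𝒩'.t' ^ (𝒩'.slope (φ 𝒩.t))) := by
  have h1 := (h.isU_t).inv
  set μ := 𝒩'.slope (φ 𝒩.t) with hμ
  have hμ0 : 0 ≤ μ := h.slope_t_pos.le
  obtain ⟨n, hn⟩ := Int.eq_ofNat_of_zero_le hμ0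
  have e : φ 𝒩.t' / 𝒩'.t' ^ μ = (φ 𝒩.t / 𝒩'.t ^ μ)⁻¹ := by
    have h2 := h.tt'
    have h3 := 𝒩'.tt'
    have h4 : 𝒩'.pi = algebraMap L F' 𝒩'.ϖ := rfl
    have h5 : (𝒩.w : ℤ) = μ * 𝒩'.w := h.slope_law
    have h6 : 𝒩.w = n * 𝒩'.w := by
      rw [hn] at h5
      exact_mod_cast h5
    rw [h6, h4, pow_mul', ← h3, mul_pow] at h2
    rw [hn, zpow_natCast, zpow_natCast]
    have := h.t_ne_zero
    have := pow_ne_zero n 𝒩'.t_ne_zero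
    have := pow_ne_zero n 𝒩'.t'_ne_zero
    field_simp
    linear_combination h2
  rw [e]
  exact h1

end MltJ7NodeHom

end Fermat.Agent.MLT
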