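/-
MLT (project S59) / L2-JL, package P7 (helper2): (S3) Hecke-equivariance of slopes, file 2:
**the local height `λ` at a node, values at rational horizontal points, and the pointwise invariance of the
position under a morphism of nodes**.

`𝒩 : DlNode L F` (`t · t' = ϖ ^ w`).
* `mltj7_lam_mul`, `_inv`, `_div`, `_zpow`, `_isU`, `_pi`, `_t`, `_t'`, `_const`, `_noHor`: `λ` is a
  homomorphism `F^× → ℤ` which vanishes on the functions without horizontal part through the node;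
* `mltj7_lam_sub_const` : `λ(t − c) = w − ord_O c` for a constant `c` with `0 < ord_O c < w`;
* `MltJ7Val 𝒩 V f c` : "`f(V) = c`" (`c ∈ O`, `v_V(f − c) > 0`) for a horizontal valuation ring `V` through the
  node; uniqueness, sums, products, units have unit values;
* `mltj7_val_t` : the value `c` of `t` at `V` satisfies `0 < ord_O c < w` (and `c · c' = ϖ ^ w`);
* **`MltJ7NodeHomL.ord_val_t`** : for a morphism of nodes over the same base `O`, a horizontal `V'` through `P'`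
  lying over `V` through `P`, `c = t(V)`, `c' = s(V')`: `ord_O c = μ · ord_O c'`; with `w = μ · w'` this is the
  pointwise invariance of the position `ord_O(c) / w`.
-/
import Mathlib
import Fermat.Agent.Lib.MLT.L2.P7.NodePull

set_option autoImplicit false
set_option linter.style.haveILetI false
set_option linter.unusedSectionVars false
set_option linter.unusedVariables false

namespace Fermat.Agent.MLT

open Fermat.Agent.Delta Fermat.Agent.T4

variable {L F F' : Type*} [Field L] [Field F] [Field F'] [Algebra L F] [Algebra L F']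

section Lam

variable (𝒩 : DlNode L F)

theorem mltj7_lam_mul {z z' : F} (hz : z ≠ 0) (hz' : z' ≠ 0) :
    mltj7Lam 𝒩 (z * z') = mltj7Lam 𝒩 z + mltj7Lam 𝒩 z' := by
  unfold mltj7Lam
  rw [𝒩.slope_mul hz hz', dln_oW_mul 𝒩.toDlLocal hz hz', dln_oW'_mul 𝒩.toDlLocal hz hz']
  ring

theorem mltj7_lam_isU {u : F} (hu : 𝒩.IsU u) : mltj7Lam 𝒩 u = 0 := by
  unfold mltj7Lam
  rw [𝒩.slope_isU hu, hu.oW, hu.oW']
  ring

theorem mltj7_lam_one : mltj7Lam 𝒩 1 = 0 := mltj7_lam_isU 𝒩 (dln_isU_one 𝒩.toDlLocal)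

theorem mltj7_lam_inv {z : F} (hz : z ≠ 0) : mltj7Lam 𝒩 z⁻¹ = -mltj7Lam 𝒩 z := by
  have h := mltj7_lam_mul 𝒩 hz (inv_ne_zero hz)
  rw [mul_inv_cancel₀ hz, mltj7_lam_one] at h
  linarith

theorem mltj7_lam_div {z z' : F} (hz : z ≠ 0) (hz' : z' ≠ 0) :
    mltj7Lam 𝒩 (z / z') = mltj7Lam 𝒩 z - mltj7Lam 𝒩 z' := by
  rw [div_eq_mul_inv, mltj7_lam_mul 𝒩 hz (inv_ne_zero hz'), mltj7_lam_inv 𝒩 hz']
  ring

theorem mltj7_lam_zpow (z : F) (n : ℤ) : mltj7Lam 𝒩 (z ^ n) = n * mltj7Lam 𝒩 z := by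
  unfold mltj7Lam
  rw [𝒩.slope_zpow, dln_oW_zpow, dln_oW'_zpow]
  ring

theorem mltj7_lam_pow (z : F) (n : ℕ) : mltj7Lam 𝒩 (z ^ n) = n * mltj7Lam 𝒩 z := by
  have := mltj7_lam_zpow 𝒩 z n
  rwa [zpow_natCast] at this

theorem mltj7_lam_pi : mltj7Lam 𝒩 𝒩.pi = 0 := by
  unfold mltj7Lam
  rw [𝒩.slope_pi, dln_oW_pi, dln_oW'_pi]
  ring

theorem mltj7_lam_t : mltj7Lam 𝒩 𝒩.t = 0 := by
  unfold mltj7Lam
  rw [𝒩.slope_t, 𝒩.oW_t, 𝒩.oW'_t]
  ring

theorem mltj7_lam_t' : mltj7Lam 𝒩 𝒩.t' = 0 := by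
  unfold mltj7Lam
  rw [𝒩.slope_t', 𝒩.oW_t', 𝒩.oW'_t']
  ring

theorem mltj7_lam_const {c : L} (hc : c ≠ 0) : mltj7Lam 𝒩 (algebraMap L F c) = 0 := by
  unfold mltj7Lam
  obtain ⟨h1, h2, -⟩ := dln_const 𝒩.toDlLocal hc
  rw [𝒩.slope_const hc, h1, h2]
  ring

/-- **`λ` vanishes on the functions without horizontal part through the node** (the slope law) -/
theorem mltj7_lam_noHor {z : F} (hz : z ≠ 0)
    (hH : ∀ (V : ValuationSubring F) (hV : V ∈ 𝒩.hor), 𝒩.oH V hV z = 0) : mltj7Lam 𝒩 z = 0 := by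
  unfold mltj7Lam
  have := dln_slope_law 𝒩 hz hH
  linarith

/-- **the local height of `t − c`**: `λ(t − c) = w − ord_O c` for `0 < ord_O c < w` -/
theorem mltj7_lam_sub_const {c : L} (hc : c ≠ 0) (h0 : 0 < dlOrd 𝒩.O c) (hw : dlOrd 𝒩.O c < 𝒩.w) :
    𝒩.t - algebraMap L F c ≠ 0 ∧ mltj7Lam 𝒩 (𝒩.t - algebraMap L F c) = 𝒩.w - dlOrd 𝒩.O c := by
  obtain ⟨h1, h2, -⟩ := dln_const 𝒩.toDlLocal hc
  have hc0 : algebraMap L F c ≠ 0 := (map_ne_zero _).mpr hc
  have hnc0 : -algebraMap L F c ≠ 0 := neg_ne_zero.mpr hc0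
  -- the orders
  have hW : 𝒩.oW (𝒩.t - algebraMap L F c) = 0 := by
    rw [sub_eq_add_neg]
    have := dlOrd_add_of_lt 𝒩.W 𝒩.t_ne_zero (g := -algebraMap L F c) (Or.inr (by
      rw [dlOrd_neg]
      have e1 : dlOrd 𝒩.W 𝒩.t = 0 := 𝒩.oW_t
      have e2 : dlOrd 𝒩.W (algebraMap L F c) = dlOrd 𝒩.O c := h1
      rw [e1, e2]
      exact h0))
    exact this.trans 𝒩.oW_t
  have hne : 𝒩.t - algebraMap L F c ≠ 0 := by
    intro h
    have e : 𝒩.t = algebraMap L F c := sub_eq_zero.mp h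
    have e1 : 𝒩.oW 𝒩.t = 0 := 𝒩.oW_t
    rw [e, h1] at e1
    omega
  have hW' : 𝒩.oW' (𝒩.t - algebraMap L F c) = dlOrd 𝒩.O c := by
    rw [sub_eq_add_neg, add_comm]
    have := dlOrd_add_of_lt 𝒩.W' hnc0 (g := 𝒩.t) (Or.inr (by
      rw [dlOrd_neg]
      have e1 : dlOrd 𝒩.W' 𝒩.t = 𝒩.w := 𝒩.oW'_t
      have e2 : dlOrd 𝒩.W' (algebraMap L F c) = dlOrd 𝒩.O c := h2
      rw [e1, e2]
      exact hw))
    rw [dlOrd_neg] at this
    exact this.trans h2
  -- the slope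
  have hs : 𝒩.slope (𝒩.t - algebraMap L F c) = 1 := by
    refine 𝒩.slope_eq hne (dln_isU_one 𝒩.toDlLocal) ?_
    rw [𝒩.nrm_of_oW_zero hW, zpow_one, mul_one]
    right
    rw [sub_sub_cancel_left]
    show 0 < dlOrd 𝒩.W (-algebraMap L F c)
    rw [dlOrd_neg]
    have e2 : dlOrd 𝒩.W (algebraMap L F c) = dlOrd 𝒩.O c := h1
    rw [e2]
    exact h0
  refine ⟨hne, ?_⟩
  unfold mltj7Lam
  rw [hs, hW, hW']
  ring

end Lam

/-! ### values at horizontal valuation rings -/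

section Val

variable (𝒩 : DlLocal L F)

/-- "`f(V) = c`": `c ∈ O` and `v_V(f − c) > 0` -/
def MltJ7Val (V : ValuationSubring F) (f : F) (c : L) : Prop :=
  c ∈ 𝒩.O ∧ V.valuation (f - algebraMap L F c) < 1

variable {𝒩}
variable {V : ValuationSubring F} (hV : V ∈ 𝒩.hor)

include hV in
/-- non-zero constants are units of the horizontal valuation rings -/
theorem mltj7_val_const_eq_one {c : L} (hc : c ≠ 0) : V.valuation (algebraMap L F c) = 1 := by
  haveI := 𝒩.P.dvr V hV.1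
  exact (dl_valuation_eq_one_iff V ((map_ne_zero _).mpr hc)).mpr ((dln_const 𝒩 hc).2.2 V hV)

include hV in
theorem MltJ7Val.unique {f : F} {c c' : L} (h : MltJ7Val 𝒩 V f c) (h' : MltJ7Val 𝒩 V f c') :
    c = c' := by
  by_contra hne
  have h1 : V.valuation (algebraMap L F (c' - c)) < 1 := by
    have e : algebraMap L F (c' - c) = (f - algebraMap L F c) - (f - algebraMap L F c') := by
      rw [map_sub]; ring
    rw [e]
    exact lt_of_le_of_lt (Valuation.map_sub _ _ _) (max_lt h.2 h'.2)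
  rw [mltj7_val_const_eq_one hV (sub_ne_zero.mpr (Ne.symm hne))] at h1
  exact lt_irrefl _ h1

theorem MltJ7Val.const {c : L} (hc : c ∈ 𝒩.O) : MltJ7Val 𝒩 V (algebraMap L F c) c := by
  refine ⟨hc, ?_⟩
  rw [sub_self, map_zero]
  exact zero_lt_one

include hV in
theorem MltJ7Val.mem {f : F} {c : L} (h : MltJ7Val 𝒩 V f c) : f ∈ V := by
  have h1 : f - algebraMap L F c ∈ V := (V.valuation_le_one_iff _).mp h.2.le
  have h2 : algebraMap L F c ∈ V := 𝒩.P.B_le hV.1 (𝒩.O_le c h.1)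
  have := V.add_mem _ _ h1 h2
  rwa [sub_add_cancel] at this

include hV in
theorem MltJ7Val.mul {f g : F} {c d : L} (h : MltJ7Val 𝒩 V f c) (h' : MltJ7Val 𝒩 V g d) :
    MltJ7Val 𝒩 V (f * g) (c * d) := by
  refine ⟨𝒩.O.mul_mem _ _ h.1 h'.1, ?_⟩
  have e : f * g - algebraMap L F (c * d) =
      (f - algebraMap L F c) * g + algebraMap L F c * (g - algebraMap L F d) := by
    rw [map_mul]; ring
  rw [e]
  have hg : V.valuation g ≤ 1 := (V.valuation_le_one_iff _).mpr (h'.mem hV)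
  have hc : V.valuation (algebraMap L F c) ≤ 1 :=
    (V.valuation_le_one_iff _).mpr (𝒩.P.B_le hV.1 (𝒩.O_le c h.1))
  refine lt_of_le_of_lt (Valuation.map_add _ _ _) (max_lt ?_ ?_)
  · rw [map_mul]
    calc V.valuation (f - algebraMap L F c) * V.valuation g
        ≤ V.valuation (f - algebraMap L F c) * 1 := mul_le_mul_right hg _
      _ = V.valuation (f - algebraMap L F c) := mul_one _
      _ < 1 := h.2
  · rw [map_mul]
    calc V.valuation (algebraMap L F c) * V.valuation (g - algebraMap L F d)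
        ≤ 1 * V.valuation (g - algebraMap L F d) := mul_le_mul_left hc _
      _ = V.valuation (g - algebraMap L F d) := one_mul _
      _ < 1 := h'.2

include hV in
theorem MltJ7Val.pow {f : F} {c : L} (h : MltJ7Val 𝒩 V f c) (n : ℕ) :
    MltJ7Val 𝒩 V (f ^ n) (c ^ n) := by
  induction n with
  | zero =>
    rw [pow_zero, pow_zero]
    have := MltJ7Val.const (𝒩 := 𝒩) (V := V) 𝒩.O.one_mem
    rwa [map_one] at this
  | succ n ih =>
    rw [pow_succ, pow_succ]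
    exact ih.mul hV h

/-- `f(V) = 0` iff `v_V(f) > 0` -/
theorem mltj7_val_zero_iff {f : F} : MltJ7Val 𝒩 V f 0 ↔ V.valuation f < 1 := by
  unfold MltJ7Val
  rw [map_zero, sub_zero]
  exact ⟨fun h => h.2, fun h => ⟨𝒩.O.zero_mem, h⟩⟩

include hV in
/-- the value of a unit of `A` is a unit of `O` -/
theorem MltJ7Val.ord_eq_zero_of_isU {u : F} (hu : 𝒩.IsU u) {a b : L} (ha : MltJ7Val 𝒩 V u a)
    (hb : MltJ7Val 𝒩 V u⁻¹ b) : a ≠ 0 ∧ dlOrd 𝒩.O a = 0 := by
  have h1 := ha.mul hV hb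
  rw [mul_inv_cancel₀ hu.2.2] at h1
  have h2 : MltJ7Val 𝒩 V (1 : F) 1 := by
    have := MltJ7Val.const (𝒩 := 𝒩) (V := V) 𝒩.O.one_mem
    rwa [map_one] at this
  have h3 : a * b = 1 := h1.unique hV h2
  have ha0 : a ≠ 0 := left_ne_zero_of_mul_eq_one h3
  have hb0 : b ≠ 0 := right_ne_zero_of_mul_eq_one h3
  refine ⟨ha0, ?_⟩
  have h4 := congrArg (dlOrd 𝒩.O) h3
  rw [dlOrd_mul 𝒩.O ha0 hb0, dlOrd_one] at h4
  have h5 := dlOrd_nonneg_of_mem 𝒩.O ha.1
  have h6 := dlOrd_nonneg_of_mem 𝒩.O hb.1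
  omega

end Val

end Fermat.Agent.MLT
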