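/-
MLT (project S59) / L2-JL, package P7 (helper2): (S3) Hecke-equivariance of slopes, file 3:
**the value of the node coordinate at a horizontal point, and its behaviour under a morphism of nodes**.

* `mltj7_val_t` : for `V` horizontal through the node of `𝒩 : DlNode L F` with `t(V) = c`, `t'(V) = c'`:
  `c · c' = ϖ ^ w`, `0 < ord_O c`, `0 < ord_O c'`, `ord_O c + ord_O c' = w`;
* `MltJ7NodeHomL` : a morphism of nodes over the same base (`φ` is `L`-linear, `O ⊆ O'`);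
* **`MltJ7NodeHomL.ord_val_t`** : `V'` horizontal through `P'` over `V` horizontal through `P`, `c = t(V)`,
  `c' = s(V')`, the unit `u₀ = φ t / s ^ μ` has values at `V'`  ⇒  `ord c = μ · ord c'`.
  With `w = μ · w'` (`MltJ7NodeHom.slope_law`) this is the pointwise invariance of the position `ord(c) / w`.
-/
import Mathlib
import Fermat.Agent.Lib.MLT.L2.P7.NodeLam

set_option autoImplicit false
set_option linter.style.haveILetI false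
set_option linter.unusedSectionVars false
set_option linter.unusedVariables false

namespace Fermat.Agent.MLT

open Fermat.Agent.Delta Fermat.Agent.T4

variable {L F F' : Type*} [Field L] [Field F] [Field F'] [Algebra L F] [Algebra L F']

section ValT

variable (𝒩 : DlNode L F) {V : ValuationSubring F} (hV : V ∈ 𝒩.hor)

theorem mltj7_pi_pow_mem (n : ℕ) : 𝒩.ϖ ^ n ∈ 𝒩.O :=
  𝒩.O.pow_mem ((𝒩.O.valuation_le_one_iff _).mp 𝒩.hϖ.1.le) n

include hV in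
/-- a function with positive order at a horizontal valuation ring is not a unit of `A` -/
theorem mltj7_not_isU_of_val_lt {f : F} (hf : V.valuation f < 1) : ¬ 𝒩.IsU f := by
  intro hu
  haveI := 𝒩.P.dvr V hV.1
  have h1 := hu.oH 𝒩.toDlLocal hV
  have h2 : V.valuation f = 1 := (dl_valuation_eq_one_iff V hu.2.2).mpr h1
  rw [h2] at hf
  exact lt_irrefl _ hf

include hV in
/-- the value of a non-unit of `A` is a non-unit of `O` -/
theorem mltj7_ord_val_pos {f : F} (hfA : f ∈ 𝒩.A) (hf : ¬ 𝒩.IsU f) {c : L}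
    (hc : MltJ7Val 𝒩.toDlLocal V f c) (hc0 : c ≠ 0) : 0 < dlOrd 𝒩.O c := by
  have h0 := dlOrd_nonneg_of_mem 𝒩.O hc.1
  by_contra hlt
  have h1 : dlOrd 𝒩.O c = 0 := by omega
  have h2 : 𝒩.O.valuation c = 1 := (dl_valuation_eq_one_iff 𝒩.O hc0).mpr h1
  have hU := dln_isU_of_unit_O 𝒩.toDlLocal h2
  have hg : f - algebraMap L F c ∈ 𝒩.A := 𝒩.A.sub_mem hfA (𝒩.O_le c hc.1)
  have hgu : ¬ 𝒩.IsU (f - algebraMap L F c) := mltj7_not_isU_of_val_lt 𝒩 hV hc.2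
  have := dln_isU_add_nonunit 𝒩.toDlLocal hU hg hgu
  rw [add_sub_cancel] at this
  exact hf this

include hV in
/-- **the values of the node coordinates at a horizontal point** -/
theorem mltj7_val_t {c c' : L} (hc : MltJ7Val 𝒩.toDlLocal V 𝒩.t c)
    (hc' : MltJ7Val 𝒩.toDlLocal V 𝒩.t' c') :
    c * c' = 𝒩.ϖ ^ 𝒩.w ∧ c ≠ 0 ∧ c' ≠ 0 ∧ 0 < dlOrd 𝒩.O c ∧ 0 < dlOrd 𝒩.O c' ∧
      dlOrd 𝒩.O c + dlOrd 𝒩.O c' = 𝒩.w := by
  have h1 := hc.mul hV hc'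
  rw [𝒩.tt', ← map_pow] at h1
  have h2 : MltJ7Val 𝒩.toDlLocal V (algebraMap L F (𝒩.ϖ ^ 𝒩.w)) (𝒩.ϖ ^ 𝒩.w) :=
    MltJ7Val.const (mltj7_pi_pow_mem 𝒩 𝒩.w)
  have h3 : c * c' = 𝒩.ϖ ^ 𝒩.w := h1.unique hV h2
  have hπ : dlOrd 𝒩.O 𝒩.ϖ = 1 := dln_ord_of_unif 𝒩.O 𝒩.hϖ
  have hπ0 : 𝒩.ϖ ≠ 0 := dln_ne_zero_of_ord_ne 𝒩.O (by rw [hπ]; norm_num)
  have hcc : c * c' ≠ 0 := by rw [h3]; exact pow_ne_zero _ hπ0
  have hc0 : c ≠ 0 := left_ne_zero_of_mul hcc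
  have hc'0 : c' ≠ 0 := right_ne_zero_of_mul hcc
  have h4 := congrArg (dlOrd 𝒩.O) h3
  rw [dlOrd_mul 𝒩.O hc0 hc'0, dlOrd_pow, hπ, mul_one] at h4
  exact ⟨h3, hc0, hc'0, mltj7_ord_val_pos 𝒩 hV 𝒩.ht 𝒩.par.t_not_isU hc hc0,
    mltj7_ord_val_pos 𝒩 hV 𝒩.ht' 𝒩.par.t'_not_isU hc' hc'0, h4⟩

end ValT

/-! ### morphisms of nodes over the same base -/

variable (𝒩 : DlNode L F) (𝒩' : DlNode L F') (φ : F →+* F')

/-- a morphism of nodes over the same base -/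
structure MltJ7NodeHomL : Prop extends MltJ7NodeHom 𝒩 𝒩' φ where
  /-- `φ` is `L`-linear -/
  comm : ∀ a : L, φ (algebraMap L F a) = algebraMap L F' a
  /-- `O ⊆ O'` -/
  O_le : ∀ a ∈ 𝒩.O, a ∈ 𝒩'.O

variable {𝒩 𝒩' φ}

namespace MltJ7NodeHomL

variable (h : MltJ7NodeHomL 𝒩 𝒩' φ)

include h

/-- values are transported by a morphism of nodes -/
theorem val_map {V : ValuationSubring F} {V' : ValuationSubring F'}
    (hover : ∀ f : F, V.valuation f < 1 → V'.valuation (φ f) < 1) {f : F} {c : L}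
    (hc : MltJ7Val 𝒩.toDlLocal V f c) : MltJ7Val 𝒩'.toDlLocal V' (φ f) c := by
  refine ⟨h.O_le c hc.1, ?_⟩
  rw [← h.comm, ← map_sub]
  exact hover _ hc.2

/-- **pointwise behaviour of the value of the node coordinate**: `ord c = μ · ord c'` -/
theorem ord_val_t {V : ValuationSubring F} {V' : ValuationSubring F'} (hV' : V' ∈ 𝒩'.hor)
    (hover : ∀ f : F, V.valuation f < 1 → V'.valuation (φ f) < 1) {c c' d' a b : L}
    (hc : MltJ7Val 𝒩.toDlLocal V 𝒩.t c) (hc' : MltJ7Val 𝒩'.toDlLocal V' 𝒩'.t c')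
    (hd' : MltJ7Val 𝒩'.toDlLocal V' 𝒩'.t' d')
    (ha : MltJ7Val 𝒩'.toDlLocal V' (φ 𝒩.t / 𝒩'.t ^ (𝒩'.slope (φ 𝒩.t))) a)
    (hb : MltJ7Val 𝒩'.toDlLocal V' (φ 𝒩.t / 𝒩'.t ^ (𝒩'.slope (φ 𝒩.t)))⁻¹ b) :
    dlOrd 𝒩'.O c = 𝒩'.slope (φ 𝒩.t) * dlOrd 𝒩'.O c' := by
  have hμ0 : 0 ≤ 𝒩'.slope (φ 𝒩.t) := h.toMltJ7NodeHom.slope_t_pos.le
  obtain ⟨n, hn⟩ := Int.eq_ofNat_of_zero_le hμ0
  rw [hn] at ha hb ⊢
  rw [zpow_natCast] at ha hb
  have h1 : MltJ7Val 𝒩'.toDlLocal V' (φ 𝒩.t) c := h.val_map hover hc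
  have h2 := (hc'.pow hV' n).mul hV' ha
  rw [mul_div_cancel₀ _ (pow_ne_zero n 𝒩'.t_ne_zero)] at h2
  have h3 : c = c' ^ n * a := h1.unique hV' h2
  obtain ⟨-, hc'0, -, -, -, -⟩ := mltj7_val_t 𝒩' hV' hc' hd'
  obtain ⟨ha0, hao⟩ := ha.ord_eq_zero_of_isU hV'
    (by
      have := h.toMltJ7NodeHom.isU_t
      rw [hn, zpow_natCast] at this
      exact this) hb
  rw [h3, dlOrd_mul 𝒩'.O (pow_ne_zero n hc'0) ha0, dlOrd_pow, hao]
  ring

end MltJ7NodeHomL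

end Fermat.Agent.MLT
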