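/-
MLT (project S59) / L2-JL, package P7 (helper2): (S3) Hecke-equivariance of slopes, file 4:
**morphisms of charts with a change of the residue fields** (the degeneracy maps `α^*`, `β^*` between the charts of
`X₀(K q)` and `X₀(K ℓ q)` at a fixed inertia level).

`h : MltJ7ChartHom C C'` : two charts over the SAME base `B : DlBase L k`, function fields `F ⊆ F'` (`ιF`),
residue function fields `κᵢ → κᵢ'` (`φᵢ`, integral), compatible with the Gauss places, the chart rings and the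
finite parts of the special fibres.  Then
* `h.mapB`, `h.res₁_mapB`, `h.res₂_mapB`, `h.S_map`;
* `h.ev₁_mapB`, `h.mem_n₁_mapB`, `h.map_A₁`, `h.mapA`, `h.lres₁_mapA`, `h.lev₁_mapA`, `h.isUnit_mapA_iff`
  (the local rings at `P' ↦ P = P'|_{φ₁}`);
* **`h.node_down`** (going down): the image of a node of `C'` is a node of `C`;
* `h.nodeHom` : the induced `MltJ7NodeHomL` at a node of `C'`; `h.slope_map_t`, **`h.thick_eq`** :
  `w_s = e(s'.1 | s.1) · w_{s'}`;
* **`h.node_up`** (going up): a place of the finite part of `C'` over a branch of a node of `C` is a branch of a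
  node of `C'` (the pull-back of the node coordinate would be a unit at a smooth point).
-/
import Mathlib
import Fermat.Agent.Lib.Delta.Core.Fam
import Fermat.Agent.Lib.MLT.L2.P7.NodeVal

set_option autoImplicit false
set_option linter.style.haveILetI false
set_option linter.unusedSectionVars false
set_option linter.unusedVariables false

namespace Fermat.Agent.MLT

open AlgebraicCurve Fermat.Agent.Curve Fermat.Agent.Curve.PlaceAux Fermat.Agent.T1 Fermat.Agent.T2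
  Fermat.Agent.T3 Fermat.Agent.T4 Fermat.Agent.Delta Fermat.Agent.S33

/-! ### Values along an integral morphism of function fields -/

section ValAlong

variable {k κ κ' : Type*} [Field k] [Field κ] [Field κ'] [Algebra k κ] [Algebra k κ']
  (φ : κ →ₐ[k] κ') (hφ : φ.toRingHom.IsIntegral) (P' : Place k κ')

theorem mltj7_mem_restrictAlong {f : κ} :
    f ∈ (P'.restrictAlong φ hφ).toValuationSubring ↔ φ f ∈ P'.toValuationSubring := Iff.rfl

/-- `(φ f)(P') = c ↔ f(P'|_φ) = c` -/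
theorem mltj7_val_along {f : κ} {c : k} :
    DlgVal P' (φ f) c ↔ DlgVal (P'.restrictAlong φ hφ) f c := by
  unfold DlgVal
  have e : φ f - algebraMap k κ' c = φ (f - algebraMap k κ c) := by
    rw [map_sub, AlgHom.commutes]
  rw [e, ordGE_iff, ordGE_iff, Place.ord_restrictAlong φ hφ P']
  have hpos : 0 < Place.ramificationIndexAlong φ P' := by
    letI := algebraAlong φ
    haveI := isScalarTower_along φ
    haveI := isIntegral_along φ hφ
    exact P'.ramificationIndex_pos (F := κ)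
  have hpos' : (0 : ℤ) < (Place.ramificationIndexAlong φ P' : ℤ) := by exact_mod_cast hpos
  constructor
  · rintro (h0 | h1)
    · left
      exact (map_eq_zero φ).mp h0
    · right
      by_contra hlt
      have : (P'.restrictAlong φ hφ).ord (f - algebraMap k κ c) ≤ 0 := by omega
      nlinarith
  · rintro (h0 | h1)
    · left
      rw [h0, map_zero]
    · right
      nlinarith

/-- the order of `φ f` is non-negative iff the order of `f` at the restricted place is -/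
theorem mltj7_ord_nonneg_along {f : κ} :
    0 ≤ P'.ord (φ f) ↔ 0 ≤ (P'.restrictAlong φ hφ).ord f := by
  rw [Place.ord_restrictAlong φ hφ P']
  have hpos : 0 < Place.ramificationIndexAlong φ P' := by
    letI := algebraAlong φ
    haveI := isScalarTower_along φ
    haveI := isIntegral_along φ hφ
    exact P'.ramificationIndex_pos (F := κ)
  have hpos' : (0 : ℤ) < (Place.ramificationIndexAlong φ P' : ℤ) := by exact_mod_cast hpos
  constructor
  · intro h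
    by_contra hlt
    have : (P'.restrictAlong φ hφ).ord f ≤ -1 := by omega
    nlinarith
  · intro h
    exact mul_nonneg hpos'.le h

end ValAlong

variable {L k : Type*} [Field L] [Field k] {B : DlBase L k}
  {F F' κ₁ κ₂ κ₁' κ₂' : Type*} [Field F] [Field F'] [Algebra L F] [Algebra L F']
  [Field κ₁] [Algebra k κ₁] [Field κ₂] [Algebra k κ₂] [Field κ₁'] [Algebra k κ₁'] [Field κ₂'] [Algebra k κ₂']

/-- **a morphism of charts over the same base, with a change of the residue function fields** -/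
structure MltJ7ChartHom {g₁ : DlPlace B F κ₁} {g₂ : DlPlace B F κ₂} {g₁' : DlPlace B F' κ₁'}
    {g₂' : DlPlace B F' κ₂'} {σ σ' : Type*} [Fintype σ] [Fintype σ']
    (C : DlxChart g₁ g₂ σ) (C' : DlxChart g₁' g₂' σ') where
  ιF : F →ₐ[L] F'
  φ₁ : κ₁ →ₐ[k] κ₁'
  φ₂ : κ₂ →ₐ[k] κ₂'
  hφ₁ : φ₁.toRingHom.IsIntegral
  hφ₂ : φ₂.toRingHom.IsIntegral
  hO₁ : ∀ f : F, f ∈ g₁.O → ιF f ∈ g₁'.O
  hres₁ : ∀ (f : F) (hf : f ∈ g₁.O), g₁'.res ⟨ιF f, hO₁ f hf⟩ = φ₁ (g₁.res ⟨f, hf⟩)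
  hO₂ : ∀ f : F, f ∈ g₂.O → ιF f ∈ g₂'.O
  hres₂ : ∀ (f : F) (hf : f ∈ g₂.O), g₂'.res ⟨ιF f, hO₂ f hf⟩ = φ₂ (g₂.res ⟨f, hf⟩)
  hB : ∀ f : F, f ∈ C.P.B → ιF f ∈ C'.P.B
  /-- the finite parts of the first components correspond -/
  hfin₁ : ∀ P' : Place k κ₁', 0 ≤ P'.ord C'.G.x.1 ↔ 0 ≤ (P'.restrictAlong φ₁ hφ₁).ord C.G.x.1
  /-- the finite parts of the second components correspond -/
  hfin₂ : ∀ Q' : Place k κ₂', 0 ≤ Q'.ord C'.G.x.2 ↔ 0 ≤ (Q'.restrictAlong φ₂ hφ₂).ord C.G.x.2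

namespace MltJ7ChartHom

variable [IsAlgClosed k] {g₁ : DlPlace B F κ₁} {g₂ : DlPlace B F κ₂} {g₁' : DlPlace B F' κ₁'}
  {g₂' : DlPlace B F' κ₂'} {σ σ' : Type*} [Fintype σ] [Fintype σ']
  {C : DlxChart g₁ g₂ σ} {C' : DlxChart g₁' g₂' σ'} (h : MltJ7ChartHom C C')

/-- the map of chart rings -/
def mapB : ↥C.P.B →+* ↥C'.P.B :=
  (h.ιF.toRingHom.comp C.P.B.subtype).codRestrict C'.P.B (fun b => h.hB b b.2)

@[simp] theorem coe_mapB (b : ↥C.P.B) : ((h.mapB b : ↥C'.P.B) : F') = h.ιF (b : F) := rfl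

theorem res₁_mapB (b : ↥C.P.B) : C'.res₁ (h.mapB b) = h.φ₁ (C.res₁ b) :=
  h.hres₁ _ (C.B_le₁ b.2)

theorem res₂_mapB (b : ↥C.P.B) : C'.res₂ (h.mapB b) = h.φ₂ (C.res₂ b) :=
  h.hres₂ _ (C.B_le₂ b.2)

/-- the special fibres correspond -/
theorem S_map {t : κ₁ × κ₂} (ht : t ∈ C.G.S) : (h.φ₁ t.1, h.φ₂ t.2) ∈ C'.G.S := by
  obtain ⟨b, hb1, hb2⟩ := C.exists_lift ht
  have := C'.res_mem_S (h.mapB b)
  rwa [h.res₁_mapB, h.res₂_mapB, hb1, hb2] at this

/-- units of the first Gauss place go to units -/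
theorem unitV₁ {f : F} (hf : C.V₁.valuation f = 1) : C'.V₁.valuation (h.ιF f) = 1 := by
  have hfO : f ∈ g₁.O := (dlx_mem_iff g₁ C.V₁ C.hV₁ f).mp
    ((C.V₁.valuation_le_one_iff f).mp hf.le)
  have h1 : g₁.res ⟨f, hfO⟩ ≠ 0 := (dlx_res_ne_zero_iff g₁ C.V₁ C.hV₁ hfO).mpr hf
  have h2 : g₁'.res ⟨h.ιF f, h.hO₁ f hfO⟩ ≠ 0 := by
    rw [h.hres₁ f hfO]
    exact (map_ne_zero h.φ₁).mpr h1
  exact (dlx_res_ne_zero_iff g₁' C'.V₁ C'.hV₁ (h.hO₁ f hfO)).mp h2

/-- units of the second Gauss place go to units -/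
theorem unitV₂ {f : F} (hf : C.V₂.valuation f = 1) : C'.V₂.valuation (h.ιF f) = 1 := by
  have hfO : f ∈ g₂.O := (dlx_mem_iff g₂ C.V₂ C.hV₂ f).mp
    ((C.V₂.valuation_le_one_iff f).mp hf.le)
  have h1 : g₂.res ⟨f, hfO⟩ ≠ 0 := (dlx_res_ne_zero_iff g₂ C.V₂ C.hV₂ hfO).mpr hf
  have h2 : g₂'.res ⟨h.ιF f, h.hO₂ f hfO⟩ ≠ 0 := by
    rw [h.hres₂ f hfO]
    exact (map_ne_zero h.φ₂).mpr h1
  exact (dlx_res_ne_zero_iff g₂' C'.V₂ C'.hV₂ (h.hO₂ f hfO)).mp h2

section Point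

variable (P' : Place k κ₁') (hP' : 0 ≤ P'.ord C'.G.x.1)

/-- the place below `P'` -/
noncomputable abbrev dn₁ : Place k κ₁ := P'.restrictAlong h.φ₁ h.hφ₁

include hP' in
theorem hP : 0 ≤ (h.dn₁ P').ord C.G.x.1 := (h.hfin₁ P').mp hP'

/-- the evaluations at `P'` and at the place below agree -/
theorem ev₁_mapB (b : ↥C.P.B) :
    C'.ev₁ P' hP' (h.mapB b) = C.ev₁ (h.dn₁ P') (h.hP P' hP') b := by
  rw [DlxChart.ev₁_eq_iff, h.res₁_mapB, mltj7_val_along h.φ₁ h.hφ₁ P']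
  exact C.ev₁_spec _ _ b

theorem mem_n₁_mapB (b : ↥C.P.B) :
    h.mapB b ∈ C'.n₁ P' hP' ↔ b ∈ C.n₁ (h.dn₁ P') (h.hP P' hP') := by
  rw [DlxChart.mem_n₁, DlxChart.mem_n₁, h.ev₁_mapB]

/-- the local rings are compatible -/
theorem map_A₁ {f : F} (hf : f ∈ C.A₁ (h.dn₁ P') (h.hP P' hP')) : h.ιF f ∈ C'.A₁ P' hP' := by
  obtain ⟨c, hc, hcf⟩ := (C.P.mem_loc_iff).mp hf
  refine (C'.P.mem_loc_iff).mpr ⟨h.mapB c, fun hmem => hc ((h.mem_n₁_mapB P' hP' c).mp hmem), ?_⟩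
  have := h.hB _ hcf
  rwa [map_mul] at this

/-- the map of local rings -/
noncomputable def mapA : ↥(C.A₁ (h.dn₁ P') (h.hP P' hP')) →+* ↥(C'.A₁ P' hP') :=
  (h.ιF.toRingHom.comp (C.A₁ (h.dn₁ P') (h.hP P' hP')).subtype).codRestrict (C'.A₁ P' hP')
    (fun a => h.map_A₁ P' hP' a.2)

@[simp] theorem coe_mapA (a : ↥(C.A₁ (h.dn₁ P') (h.hP P' hP'))) :
    ((h.mapA P' hP' a : ↥(C'.A₁ P' hP')) : F') = h.ιF (a : F) := rfl

theorem lres₁_mapA (a : ↥(C.A₁ (h.dn₁ P') (h.hP P' hP'))) :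
    C'.lres₁ P' hP' (h.mapA P' hP' a) = h.φ₁ (C.lres₁ (h.dn₁ P') (h.hP P' hP') a) :=
  h.hres₁ _ (C.A₁_le₁ _ _ a.2)

theorem lev₁_mapA (a : ↥(C.A₁ (h.dn₁ P') (h.hP P' hP'))) :
    C'.lev₁ P' hP' (h.mapA P' hP' a) = C.lev₁ (h.dn₁ P') (h.hP P' hP') a := by
  rw [DlxChart.lev₁_eq_iff, h.lres₁_mapA, mltj7_val_along h.φ₁ h.hφ₁ P']
  exact C.lev₁_spec _ _ a

theorem isUnit_mapA_iff (a : ↥(C.A₁ (h.dn₁ P') (h.hP P' hP'))) :
    IsUnit (h.mapA P' hP' a) ↔ IsUnit a := by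
  rw [DlxChart.isUnit_A₁_iff, DlxChart.isUnit_A₁_iff, h.lev₁_mapA]

end Point

section Down

variable {s' : Place k κ₁' × Place k κ₂'} (hs' : s' ∈ C'.G.nodes)

/-- the place below `Q'` on the second component -/
noncomputable abbrev dn₂ (Q' : Place k κ₂') : Place k κ₂ := Q'.restrictAlong h.φ₂ h.hφ₂

include hs' in
/-- elements of `S` take the same value at the two places below the branches of a node of `C'` -/
theorem val_down {t : κ₁ × κ₂} (ht : t ∈ C.G.S) (c : k) :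
    DlgVal (h.dn₁ s'.1) t.1 c ↔ DlgVal (h.dn₂ s'.2) t.2 c := by
  rw [← mltj7_val_along h.φ₁ h.hφ₁, ← mltj7_val_along h.φ₂ h.hφ₂]
  exact C'.G.val_node (h.S_map ht) hs' c

include hs' in
/-- **going down**: the image of a node is a node -/
theorem node_down : (h.dn₁ s'.1, h.dn₂ s'.2) ∈ C.G.nodes := by
  classical
  set P := h.dn₁ s'.1 with hPdef
  set Q := h.dn₂ s'.2 with hQdef
  have hP : 0 ≤ P.ord C.G.x.1 := (h.hfin₁ s'.1).mp (C'.G.nodes_fin hs').1
  have hQ : 0 ≤ Q.ord C.G.x.2 := (h.hfin₂ s'.2).mp (C'.G.nodes_fin hs').2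
  have h10 : (1 : k) ≠ 0 := one_ne_zero
  -- `P` is a branch of a node
  have hex : ∃ Q₀, (P, Q₀) ∈ C.G.nodes := by
    by_contra hfree
    push Not at hfree
    obtain ⟨a, ha, b, hb, hb1, hb2, -, -⟩ := C.G.local_free₁ hP hfree (DlgVal.one P)
    have h1 : DlgVal Q b.2 1 := (h.val_down hs' hb 1).mp hb1
    rw [hb2] at h1
    exact h10 (h1.unique (DlgVal.zero Q))
  obtain ⟨Q₀, h0⟩ := hex
  -- the other branch is `Q`
  suffices hQQ : Q₀ = Q by rw [← hQQ]; exact h0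
  by_contra hne
  haveI := C.G.sep₁
  haveI := C.G.sep₂
  have hPmem : P ∈ C.G.nodes₁ := C.G.mem_nodes₁.mpr ⟨Q₀, h0⟩
  have hQ₀mem : Q₀ ∈ insert Q C.G.nodes₂ :=
    Finset.mem_insert_of_mem (C.G.mem_nodes₂.mpr ⟨P, h0⟩)
  have hT₂ : ∀ Q' ∈ insert Q C.G.nodes₂, 0 ≤ Q'.ord C.G.x.2 := by
    intro Q' hQ'
    rcases Finset.mem_insert.mp hQ' with rfl | hQ'
    · exact hQ
    · exact C.G.nodes₂_fin hQ'
  obtain ⟨u₁, hu₁, hu₁P, hu₁T⟩ :=
    t3a_exists_indicator_ded C.G.gen₁ C.G.nodes₁ (fun _ hQ' => C.G.nodes₁_fin hQ') P hPmem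
  obtain ⟨u₂, hu₂, hu₂Q, hu₂T⟩ :=
    t3a_exists_indicator_ded C.G.gen₂ (insert Q C.G.nodes₂) hT₂ Q₀ hQ₀mem
  have hu₁P' : DlgVal P u₁ 1 := by unfold DlgVal; rwa [map_one]
  have hu₂Q' : DlgVal Q₀ u₂ 1 := by unfold DlgVal; rwa [map_one]
  have ht : ((u₁, u₂) : κ₁ × κ₂) ∈ C.G.S := by
    refine C.G.mem_S_of_vals hu₁ hu₂ (fun s'' hs'' => ?_)
    by_cases hss : s'' = (P, Q₀)
    · subst hss
      exact ⟨1, hu₁P', hu₂Q'⟩
    · have hne1 : s''.1 ≠ P := fun e => hss (C.G.nodes_inj_left hs'' h0 e)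
      have hne2 : s''.2 ≠ Q₀ := fun e => hss (C.G.nodes_inj_right hs'' h0 e)
      exact ⟨0, DlgVal.of_ordGE (hu₁T s''.1 (C.G.mem_nodes₁.mpr ⟨s''.2, hs''⟩) hne1),
        DlgVal.of_ordGE (hu₂T s''.2
          (Finset.mem_insert_of_mem (C.G.mem_nodes₂.mpr ⟨s''.1, hs''⟩)) hne2)⟩
  have h1 : DlgVal Q u₂ 1 := (h.val_down hs' ht 1).mp hu₁P'
  have h2 : DlgVal Q u₂ 0 :=
    DlgVal.of_ordGE (hu₂T Q (Finset.mem_insert_self _ _) (Ne.symm hne))
  exact h10 (h1.unique h2)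

end Down

section Node

variable [IsDiscreteValuationRing ↥B.A] [IsNoetherianRing ↥C.P.B] [IsNoetherianRing ↥C'.P.B]
  (T : DlqfVert C) (T' : DlqfVert C') {s' : Place k κ₁' × Place k κ₂'} (hs' : s' ∈ C'.G.nodes)

/-- **the morphism of nodes** induced by a morphism of charts at a node of `C'` -/
theorem nodeHom :
    MltJ7NodeHomL (T.node (h.node_down hs')) (T'.node hs') h.ιF.toRingHom where
  pi := by
    rw [T.node_pi, T'.node_pi]
    exact h.ιF.commutes _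
  mem := fun f hf => (T'.mem_node_B hs').mpr
    (h.map_A₁ s'.1 (C'.node_fin₁ hs') ((T.mem_node_B (h.node_down hs')).mp hf))
  unitW := fun f hf => by
    rw [T'.node_W]
    rw [T.node_W] at hf
    exact h.unitV₁ hf
  unitW' := fun f hf => by
    rw [T'.node_W']
    rw [T.node_W'] at hf
    exact h.unitV₂ hf
  comm := h.ιF.commutes
  O_le := fun a ha => by
    rw [T'.node_O]
    rw [T.node_O] at ha
    exact ha

/-- the slope at a node of `C'` of the pull-back of a unit of the first Gauss place -/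
theorem slope_map_unit {z : F} (hz : z ∈ g₁.O) (hy : g₁.res ⟨z, hz⟩ ≠ 0) :
    (T'.node hs').slope (h.ιF z) =
      Place.ramificationIndexAlong h.φ₁ s'.1 * (T.node (h.node_down hs')).slope z := by
  have hy' : g₁'.res ⟨h.ιF z, h.hO₁ z hz⟩ ≠ 0 := by
    rw [h.hres₁ z hz]
    exact (map_ne_zero h.φ₁).mpr hy
  rw [T'.node_slope, T.node_slope]
  unfold DlqfVert.cross
  rw [dlqf_toCross_slope_unit C' hs' (T'.hfin _ _) T'.hens T'.D T'.hD0 T'.hDhor T'.hD1 T'.hD2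
      (h.hO₁ z hz) hy',
    dlqf_toCross_slope_unit C (h.node_down hs') (T.hfin _ _) T.hens T.D T.hD0 T.hDhor T.hD1 T.hD2
      hz hy, h.hres₁ z hz]
  exact Place.ord_restrictAlong h.φ₁ h.hφ₁ s'.1 _

/-- **the slope of the pull-back of the node coordinate is the ramification index of the branch** -/
theorem slope_map_t :
    (T'.node hs').slope (h.ιF (T.node (h.node_down hs')).t) =
      Place.ramificationIndexAlong h.φ₁ s'.1 := by
  have hW : C.V₁.valuation (T.node (h.node_down hs')).t = 1 := by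
    have := (T.node (h.node_down hs')).Wt
    rwa [T.node_W] at this
  have hz : (T.node (h.node_down hs')).t ∈ g₁.O :=
    (dlx_mem_iff g₁ C.V₁ C.hV₁ _).mp ((C.V₁.valuation_le_one_iff _).mp hW.le)
  have hy : g₁.res ⟨_, hz⟩ ≠ 0 := (dlx_res_ne_zero_iff g₁ C.V₁ C.hV₁ hz).mpr hW
  rw [h.slope_map_unit T T' hs' hz hy, DlNode.slope_t, mul_one]

/-- **the thicknesses**: `w_s = e(s'.1 | s.1) · w_{s'}` -/
theorem thick_eq :
    ((T.node (h.node_down hs')).w : ℤ) =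
      Place.ramificationIndexAlong h.φ₁ s'.1 * (T'.node hs').w := by
  have h1 := (h.nodeHom T T' hs').toMltJ7NodeHom.slope_law
  have h2 := h.slope_map_t T T' hs'
  simp only [AlgHom.toRingHom_eq_coe, RingHom.coe_coe] at h1
  rw [h2] at h1
  exact h1

include T in
/-- **going up**: a place of the finite part of `C'` over a branch of a node of `C` is a branch of a node -/
theorem node_up (P' : Place k κ₁') (hP' : 0 ≤ P'.ord C'.G.x.1) {Q : Place k κ₂}
    (hs : (h.dn₁ P', Q) ∈ C.G.nodes) : ∃ Q', (P', Q') ∈ C'.G.nodes := by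
  by_contra hfree
  push Not at hfree
  have hπ : (T.node hs).pi = g₁.pi := T.node_pi hs
  have hππ : h.ιF g₁.pi = g₁'.pi := h.ιF.commutes _
  have hπ0 : g₁'.pi ≠ 0 := g₁'.pi_ne_zero
  have htt' : (T.node hs).t * (T.node hs).t' = g₁.pi ^ (T.node hs).w := by
    rw [← hπ]
    exact (T.node hs).tt'
  have htA : (T.node hs).t ∈ C.A₁ (h.dn₁ P') (h.hP P' hP') := (T.mem_node_B hs).mp (T.node hs).ht
  have ht'A : (T.node hs).t' ∈ C.A₁ (h.dn₁ P') (h.hP P' hP') :=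
    (T.mem_node_B hs).mp (T.node hs).ht'
  have hιtA : h.ιF (T.node hs).t ∈ C'.A₁ P' hP' := h.map_A₁ P' hP' htA
  have hv1 : C'.V₁.valuation (h.ιF (T.node hs).t) = 1 := h.unitV₁ (by
    have := (T.node hs).Wt
    rwa [T.node_W] at this)
  have hprod : ∀ i : ℕ, i ≤ (T.node hs).w →
      h.ιF (T.node hs).t * (h.ιF (T.node hs).t' / g₁'.pi ^ i) = g₁'.pi ^ ((T.node hs).w - i) := by
    intro i hi
    rw [← mul_div_assoc, ← map_mul, htt', map_pow, hππ, div_eq_iff (pow_ne_zero _ hπ0), ← pow_add]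
    congr 1
    omega
  have key : ∀ i : ℕ, i ≤ (T.node hs).w → h.ιF (T.node hs).t' / g₁'.pi ^ i ∈ C'.A₁ P' hP' := by
    intro i
    induction i with
    | zero =>
      intro _
      rw [pow_zero, div_one]
      exact h.map_A₁ P' hP' ht'A
    | succ i ih =>
      intro hi
      have hi' : i ≤ (T.node hs).w := by omega
      have ha := ih hi'
      have hv2 : C'.V₁.valuation (g₁'.pi ^ ((T.node hs).w - i)) < 1 := by
        rw [map_pow]
        exact pow_lt_one₀ zero_le (g₁'.unif C'.V₁ C'.hV₁).1 (by omega)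
      have hv3 : C'.V₁.valuation (h.ιF (T.node hs).t' / g₁'.pi ^ i) < 1 := by
        have := congrArg C'.V₁.valuation (hprod i hi')
        rw [map_mul, hv1, one_mul] at this
        rw [this]
        exact hv2
      have := C'.div_pi_mem_A₁_free P' hP' hfree ha hv3
      rwa [div_div, ← pow_succ] at this
  have hu : h.ιF (T.node hs).t * (h.ιF (T.node hs).t' / g₁'.pi ^ (T.node hs).w) = 1 := by
    rw [hprod _ le_rfl, Nat.sub_self, pow_zero]
  have hunit : IsUnit (h.mapA P' hP' ⟨(T.node hs).t, htA⟩) :=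
    isUnit_iff_exists_inv.mpr ⟨⟨_, key _ le_rfl⟩, Subtype.ext hu⟩
  have hunit' : IsUnit (⟨(T.node hs).t, htA⟩ : ↥(C.A₁ (h.dn₁ P') (h.hP P' hP'))) :=
    (h.isUnit_mapA_iff P' hP' _).mp hunit
  have hmax := (T.mem_max_iff hs (T.node hs).ht).not.mpr (not_not.mpr hunit')
  apply (T.node hs).par.t_not_isU
  rw [DlNode.par_t]
  have h1 : IsUnit (⟨(T.node hs).t, (T.node hs).ht⟩ : ↥(T.node hs).P.B) := by
    by_contra hnu
    exact hmax hnu
  exact (dln_isU_iff_isUnit (T.node hs).toDlLocal ⟨(T.node hs).t, (T.node hs).ht⟩).mpr h1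

end Node

end MltJ7ChartHom

end Fermat.Agent.MLT
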