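/-
MLT (project S59) / L2-JL, package P7 (helper2): (S3) Hecke-equivariance of slopes, file 5:
**the degeneracy maps `α^*, β^* : F_{K q, H} → F_{K ℓ q, H}` at an inertia level `L_H`**, and their
compatibility with the Atkin–Lehner involution `w_q` and with the two Gauss places `v_∞`, `v_0`.

`q = 𝔓.p`, `F_{N,H} = tbLevF 𝔓 N H`.
* `mltj7A`, `mltj7B : tbLevF 𝔓 (K * q) H →ₐ[L_H] tbLevF 𝔓 (K * ℓ * q) H` (`x ↦ x`, `x(q) ↦ x(q^ℓ)`);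
* `mltj7A_w`, `mltj7B_w` : they commute with `t2wLev`;
* `mltj7A_inf`, `mltj7A_zero`, `mltj7B_inf`, `mltj7B_zero` : they map the Gauss rings into the Gauss rings and
  commute with the residue maps (`dlhAlphaC`, `dlhBetaC` on the residue function fields).
-/
import Mathlib
import Fermat.Agent.Lib.Delta.End.WHecke
import Fermat.Agent.Lib.Delta.Toric.InstH
import Fermat.Agent.Lib.Delta.Hecke.Gauss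

set_option autoImplicit false
set_option linter.style.haveILetI false
set_option linter.unusedSectionVars false
set_option linter.unusedVariables false
set_option synthInstance.maxHeartbeats 400000
set_option maxHeartbeats 1000000

open HahnSeries ModularCurve Fermat.Agent.T1 Fermat.Agent.T2 Fermat.Agent.TW Fermat.Agent.S05Lib
  Fermat.Agent.S24Lib Fermat.Agent.T3 Fermat.Agent.Delta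

noncomputable section

namespace Fermat.Agent.MLT

local notation "Qb" => AlgebraicClosure ℚ

attribute [local instance] t2i_dvr t2i_isAlgClosed t2i_charP t2i_fact
attribute [local instance 10000] dliAlgF dliAlgE

variable (𝔓 : FFPlace) (H : Subgroup 𝔓.I) (K ℓ : ℕ) [NeZero K] [NeZero ℓ]

theorem mltj7_level_comm : K * 𝔓.p * ℓ = K * ℓ * 𝔓.p := by ring

theorem mltj7_mem_cast {M M' : ℕ} [NeZero M] [NeZero M'] (hM : M = M')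
    {x : LaurentSeries ↥(tbFix 𝔓 H)} (hx : x ∈ tbLevF 𝔓 M H) : x ∈ tbLevF 𝔓 M' H := by
  subst hM
  exact hx

theorem mltj7_le : tbLevF 𝔓 (K * 𝔓.p) H ≤ tbLevF 𝔓 (K * ℓ * 𝔓.p) H := fun x hx =>
  mltj7_mem_cast 𝔓 H (mltj7_level_comm 𝔓 K ℓ) (heckeAlphaBar ↥(tbFix 𝔓 H) (K * 𝔓.p) ℓ ⟨x, hx⟩).2

theorem mltj7_B_mem {x : LaurentSeries ↥(tbFix 𝔓 H)} (hx : x ∈ tbLevF 𝔓 (K * 𝔓.p) H) :
    qExpand ↥(tbFix 𝔓 H) ℓ x ∈ tbLevF 𝔓 (K * ℓ * 𝔓.p) H :=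
  mltj7_mem_cast 𝔓 H (mltj7_level_comm 𝔓 K ℓ) (heckeBetaBar ↥(tbFix 𝔓 H) (K * 𝔓.p) ℓ ⟨x, hx⟩).2

/-- `α^* : F_{K q, H} → F_{K ℓ q, H}`, `x ↦ x` -/
def mltj7A : ↥(tbLevF 𝔓 (K * 𝔓.p) H) →ₐ[↥(tbFix 𝔓 H)] ↥(tbLevF 𝔓 (K * ℓ * 𝔓.p) H) :=
  IntermediateField.inclusion (mltj7_le 𝔓 H K ℓ)

@[simp] theorem coe_mltj7A (x : ↥(tbLevF 𝔓 (K * 𝔓.p) H)) :
    ((mltj7A 𝔓 H K ℓ x : ↥(tbLevF 𝔓 (K * ℓ * 𝔓.p) H)) : LaurentSeries ↥(tbFix 𝔓 H)) =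
      (x : LaurentSeries ↥(tbFix 𝔓 H)) := IntermediateField.coe_inclusion _ x

/-- `β^*` as a ring homomorphism -/
def mltj7BRingHom : ↥(tbLevF 𝔓 (K * 𝔓.p) H) →+* ↥(tbLevF 𝔓 (K * ℓ * 𝔓.p) H) where
  toFun x := ⟨qExpand ↥(tbFix 𝔓 H) ℓ (x : LaurentSeries ↥(tbFix 𝔓 H)), mltj7_B_mem 𝔓 H K ℓ x.2⟩
  map_one' := Subtype.ext (map_one (qExpand ↥(tbFix 𝔓 H) ℓ))
  map_mul' _ _ := Subtype.ext (map_mul (qExpand ↥(tbFix 𝔓 H) ℓ) _ _)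
  map_zero' := Subtype.ext (map_zero (qExpand ↥(tbFix 𝔓 H) ℓ))
  map_add' _ _ := Subtype.ext (map_add (qExpand ↥(tbFix 𝔓 H) ℓ) _ _)

/-- `β^* : F_{K q, H} → F_{K ℓ q, H}`, `x(q) ↦ x(q^ℓ)` -/
def mltj7B : ↥(tbLevF 𝔓 (K * 𝔓.p) H) →ₐ[↥(tbFix 𝔓 H)] ↥(tbLevF 𝔓 (K * ℓ * 𝔓.p) H) :=
  { mltj7BRingHom 𝔓 H K ℓ with
    commutes' := fun a => Subtype.ext <| by
      show qExpand ↥(tbFix 𝔓 H) ℓ (algebraMap ↥(tbFix 𝔓 H) (LaurentSeries ↥(tbFix 𝔓 H)) a) =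
        algebraMap ↥(tbFix 𝔓 H) (LaurentSeries ↥(tbFix 𝔓 H)) a
      rw [algebraMap_laurentSeries_eq_single, qExpand_single, mul_zero] }

@[simp] theorem coe_mltj7B (x : ↥(tbLevF 𝔓 (K * 𝔓.p) H)) :
    ((mltj7B 𝔓 H K ℓ x : ↥(tbLevF 𝔓 (K * ℓ * 𝔓.p) H)) : LaurentSeries ↥(tbFix 𝔓 H)) =
      qExpand ↥(tbFix 𝔓 H) ℓ (x : LaurentSeries ↥(tbFix 𝔓 H)) := rfl

/-! ### compatibility with the maps over `ℚ̄` -/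

theorem tbPhiF_mltj7A (x : ↥(tbLevF 𝔓 (K * 𝔓.p) H)) :
    tbPhiF 𝔓 (K * ℓ * 𝔓.p) H (mltj7A 𝔓 H K ℓ x) = t3pIncl K ℓ 𝔓.p (tbPhiF 𝔓 (K * 𝔓.p) H x) := by
  apply Subtype.ext
  rw [coe_tbPhiF, coe_mltj7A, coe_t3pIncl, coe_tbPhiF]

variable [hℓ : Fact ℓ.Prime]

theorem tbPhiF_mltj7B (x : ↥(tbLevF 𝔓 (K * 𝔓.p) H)) :
    tbPhiF 𝔓 (K * ℓ * 𝔓.p) H (mltj7B 𝔓 H K ℓ x) = dleBetaI K 𝔓.p ℓ (tbPhiF 𝔓 (K * 𝔓.p) H x) := by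
  apply Subtype.ext
  rw [coe_tbPhiF, coe_mltj7B, coe_dleBetaI, coe_tbPhiF, tbPhi, coeffMap_qExpand]

/-! ### compatibility with the Atkin–Lehner involution -/

variable (h : ¬ 𝔓.p ∣ K) (h' : ¬ 𝔓.p ∣ K * ℓ)

/-- `w_q ∘ α^* = α^* ∘ w_q` -/
theorem mltj7A_w (x : ↥(tbLevF 𝔓 (K * 𝔓.p) H)) :
    t2wLev 𝔓 H (K * ℓ) 𝔓.p h' (mltj7A 𝔓 H K ℓ x) = mltj7A 𝔓 H K ℓ (t2wLev 𝔓 H K 𝔓.p h x) := by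
  apply tbPhiF_injective 𝔓 (K * ℓ * 𝔓.p) H
  rw [tbPhiF_t2wLev, tbPhiF_mltj7A, tbPhiF_mltj7A, tbPhiF_t2wLev, dlw_w_incl K ℓ 𝔓.p h h']

/-- `w_q ∘ β^* = β^* ∘ w_q` -/
theorem mltj7B_w (x : ↥(tbLevF 𝔓 (K * 𝔓.p) H)) :
    t2wLev 𝔓 H (K * ℓ) 𝔓.p h' (mltj7B 𝔓 H K ℓ x) = mltj7B 𝔓 H K ℓ (t2wLev 𝔓 H K 𝔓.p h x) := by
  apply tbPhiF_injective 𝔓 (K * ℓ * 𝔓.p) H
  rw [tbPhiF_t2wLev, tbPhiF_mltj7B, tbPhiF_mltj7B, tbPhiF_t2wLev, dle_w_beta K 𝔓.p ℓ h h']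

/-! ### compatibility with the Gauss places -/

section Gauss

variable [H.FiniteIndex] {ϖ : ↥(tbFixO 𝔓 H)} (hϖ : Irreducible ϖ)

theorem mltj7A_inf_mem {f : ↥(tbLevF 𝔓 (K * 𝔓.p) H)} (hf : f ∈ (dliInfH 𝔓 H hϖ K h).O) :
    mltj7A 𝔓 H K ℓ f ∈ (dliInfH 𝔓 H hϖ (K * ℓ) h').O := by
  rw [mem_dliInfH] at hf ⊢
  rwa [coe_mltj7A]

theorem mltj7A_inf_res {f : ↥(tbLevF 𝔓 (K * 𝔓.p) H)} (hf : f ∈ (dliInfH 𝔓 H hϖ K h).O) :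
    (dliInfH 𝔓 H hϖ (K * ℓ) h').res ⟨mltj7A 𝔓 H K ℓ f, mltj7A_inf_mem 𝔓 H K ℓ h h' hϖ hf⟩ =
      dlhAlphaC (IsLocalRing.ResidueField ↥𝔓.P) K ℓ ((dliInfH 𝔓 H hϖ K h).res ⟨f, hf⟩) := by
  apply Subtype.ext
  rw [coe_dliInfH_res, coe_dlhAlphaC, coe_dliInfH_res, coe_mltj7A]

theorem mltj7A_zero_mem {f : ↥(tbLevF 𝔓 (K * 𝔓.p) H)} (hf : f ∈ (dliZeroH 𝔓 H hϖ K h).O) :
    mltj7A 𝔓 H K ℓ f ∈ (dliZeroH 𝔓 H hϖ (K * ℓ) h').O := by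
  rw [mem_dliZeroH] at hf ⊢
  rwa [mltj7A_w 𝔓 H K ℓ h h', coe_mltj7A]

theorem mltj7A_zero_res {f : ↥(tbLevF 𝔓 (K * 𝔓.p) H)} (hf : f ∈ (dliZeroH 𝔓 H hϖ K h).O) :
    (dliZeroH 𝔓 H hϖ (K * ℓ) h').res ⟨mltj7A 𝔓 H K ℓ f, mltj7A_zero_mem 𝔓 H K ℓ h h' hϖ hf⟩ =
      dlhAlphaC (IsLocalRing.ResidueField ↥𝔓.P) K ℓ ((dliZeroH 𝔓 H hϖ K h).res ⟨f, hf⟩) := by
  apply Subtype.ext
  rw [coe_dliZeroH_res, coe_dlhAlphaC, coe_dliZeroH_res, mltj7A_w 𝔓 H K ℓ h h', coe_mltj7A]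

theorem mltj7B_inf_mem {f : ↥(tbLevF 𝔓 (K * 𝔓.p) H)} (hf : f ∈ (dliInfH 𝔓 H hϖ K h).O) :
    mltj7B 𝔓 H K ℓ f ∈ (dliInfH 𝔓 H hϖ (K * ℓ) h').O := by
  rw [mem_dliInfH] at hf ⊢
  rw [coe_mltj7B]
  exact (dlh_gauss_qExpand _ _ hf ℓ).1

theorem mltj7B_inf_res {f : ↥(tbLevF 𝔓 (K * 𝔓.p) H)} (hf : f ∈ (dliInfH 𝔓 H hϖ K h).O) :
    (dliInfH 𝔓 H hϖ (K * ℓ) h').res ⟨mltj7B 𝔓 H K ℓ f, mltj7B_inf_mem 𝔓 H K ℓ h h' hϖ hf⟩ =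
      dlhBetaC (IsLocalRing.ResidueField ↥𝔓.P) K ℓ ((dliInfH 𝔓 H hϖ K h).res ⟨f, hf⟩) := by
  apply Subtype.ext
  rw [coe_dliInfH_res, coe_dlhBetaC, coe_dliInfH_res, coe_mltj7B]
  exact (dlh_gauss_qExpand _ _ ((mem_dliInfH 𝔓 H hϖ K h f).mp hf) ℓ).2

theorem mltj7B_zero_mem {f : ↥(tbLevF 𝔓 (K * 𝔓.p) H)} (hf : f ∈ (dliZeroH 𝔓 H hϖ K h).O) :
    mltj7B 𝔓 H K ℓ f ∈ (dliZeroH 𝔓 H hϖ (K * ℓ) h').O := by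
  rw [mem_dliZeroH] at hf ⊢
  rw [mltj7B_w 𝔓 H K ℓ h h', coe_mltj7B]
  exact (dlh_gauss_qExpand _ _ hf ℓ).1

theorem mltj7B_zero_res {f : ↥(tbLevF 𝔓 (K * 𝔓.p) H)} (hf : f ∈ (dliZeroH 𝔓 H hϖ K h).O) :
    (dliZeroH 𝔓 H hϖ (K * ℓ) h').res ⟨mltj7B 𝔓 H K ℓ f, mltj7B_zero_mem 𝔓 H K ℓ h h' hϖ hf⟩ =
      dlhBetaC (IsLocalRing.ResidueField ↥𝔓.P) K ℓ ((dliZeroH 𝔓 H hϖ K h).res ⟨f, hf⟩) := by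
  apply Subtype.ext
  rw [coe_dliZeroH_res, coe_dlhBetaC, coe_dliZeroH_res, mltj7B_w 𝔓 H K ℓ h h', coe_mltj7B]
  exact (dlh_gauss_qExpand _ _ ((mem_dliZeroH 𝔓 H hϖ K h f).mp hf) ℓ).2

end Gauss

end Fermat.Agent.MLT
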