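/-
MLT (project S59) / L2-JL, package P7 (helper2): (S3) Hecke-equivariance of slopes, file 6:
**the degeneracy maps are morphisms of charts**: `mltj7HomA`, `mltj7HomB : MltJ7ChartHom C C'`,
`C = dlxChart1` of `X₀(K q)`, `C' = dlxChart1` of `X₀(K ℓ q)` at the same inertia level `H`.
-/
import Mathlib
import Fermat.Agent.Lib.MLT.L2.P7.LevMaps
import Fermat.Agent.Lib.MLT.L2.P7.ChartHom
import Fermat.Agent.Lib.Delta.Core.Main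
import Fermat.Agent.Lib.Delta.Core.Cases
import Fermat.Agent.Lib.Delta.Hecke.Main
import Fermat.Agent.Lib.Mazur.Red.R5P.BetaBar

set_option autoImplicit false
set_option linter.style.haveILetI false
set_option linter.unusedSectionVars false
set_option linter.unusedVariables false
set_option synthInstance.maxHeartbeats 400000
set_option maxHeartbeats 1000000

open HahnSeries ModularCurve Fermat.Agent.T1 Fermat.Agent.T2 Fermat.Agent.T4 Fermat.Agent.TW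
  Fermat.Agent.S05Lib Fermat.Agent.S24Lib IntermediateField AlgebraicCurve Fermat.Agent.Curve Module
  Fermat.Agent.S33 Fermat.Agent.S33Q Fermat.Agent.T3 Fermat.Agent.Delta Fermat.Agent.Igusa
  Fermat.Agent.Curve.PlaceAux Polynomial

noncomputable section

namespace Fermat.Agent.MLT

local notation "Qb" => AlgebraicClosure ℚ

attribute [local instance] t2i_dvr t2i_isAlgClosed t2i_charP t2i_fact
attribute [local instance 10000] dliAlgF dliAlgE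
attribute [local instance 5000] dlhAlgK

/-! ### `j(q^d)` is regular wherever `j` is -/

section Gen

variable {L : Type*} [Field L] [Algebra ℚ L] (N d : ℕ) [NeZero N] [NeZero d] (hd : d ∣ N)
  (hdp : d.Prime)

theorem mltj7_phi_gen :
    ((modPhiK d hdp L).map ((aeval (taJ (L := L) N) : L[X] →ₐ[L] ↥(TaF L N)) :
      L[X] →+* ↥(TaF L N))).eval (taGen (L := L) N hd) = 0 :=
  dlxv_eval_taJ N _ _ (modPhiK_eval_left d hdp L)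

include hdp in
theorem mltj7_gen_mem {V : ValuationSubring ↥(TaF L N)}
    (hL : ∀ c : L, algebraMap L ↥(TaF L N) c ∈ V) (hJ : taJ (L := L) N ∈ V) :
    taGen (L := L) N hd ∈ V :=
  (dlxv_root V hL _ (modPhiK_monic d hdp L) hJ (mltj7_phi_gen N d hd hdp)).1

end Gen

/-! ### The horizontal part -/

section Hor

variable (𝔓 : FFPlace) (H : Subgroup 𝔓.I) (K ℓ : ℕ) [NeZero K] [NeZero ℓ] [hℓ : Fact ℓ.Prime]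
  (h : ¬ 𝔓.p ∣ K) (h' : ¬ 𝔓.p ∣ K * ℓ)

theorem mltj7_l_dvd : ℓ ∣ K * ℓ * 𝔓.p := Dvd.dvd.mul_right (dvd_mul_left ℓ K) 𝔓.p

theorem mltj7A_J : mltj7A 𝔓 H K ℓ (tbLevJ 𝔓 (K * 𝔓.p) H) = tbLevJ 𝔓 (K * ℓ * 𝔓.p) H :=
  Subtype.ext rfl

theorem mltj7B_J : mltj7B 𝔓 H K ℓ (tbLevJ 𝔓 (K * 𝔓.p) H) =
    taGen (L := ↥(tbFix 𝔓 H)) (K * ℓ * 𝔓.p) (mltj7_l_dvd 𝔓 K ℓ) :=
  Subtype.ext rfl

/-- `α^*` maps the symmetric chart to the symmetric chart -/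
theorem mltj7A_X (Q : ℕ) :
    mltj7A 𝔓 H K ℓ (t2gaX 𝔓 H K h Q) = t2gaX 𝔓 H (K * ℓ) h' Q := by
  unfold t2gaX
  rw [map_mul, ← mltj7A_w 𝔓 H K ℓ h h', map_sub, map_pow, mltj7A_J]

/-- `β^*` of the symmetric chart -/
theorem mltj7B_X (Q : ℕ) :
    mltj7B 𝔓 H K ℓ (t2gaX 𝔓 H K h Q) =
      (taGen (L := ↥(tbFix 𝔓 H)) (K * ℓ * 𝔓.p) (mltj7_l_dvd 𝔓 K ℓ) ^ Q -
        taGen (L := ↥(tbFix 𝔓 H)) (K * ℓ * 𝔓.p) (mltj7_l_dvd 𝔓 K ℓ)) *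
      t2wLev 𝔓 H (K * ℓ) 𝔓.p h'
        (taGen (L := ↥(tbFix 𝔓 H)) (K * ℓ * 𝔓.p) (mltj7_l_dvd 𝔓 K ℓ) ^ Q -
          taGen (L := ↥(tbFix 𝔓 H)) (K * ℓ * 𝔓.p) (mltj7_l_dvd 𝔓 K ℓ)) := by
  unfold t2gaX
  rw [map_mul, ← mltj7B_w 𝔓 H K ℓ h h', map_sub, map_pow, mltj7B_J]

/-- `Φ_ℓ(j(q^ℓ), j) = 0` in `F_{K ℓ q, H}` -/
theorem mltj7_phi_Jl :
    ((modPhiK ℓ hℓ.out ↥(tbFix 𝔓 H)).map ((aeval (taJ (L := ↥(tbFix 𝔓 H)) (K * ℓ * 𝔓.p)) :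
      (↥(tbFix 𝔓 H))[X] →ₐ[↥(tbFix 𝔓 H)] ↥(TaF ↥(tbFix 𝔓 H) (K * ℓ * 𝔓.p))) :
      (↥(tbFix 𝔓 H))[X] →+* ↥(TaF ↥(tbFix 𝔓 H) (K * ℓ * 𝔓.p)))).eval
      (taGen (L := ↥(tbFix 𝔓 H)) (K * ℓ * 𝔓.p) (mltj7_l_dvd 𝔓 K ℓ)) = 0 :=
  dlxv_eval_taJ (K * ℓ * 𝔓.p) _ _ (modPhiK_eval_left ℓ hℓ.out ↥(tbFix 𝔓 H))

/-- `j(q^ℓ)` is regular wherever `j` is -/
theorem mltj7_Jl_mem {V : ValuationSubring ↥(tbLevF 𝔓 (K * ℓ * 𝔓.p) H)}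
    (hL : ∀ c : ↥(tbFix 𝔓 H), algebraMap ↥(tbFix 𝔓 H) ↥(tbLevF 𝔓 (K * ℓ * 𝔓.p) H) c ∈ V)
    (hJ : tbLevJ 𝔓 (K * ℓ * 𝔓.p) H ∈ V) :
    taGen (L := ↥(tbFix 𝔓 H)) (K * ℓ * 𝔓.p) (mltj7_l_dvd 𝔓 K ℓ) ∈ V :=
  (dlxv_root V hL _ (modPhiK_monic ℓ hℓ.out ↥(tbFix 𝔓 H)) hJ (mltj7_phi_Jl 𝔓 H K ℓ)).1

/-- `w_q (j(q^ℓ))` is regular wherever `w_q j` is -/
theorem mltj7_wJl_mem {V : ValuationSubring ↥(tbLevF 𝔓 (K * ℓ * 𝔓.p) H)}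
    (hL : ∀ c : ↥(tbFix 𝔓 H), algebraMap ↥(tbFix 𝔓 H) ↥(tbLevF 𝔓 (K * ℓ * 𝔓.p) H) c ∈ V)
    (hJ : t2wLev 𝔓 H (K * ℓ) 𝔓.p h' (tbLevJ 𝔓 (K * ℓ * 𝔓.p) H) ∈ V) :
    t2wLev 𝔓 H (K * ℓ) 𝔓.p h'
      (taGen (L := ↥(tbFix 𝔓 H)) (K * ℓ * 𝔓.p) (mltj7_l_dvd 𝔓 K ℓ)) ∈ V := by
  have hL' : ∀ c : ↥(tbFix 𝔓 H), algebraMap ↥(tbFix 𝔓 H) ↥(tbLevF 𝔓 (K * ℓ * 𝔓.p) H) c ∈
      V.comap ((t2wLev 𝔓 H (K * ℓ) 𝔓.p h' : ↥(tbLevF 𝔓 (K * ℓ * 𝔓.p) H) ≃ₐ[↥(tbFix 𝔓 H)]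
        ↥(tbLevF 𝔓 (K * ℓ * 𝔓.p) H)) : ↥(tbLevF 𝔓 (K * ℓ * 𝔓.p) H) →+*
        ↥(tbLevF 𝔓 (K * ℓ * 𝔓.p) H)) := by
    intro c
    show t2wLev 𝔓 H (K * ℓ) 𝔓.p h' (algebraMap _ _ c) ∈ V
    rw [AlgEquiv.commutes]
    exact hL c
  exact mltj7_Jl_mem 𝔓 H K ℓ hL' hJ

/-- **`β^*` of the chart coordinate is regular at the horizontal places of the chart of level
`K ℓ q`** -/
theorem mltj7B_X_mem {Q : ℕ} (hQ : 2 ≤ Q) {V : ValuationSubring ↥(tbLevF 𝔓 (K * ℓ * 𝔓.p) H)}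
    (hV : V ∈ t4vpHor ↥(tbFix 𝔓 H) (t2gaX 𝔓 H (K * ℓ) h' Q)) :
    mltj7B 𝔓 H K ℓ (t2gaX 𝔓 H K h Q) ∈ V := by
  have hL : ∀ c : ↥(tbFix 𝔓 H), algebraMap ↥(tbFix 𝔓 H) ↥(tbLevF 𝔓 (K * ℓ * 𝔓.p) H) c ∈ V :=
    t4vp_algebraMap_mem_hor hV
  obtain ⟨v, rfl, hx⟩ := hV
  have hJ : tbLevJ 𝔓 (K * ℓ * 𝔓.p) H ∈ v.toValuationSubring :=
    dlxv_taJ_mem_of_chart (t2iALFix 𝔓 H (K * ℓ) h') hQ hL hx
  have hwJ : t2wLev 𝔓 H (K * ℓ) 𝔓.p h' (tbLevJ 𝔓 (K * ℓ * 𝔓.p) H) ∈ v.toValuationSubring := by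
    have e : t2wLev 𝔓 H (K * ℓ) 𝔓.p h' (tbLevJ 𝔓 (K * ℓ * 𝔓.p) H) =
        taGen (L := ↥(tbFix 𝔓 H)) (K * ℓ * 𝔓.p) (dvd_mul_left 𝔓.p (K * ℓ)) :=
      dlxv_w_taJ (t2iALFix 𝔓 H (K * ℓ) h')
    rw [e]
    haveI : NeZero 𝔓.p := ⟨𝔓.hp.ne_zero⟩
    exact mltj7_gen_mem (K * ℓ * 𝔓.p) 𝔓.p _ 𝔓.hp hL hJ
  have h1 := mltj7_Jl_mem 𝔓 H K ℓ hL hJ
  have h2 := mltj7_wJl_mem 𝔓 H K ℓ h' hL hwJ
  rw [mltj7B_X 𝔓 H K ℓ h h', map_sub, map_pow]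
  exact Subring.mul_mem _ (Subring.sub_mem _ (Subring.pow_mem _ h1 _) h1)
    (Subring.sub_mem _ (Subring.pow_mem _ h2 _) h2)

end Hor

/-! ### A criterion for `hB` -/

section HB

variable {L k : Type*} [Field L] [Field k] {B : DlBase L k}
  {F F' κ₁ κ₂ κ₁' κ₂' : Type*} [Field F] [Field F'] [Algebra L F] [Algebra L F']
  [Field κ₁] [Algebra k κ₁] [Field κ₂] [Algebra k κ₂] [Field κ₁'] [Algebra k κ₁'] [Field κ₂']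
  [Algebra k κ₂']
  {g₁ : DlPlace B F κ₁} {g₂ : DlPlace B F κ₂} {g₁' : DlPlace B F' κ₁'} {g₂' : DlPlace B F' κ₂'}
  {σ σ' : Type*} [Fintype σ] [Fintype σ'] (C : DlxChart g₁ g₂ σ) (C' : DlxChart g₁' g₂' σ')

/-- the chart rings correspond as soon as the Gauss rings do and the chart coordinate of `C` is regular
at the horizontal places of `C'` -/
theorem mltj7_hB_of_hor (ιF : F →ₐ[L] F') (hι : ιF.toRingHom.IsIntegral)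
    (hO₁ : ∀ f : F, f ∈ g₁.O → ιF f ∈ g₁'.O) (hO₂ : ∀ f : F, f ∈ g₂.O → ιF f ∈ g₂'.O)
    (hx : ∀ V' ∈ t4vpHor L C'.x, ιF C.x ∈ V') (f : F) (hf : f ∈ C.P.B) : ιF f ∈ C'.P.B := by
  rw [C'.P.mem_iff]
  intro V' hV'
  rcases C'.vals_cases hV' with rfl | rfl | hh
  · exact (dlx_mem_iff g₁' _ C'.hV₁ _).mpr (hO₁ f (C.B_le₁ hf))
  · exact (dlx_mem_iff g₂' _ C'.hV₂ _).mpr (hO₂ f (C.B_le₂ hf))
  · have hxV := hx V' hh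
    obtain ⟨v', rfl, -⟩ := hh
    exact C.P.B_le (C.hor_mem ⟨v'.restrictAlong ιF hι, rfl, hxV⟩) hf

end HB

/-! ### The finite parts of the special fibres -/

section Fin

/-- a place of `F̄_{Nℓ}` at which `j̄(q^ℓ)` is regular is also regular for `j̄` (converse of
`dlh_beta_j_mem`) -/
theorem mltj7_beta_j_mem' (K : Type*) [Field K] (N ℓ : ℕ) [NeZero N] [NeZero ℓ] (hℓ : ℓ.Prime)
    (w : Place K ↥(modularFunctionFieldFullC K (N * ℓ)))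
    (hw : dlhBetaC K N ℓ (dlhJ K N) ∈ w.toValuationSubring) :
    dlhJ K (N * ℓ) ∈ w.toValuationSubring := by
  letI : Algebra (Polynomial K) ↥(modularFunctionFieldFullC K (N * ℓ)) :=
    (Polynomial.aeval (dlhBetaC K N ℓ (dlhJ K N))).toRingHom.toAlgebra
  have hR : ∀ r : Polynomial K,
      algebraMap (Polynomial K) ↥(modularFunctionFieldFullC K (N * ℓ)) r ∈
        w.toValuationSubring := by
    intro r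
    show Polynomial.aeval (dlhBetaC K N ℓ (dlhJ K N)) r ∈ w.toValuationSubring
    rw [Polynomial.aeval_eq_sum_range]
    refine Subring.sum_mem _ (fun i _ => ?_)
    rw [Algebra.smul_def]
    exact Subring.mul_mem _ (w.algebraMap_mem' _) (Subring.pow_mem _ hw i)
  refine mem_of_isIntegral_of_algebraMap_mem w hR ?_
  refine ⟨modPhiK ℓ hℓ K, modPhiK_monic ℓ hℓ K, ?_⟩
  apply Subtype.val_injective
  have h1 := modPhiK_eval_right ℓ hℓ K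
  have h2 : ((modularFunctionFieldFullC K (N * ℓ)).val : _ →+* LaurentSeries K).comp
      (algebraMap (Polynomial K) ↥(modularFunctionFieldFullC K (N * ℓ))) =
        (qExpand K ℓ).comp (evalJ K) := by
    apply Polynomial.ringHom_ext
    · intro a
      show ((Polynomial.aeval (dlhBetaC K N ℓ (dlhJ K N)) (Polynomial.C a) :
        ↥(modularFunctionFieldFullC K (N * ℓ))) : LaurentSeries K) =
          qExpand K ℓ (evalJ K (Polynomial.C a))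
      rw [Polynomial.aeval_C, evalJ_C, HahnSeries.C_apply, qExpand_single, mul_zero,
        ← algebraMap_laurentSeries_eq_single]
      rfl
    · show ((Polynomial.aeval (dlhBetaC K N ℓ (dlhJ K N)) Polynomial.X :
        ↥(modularFunctionFieldFullC K (N * ℓ))) : LaurentSeries K) =
          qExpand K ℓ (evalJ K Polynomial.X)
      rw [Polynomial.aeval_X, evalJ_X, coe_dlhBetaC]
      rfl
  have h3 := Polynomial.hom_eval₂ (modPhiK ℓ hℓ K)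
    (algebraMap (Polynomial K) ↥(modularFunctionFieldFullC K (N * ℓ)))
    ((modularFunctionFieldFullC K (N * ℓ)).val : _ →+* LaurentSeries K)
    (dlhJ K (N * ℓ))
  rw [h2] at h3
  exact (h3.trans h1).trans rfl

variable (𝔓 : FFPlace) (K ℓ : ℕ) [NeZero K] [NeZero ℓ]

/-- the finite parts correspond along `ᾱ` -/
theorem mltj7_finA (hφ : (dlhAlphaC (IsLocalRing.ResidueField ↥𝔓.P) K ℓ).toRingHom.IsIntegral)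
    (P' : Place (IsLocalRing.ResidueField ↥𝔓.P) ↥(tbBarF 𝔓 (K * ℓ))) :
    0 ≤ P'.ord (s33qXi 𝔓 (K * ℓ)) ↔
      0 ≤ (P'.restrictAlong (dlhAlphaC (IsLocalRing.ResidueField ↥𝔓.P) K ℓ) hφ).ord
        (s33qXi 𝔓 K) := by
  rw [← dlqd_fin_iff, ← dlqd_fin_iff]
  unfold DlsFin
  rw [← mltj7_ord_nonneg_along, dlh_alpha_barJ]

/-- the finite parts correspond along `β̄` -/
theorem mltj7_finB (hℓ : ℓ.Prime)
    (hφ : (dlhBetaC (IsLocalRing.ResidueField ↥𝔓.P) K ℓ).toRingHom.IsIntegral)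
    (P' : Place (IsLocalRing.ResidueField ↥𝔓.P) ↥(tbBarF 𝔓 (K * ℓ))) :
    0 ≤ P'.ord (s33qXi 𝔓 (K * ℓ)) ↔
      0 ≤ (P'.restrictAlong (dlhBetaC (IsLocalRing.ResidueField ↥𝔓.P) K ℓ) hφ).ord
        (s33qXi 𝔓 K) := by
  rw [← dlqd_fin_iff, ← dlqd_fin_iff]
  unfold DlsFin
  rw [← mltj7_ord_nonneg_along]
  constructor
  · intro h
    exact ord_nonneg_of_mem _ (dlh_beta_j_mem _ K ℓ hℓ P' (mem_of_ord_nonneg _ h))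
  · intro h
    exact ord_nonneg_of_mem _ (mltj7_beta_j_mem' _ K ℓ hℓ P' (mem_of_ord_nonneg _ h))

end Fin

/-! ### The two morphisms of charts -/

section Assemble

variable (𝔓 : FFPlace) (H : Subgroup 𝔓.I) [H.FiniteIndex] {ϖ : ↥(tbFixO 𝔓 H)}
  (hϖ : Irreducible ϖ) (K ℓ : ℕ) [NeZero K] [NeZero ℓ] [hℓ : Fact ℓ.Prime]
  (h : ¬ 𝔓.p ∣ K) (h' : ¬ 𝔓.p ∣ K * ℓ) (h49 : 4 ∣ K ∨ 9 ∣ K) (h49' : 4 ∣ K * ℓ ∨ 9 ∣ K * ℓ)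
  {n n' : ℕ}
  (su : T2Setup (t2iBase2Fix 𝔓 H K h) (Fin n)) (hx : su.x = t2gaX 𝔓 H K h (𝔓.p ^ 2))
  (hxb : su.xb = (s33qXi 𝔓 K, s33qXi 𝔓 K))
  (su' : T2Setup (t2iBase2Fix 𝔓 H (K * ℓ) h') (Fin n'))
  (hx' : su'.x = t2gaX 𝔓 H (K * ℓ) h' (𝔓.p ^ 2))
  (hxb' : su'.xb = (s33qXi 𝔓 (K * ℓ), s33qXi 𝔓 (K * ℓ)))
  (hα : (dlhAlphaC (IsLocalRing.ResidueField ↥𝔓.P) K ℓ).toRingHom.IsIntegral)
  (hβ : (dlhBetaC (IsLocalRing.ResidueField ↥𝔓.P) K ℓ).toRingHom.IsIntegral)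

/-- **`α^*` as a morphism of charts** -/
def mltj7HomA : MltJ7ChartHom (dlxChart1 𝔓 H hϖ K h h49 su hx hxb)
    (dlxChart1 𝔓 H hϖ (K * ℓ) h' h49' su' hx' hxb') where
  ιF := mltj7A 𝔓 H K ℓ
  φ₁ := dlhAlphaC (IsLocalRing.ResidueField ↥𝔓.P) K ℓ
  φ₂ := dlhAlphaC (IsLocalRing.ResidueField ↥𝔓.P) K ℓ
  hφ₁ := hα
  hφ₂ := hα
  hO₁ := fun f hf => mltj7A_inf_mem 𝔓 H K ℓ h h' hϖ hf
  hres₁ := fun f hf => mltj7A_inf_res 𝔓 H K ℓ h h' hϖ hf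
  hO₂ := fun f hf => mltj7A_zero_mem 𝔓 H K ℓ h h' hϖ hf
  hres₂ := fun f hf => mltj7A_zero_res 𝔓 H K ℓ h h' hϖ hf
  hB := by
    refine mltj7_hB_of_hor _ _ (mltj7A 𝔓 H K ℓ)
      (t3h_isIntegralAlong (dlx_gen1 𝔓 H K h su hx) (dlx_gen1 𝔓 H (K * ℓ) h' su' hx') _)
      (fun f hf => mltj7A_inf_mem 𝔓 H K ℓ h h' hϖ hf)
      (fun f hf => mltj7A_zero_mem 𝔓 H K ℓ h h' hϖ hf) ?_
    intro V' hV'
    rw [dlxChart1_x] at hV' ⊢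
    rw [hx, mltj7A_X 𝔓 H K ℓ h h', ← hx']
    obtain ⟨v, rfl, hv⟩ := hV'
    exact hv
  hfin₁ := fun P' => by
    rw [dlxChart1_Gx, dlxChart1_Gx]
    exact mltj7_finA 𝔓 K ℓ hα P'
  hfin₂ := fun P' => by
    rw [dlxChart1_Gx, dlxChart1_Gx]
    exact mltj7_finA 𝔓 K ℓ hα P'

/-- **`β^*` as a morphism of charts** -/
def mltj7HomB : MltJ7ChartHom (dlxChart1 𝔓 H hϖ K h h49 su hx hxb)
    (dlxChart1 𝔓 H hϖ (K * ℓ) h' h49' su' hx' hxb') where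
  ιF := mltj7B 𝔓 H K ℓ
  φ₁ := dlhBetaC (IsLocalRing.ResidueField ↥𝔓.P) K ℓ
  φ₂ := dlhBetaC (IsLocalRing.ResidueField ↥𝔓.P) K ℓ
  hφ₁ := hβ
  hφ₂ := hβ
  hO₁ := fun f hf => mltj7B_inf_mem 𝔓 H K ℓ h h' hϖ hf
  hres₁ := fun f hf => mltj7B_inf_res 𝔓 H K ℓ h h' hϖ hf
  hO₂ := fun f hf => mltj7B_zero_mem 𝔓 H K ℓ h h' hϖ hf
  hres₂ := fun f hf => mltj7B_zero_res 𝔓 H K ℓ h h' hϖ hf
  hB := by
    refine mltj7_hB_of_hor _ _ (mltj7B 𝔓 H K ℓ)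
      (t3h_isIntegralAlong (dlx_gen1 𝔓 H K h su hx) (dlx_gen1 𝔓 H (K * ℓ) h' su' hx') _)
      (fun f hf => mltj7B_inf_mem 𝔓 H K ℓ h h' hϖ hf)
      (fun f hf => mltj7B_zero_mem 𝔓 H K ℓ h h' hϖ hf) ?_
    intro V' hV'
    rw [dlxChart1_x] at hV' ⊢
    rw [hx]
    rw [hx'] at hV'
    have hQ : 2 ≤ 𝔓.p ^ 2 := by
      have := 𝔓.hp.two_le
      nlinarith
    exact mltj7B_X_mem 𝔓 H K ℓ h h' hQ hV'
  hfin₁ := fun P' => by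
    rw [dlxChart1_Gx, dlxChart1_Gx]
    exact mltj7_finB 𝔓 K ℓ hℓ.out hβ P'
  hfin₂ := fun P' => by
    rw [dlxChart1_Gx, dlxChart1_Gx]
    exact mltj7_finB 𝔓 K ℓ hℓ.out hβ P'

end Assemble

end Fermat.Agent.MLT
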