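/-
MLT (project S59) / L2-JL, package P7 (helper2), file 7: **(BR-SS)** `mltj7_brSS : MltjBrSS`:
the set `Σ` of supersingular places of `X₀(K)_{𝔽̄_q}` is stable under the correspondence `β̄_* ᾱ^*`.

Proof: a place `Q` in the support of `β̄_* ᾱ^* P` is `R|_{β̄}` for a place `R` of `F̄_{Kℓ}` with `R|_{ᾱ} = P`
(`mltj7_corr_support`); `R` is a branch of a node of `X₀(K ℓ q)` by going up along the morphism of charts
`α^*` (`MltJ7ChartHom.node_up`), and the image of that node under `β^*` is a node of `X₀(K q)` with first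
branch `Q` (`MltJ7ChartHom.node_down`).
-/
import Mathlib
import Fermat.Agent.Lib.MLT.L2.P7.ChartInst
import Fermat.Agent.Lib.MLT.Contracts.L2JL
import Fermat.Agent.Lib.T4.Inst.CycVal

set_option autoImplicit false
set_option linter.style.haveILetI false
set_option linter.unusedSectionVars false
set_option linter.unusedVariables false
set_option synthInstance.maxHeartbeats 400000
set_option maxHeartbeats 1000000

open HahnSeries ModularCurve Fermat.Agent.T1 Fermat.Agent.T2 Fermat.Agent.T4 Fermat.Agent.TW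
  Fermat.Agent.S05Lib Fermat.Agent.S24Lib IntermediateField AlgebraicCurve Fermat.Agent.Curve Module
  Fermat.Agent.S33 Fermat.Agent.S33Q Fermat.Agent.T3 Fermat.Agent.Delta Fermat.Agent.Igusa
  Fermat.Agent.Curve.PlaceAux Polynomial Fermat.Agent.Ihara Fermat.Agent.Mazur

noncomputable section

namespace Fermat.Agent.MLT

local notation "Qb" => AlgebraicClosure ℚ

attribute [local instance] t2i_dvr t2i_isAlgClosed t2i_charP t2i_fact
attribute [local instance 10000] dliAlgF dliAlgE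
attribute [local instance 5000] dlhAlgK

/-! ### The support of a correspondence -/

section Corr

variable {K F F' : Type*} [Field K] [Field F] [Field F'] [Algebra K F] [Algebra K F']
  [HasPrincipalDivisors K F'] (φ ψ : F →ₐ[K] F') (hφ : φ.toRingHom.IsIntegral)
  (hψ : ψ.toRingHom.IsIntegral)

/-- a place in the support of `ψ_* φ^* v` is the image of a place over `v` -/
theorem mltj7_corr_support {v Q : Place K F} {n : ℤ}
    (hQ : Divisor.correspondence φ ψ hφ hψ (Finsupp.single v n) Q ≠ 0) :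
    ∃ W : Place K F', W.restrictAlong φ hφ = v ∧ W.restrictAlong ψ hψ = Q := by
  classical
  rw [Divisor.correspondence_apply, Divisor.pullbackAlong_single, map_sum,
    Finsupp.finsetSum_apply] at hQ
  obtain ⟨W, hW, hne⟩ := Finset.exists_ne_zero_of_sum_ne_zero hQ
  rw [Divisor.pushforwardAlong_single, Finsupp.single_apply] at hne
  refine ⟨W, Place.mem_fiberAlong.mp hW, ?_⟩
  by_contra hcon
  exact hne (if_neg hcon)

end Corr

/-! ### (BR-SS) -/

section BrSS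

variable (𝔓 : FFPlace) (K : ℕ) [NeZero K] (hK : ¬ 𝔓.p ∣ K) (h49 : 4 ∣ K ∨ 9 ∣ K)

/-- **(BR-SS) at a rigid level** -/
theorem mltj7_brSSAt : MltjBrSSAt 𝔓 K hK h49 := by
  intro ℓ _ hℓ hℓp hℓK P hP Q hQ
  haveI : Fact ℓ.Prime := ⟨hℓ⟩
  have hK' : ¬ 𝔓.p ∣ K * ℓ := dlh_not_dvd_mul 𝔓 hK hℓ hℓp
  have h49' : 4 ∣ K * ℓ ∨ 9 ∣ K * ℓ := h49.imp (fun h => h.mul_right ℓ) (fun h => h.mul_right ℓ)
  haveI := ihbc_hasPrincipalDivisors 𝔓 (K * ℓ) hK'
  have hα := mzr5i_alphaC_integral 𝔓 K ℓ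
  have hβ := mzr5p_integral_beta (IsLocalRing.ResidueField ↥𝔓.P) K ℓ
  obtain ⟨R, hRP, hRQ⟩ := mltj7_corr_support _ _ hα hβ hQ
  obtain ⟨n, su, hx, hxb, Q₀, hs⟩ := hP
  obtain ⟨n', su', hx', hxb'⟩ := s33q_exists_setup_level 𝔓 (K * ℓ) hK' h49' ⊤
  have hϖ := t4cy_irreducible_p 𝔓
  set C := dlxChart1 𝔓 ⊤ hϖ K hK h49 su hx hxb with hC
  set C' := dlxChart1 𝔓 ⊤ hϖ (K * ℓ) hK' h49' su' hx' hxb' with hC'
  set hA : MltJ7ChartHom C C' :=
    mltj7HomA 𝔓 ⊤ hϖ K ℓ hK hK' h49 h49' su hx hxb su' hx' hxb' hα with hAdef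
  set hB : MltJ7ChartHom C C' :=
    mltj7HomB 𝔓 ⊤ hϖ K ℓ hK hK' h49 h49' su hx hxb su' hx' hxb' hβ with hBdef
  have hs' : (hA.dn₁ R, Q₀) ∈ C.G.nodes := by
    show (R.restrictAlong (dlhAlphaC (IsLocalRing.ResidueField ↥𝔓.P) K ℓ) hα, Q₀) ∈ _
    rw [hRP]
    exact hs
  have hR : 0 ≤ R.ord C'.G.x.1 := (hA.hfin₁ R).mpr (C.G.nodes_fin hs').1
  obtain ⟨Q', hQ'⟩ := hA.node_up (dlqVert 𝔓 ⊤ hϖ K hK h49 su hx hxb) R hR hs'
  have hdown := hB.node_down hQ'
  have hQeq : hB.dn₁ R = Q := hRQ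
  refine ⟨n, su, hx, hxb, hB.dn₂ Q', ?_⟩
  rw [← hQeq]
  exact hdown

/-- **(BR-SS)** at all rigid levels -/
theorem mltj7_brSS : MltjBrSS := fun 𝔓 K _ hK h49 => mltj7_brSSAt 𝔓 K hK h49

end BrSS

end Fermat.Agent.MLT
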