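/-
MLT (project S59) / L2-JL, package P7 (helper2), file 8: **(U1) a rational place of `F_{N, L}` lies under exactly
one place of `F_{N, ℚ̄}`**.

`L ⊆ ℚ̄`, `bc = t4ruBc L N : F_{N, L} → F_{N, ℚ̄}` the change of the constant field.  If `y`, `y'` are places of
`F_{N, ℚ̄} / ℚ̄` such that every `f ∈ F_{N, L}` regular at `y` is regular at `y'` and takes at `y` a value in `L`
(`y ∩ F_{N, L}` is a rational place), then `y = y'` (`mltj7_place_unique`).

Proof: every `g ∈ F_{N, ℚ̄}` is `∑_{i < d} bc(p_i) ω₀^i` with `ω₀ ∈ ℚ̄` of degree `d` over `L`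
(`t4ru_exists_poly` + division by the minimal polynomial); dividing by a coefficient of minimal order at `y`
the value at `y` is `∑ c_i ω₀^i ≠ 0`, so `ord_y g = min_i ord_y (bc p_i)`.
-/
import Mathlib
import Fermat.Agent.Lib.T4.Reg.UnrCfe
import Fermat.Agent.Lib.Delta.NodeX.Point

set_option autoImplicit false
set_option linter.style.haveILetI false
set_option linter.unusedSectionVars false
set_option linter.unusedVariables false

namespace Fermat.Agent.MLT

open Fermat.Agent.S24Lib Fermat.Agent.T1 Fermat.Agent.T1.KMod Fermat.Agent.T2 ModularCurve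
open AlgebraicCurve Fermat.Agent.Curve Fermat.Agent.Curve.PlaceAux Polynomial IntermediateField
open Fermat.Agent.TW Fermat.Agent.T4 Fermat.Agent.Delta

local notation "Kbar" => AlgebraicClosure ℚ

section Uniq

variable (L : Type*) [Field L] [Algebra ℚ L] [Algebra L Kbar] [IsScalarTower ℚ L Kbar]
variable (N : ℕ) [NeZero N]

/-- the value at a place of a finite sum -/
theorem mltj7_val_sum {k κ : Type*} [Field k] [Field κ] [Algebra k κ] [IsAlgClosed k]
    (P : Place k κ) {ι : Type*}
    (s : Finset ι) (f : ι → κ) (c : ι → k) (h : ∀ i ∈ s, DlgVal P (f i) (c i)) :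
    DlgVal P (∑ i ∈ s, f i) (∑ i ∈ s, c i) := by
  classical
  induction s using Finset.induction_on with
  | empty => simpa using DlgVal.zero P
  | insert a s ha ih =>
    rw [Finset.sum_insert ha, Finset.sum_insert ha]
    exact (h a (Finset.mem_insert_self a s)).add
      (ih fun i hi => h i (Finset.mem_insert_of_mem hi))

/-- every element of `F_{N, ℚ̄}` is a polynomial of degree `< deg_L ω₀` in a constant `ω₀` with coefficients
in `F_{N, L}` -/
theorem mltj7_exists_poly_lt (g : ↥(barField Kbar N)) :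
    ∃ (ω₀ : Kbar) (P : (↥(TaF L N))[X]), P.natDegree < (minpoly L ω₀).natDegree ∧
      g = P.eval₂ (t4ruBc L N) (algebraMap Kbar ↥(barField Kbar N) ω₀) := by
  haveI : Algebra.IsAlgebraic ℚ Kbar := AlgebraicClosure.isAlgebraic ℚ
  haveI : Algebra.IsAlgebraic L Kbar := Algebra.IsAlgebraic.tower_top (K := ℚ) L
  obtain ⟨ω₀, P, hP⟩ := t4ru_exists_poly L N g
  have hint : IsIntegral L ω₀ := Algebra.IsIntegral.isIntegral ω₀
  set m := minpoly L ω₀ with hm
  set M : (↥(TaF L N))[X] := m.map (algebraMap L ↥(TaF L N)) with hM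
  have hMm : M.Monic := (minpoly.monic hint).map _
  have hMdeg : M.natDegree = m.natDegree := (minpoly.monic hint).natDegree_map _
  have hM0 : M.eval₂ (t4ruBc L N) (algebraMap Kbar ↥(barField Kbar N) ω₀) = 0 := by
    rw [hM, eval₂_map]
    have h1 : (t4ruBc L N).comp (algebraMap L ↥(TaF L N))
        = (algebraMap Kbar ↥(barField Kbar N)).comp (algebraMap L Kbar) :=
      RingHom.ext fun c => t4ruBc_algebraMap L N c
    rw [h1, ← hom_eval₂, ← aeval_def, minpoly.aeval, map_zero]
  have hM1 : M ≠ 1 := by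
    intro h1
    rw [h1, eval₂_one] at hM0
    exact one_ne_zero hM0
  refine ⟨ω₀, P %ₘ M, ?_, ?_⟩
  · rw [← hMdeg]
    exact natDegree_modByMonic_lt P hMm hM1
  · have h2 := congrArg (fun Q : (↥(TaF L N))[X] =>
      Q.eval₂ (t4ruBc L N) (algebraMap Kbar ↥(barField Kbar N) ω₀)) (modByMonic_add_div P M)
    simp only [eval₂_add, eval₂_mul, hM0, zero_mul, add_zero] at h2
    rw [hP, ← h2]

variable {L N}

/-- **(U1), inclusion form** -/
theorem mltj7_place_le (y y' : Place Kbar ↥(barField Kbar N))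
    (hV : ∀ f : ↥(TaF L N), t4ruBc L N f ∈ y.toValuationSubring →
      t4ruBc L N f ∈ y'.toValuationSubring)
    (hrat : ∀ f : ↥(TaF L N), t4ruBc L N f ∈ y.toValuationSubring →
      ∃ c : L, DlgVal y (t4ruBc L N f) (algebraMap L Kbar c)) :
    y.toValuationSubring ≤ y'.toValuationSubring := by
  classical
  haveI : Algebra.IsAlgebraic ℚ Kbar := AlgebraicClosure.isAlgebraic ℚ
  haveI : Algebra.IsAlgebraic L Kbar := Algebra.IsAlgebraic.tower_top (K := ℚ) L
  intro g hg
  obtain ⟨ω₀, P, hdeg, hgP⟩ := mltj7_exists_poly_lt L N g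
  have hint : IsIntegral L ω₀ := Algebra.IsIntegral.isIntegral ω₀
  set ω : ↥(barField Kbar N) := algebraMap Kbar ↥(barField Kbar N) ω₀ with hω
  by_cases hP0 : P = 0
  · rw [hgP, hP0, eval₂_zero]
    exact y'.toValuationSubring.zero_mem
  have hsupp : P.support.Nonempty := by
    rw [Finset.nonempty_iff_ne_empty, Ne, support_eq_empty]
    exact hP0
  obtain ⟨i₀, hi₀, hmin⟩ := Finset.exists_min_image P.support
    (fun i => y.ord (t4ruBc L N (P.coeff i))) hsupp
  have hpi₀ : P.coeff i₀ ≠ 0 := mem_support_iff.mp hi₀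
  have hbpi₀ : t4ruBc L N (P.coeff i₀) ≠ 0 := (_root_.map_ne_zero _).mpr hpi₀
  -- the normalised coefficients
  set q : ℕ → ↥(TaF L N) := fun i => P.coeff i / P.coeff i₀ with hq
  have hqmem : ∀ i ∈ P.support, t4ruBc L N (q i) ∈ y.toValuationSubring := by
    intro i hi
    have hpi : P.coeff i ≠ 0 := mem_support_iff.mp hi
    apply mem_of_ord_nonneg
    rw [hq, map_div₀, div_eq_mul_inv,
      y.ord_mul ((_root_.map_ne_zero _).mpr hpi) (inv_ne_zero hbpi₀), y.ord_inv]
    have := hmin i hi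
    omega
  choose! c hc using fun i (hi : i ∈ P.support) => hrat (q i) (hqmem i hi)
  have hc₀ : c i₀ = 1 := by
    have h1 := hc i₀ hi₀
    have h2 : q i₀ = 1 := by rw [hq]; exact div_self hpi₀
    rw [h2, map_one] at h1
    have h3 := h1.unique (DlgVal.one y)
    have h4 : algebraMap L Kbar (c i₀) = algebraMap L Kbar 1 := by rw [h3, map_one]
    exact (algebraMap L Kbar).injective h4
  -- `g / bc p_{i₀}` and its value
  have hgq : g = t4ruBc L N (P.coeff i₀) * ∑ i ∈ P.support, t4ruBc L N (q i) * ω ^ i := by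
    rw [hgP, eval₂_eq_sum, Polynomial.sum, Finset.mul_sum]
    refine Finset.sum_congr rfl fun i hi => ?_
    rw [hq, map_div₀]
    field_simp
  have hval : DlgVal y (∑ i ∈ P.support, t4ruBc L N (q i) * ω ^ i)
      (∑ i ∈ P.support, algebraMap L Kbar (c i) * ω₀ ^ i) := by
    refine mltj7_val_sum y _ _ _ fun i hi => ?_
    refine (hc i hi).mul ?_
    rw [hω, ← map_pow]
    exact DlgVal.const y _
  -- the value is non-zero
  set Q : L[X] := ∑ i ∈ P.support, C (c i) * X ^ i with hQ
  have hQval : aeval ω₀ Q = ∑ i ∈ P.support, algebraMap L Kbar (c i) * ω₀ ^ i := by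
    rw [hQ, map_sum]
    refine Finset.sum_congr rfl fun i _ => ?_
    rw [map_mul, aeval_C, map_pow, aeval_X]
  have hQcoeff : Q.coeff i₀ = 1 := by
    rw [hQ, finsetSum_coeff]
    rw [Finset.sum_eq_single i₀]
    · rw [coeff_C_mul, coeff_X_pow, if_pos rfl, mul_one, hc₀]
    · intro i _ hne
      rw [coeff_C_mul, coeff_X_pow, if_neg (Ne.symm hne), mul_zero]
    · intro h
      exact absurd hi₀ h
  have hQ0 : Q ≠ 0 := by
    intro h
    rw [h, coeff_zero] at hQcoeff
    exact zero_ne_one hQcoeff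
  have hQdeg : Q.natDegree < (minpoly L ω₀).natDegree := by
    refine lt_of_le_of_lt ?_ hdeg
    rw [hQ]
    refine natDegree_sum_le_of_forall_le _ _ fun i hi => ?_
    refine le_trans (natDegree_C_mul_X_pow_le _ _) ?_
    exact le_natDegree_of_mem_supp i hi
  have hγ : (∑ i ∈ P.support, algebraMap L Kbar (c i) * ω₀ ^ i) ≠ 0 := by
    rw [← hQval]
    intro h0
    have h1 := minpoly.degree_le_of_ne_zero L ω₀ hQ0 h0
    rw [degree_eq_natDegree (minpoly.ne_zero hint), degree_eq_natDegree hQ0] at h1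
    have h2 : (minpoly L ω₀).natDegree ≤ Q.natDegree := by exact_mod_cast h1
    omega
  obtain ⟨hs0, hsord⟩ := hval.ord_eq_zero y hγ
  -- the order of `g`
  have hgord : y.ord g = y.ord (t4ruBc L N (P.coeff i₀)) := by
    rw [hgq, y.ord_mul hbpi₀ hs0, hsord, add_zero]
  have hg0 : g ≠ 0 := by
    rw [hgq]
    exact mul_ne_zero hbpi₀ hs0
  have hn : 0 ≤ y.ord (t4ruBc L N (P.coeff i₀)) := by
    rw [← hgord]
    exact ord_nonneg_of_mem y hg
  -- all the coefficients are regular at `y`, hence at `y'`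
  rw [hgP, eval₂_eq_sum, Polynomial.sum]
  refine Subring.sum_mem _ fun i hi => ?_
  refine Subring.mul_mem _ ?_ (Subring.pow_mem _ (y'.algebraMap_mem' ω₀) i)
  apply hV
  apply mem_of_ord_nonneg
  have := hmin i hi
  omega

/-- **(U1)**: a rational place of `F_{N, L}` lies under exactly one place of `F_{N, ℚ̄}` -/
theorem mltj7_place_unique (y y' : Place Kbar ↥(barField Kbar N))
    (hV : ∀ f : ↥(TaF L N), t4ruBc L N f ∈ y.toValuationSubring →
      t4ruBc L N f ∈ y'.toValuationSubring)
    (hrat : ∀ f : ↥(TaF L N), t4ruBc L N f ∈ y.toValuationSubring →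
      ∃ c : L, DlgVal y (t4ruBc L N f) (algebraMap L Kbar c)) : y = y' :=
  eq_of_le (mltj7_place_le y y' hV hrat)

end Uniq

end Fermat.Agent.MLT
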