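/-
MLT / [L2] / P7 (helper2): **`MltJ6ValRat → MltJ6PlaceUniq`** (helper8's literals of `P6/LawDef.lean`).

An `H`-stable place of `F̄_N / ℚ̄` is the only place above its restriction to `F_H`: this is
`mltj7_place_unique` (`P7/PlaceUniq.lean`, (U1)) applied to `L = L_H = tbFix 𝔓 H`; the rationality
hypothesis is `MltJ6ValRat`.
-/
import Mathlib
import Fermat.Agent.Lib.MLT.L2.P7.PlaceUniq
import Fermat.Agent.Lib.MLT.L2.P6.LawDef
import Fermat.Agent.Lib.MLT.L2.P6.Res

set_option autoImplicit false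
set_option linter.unusedSectionVars false
set_option linter.unusedVariables false
set_option linter.style.haveILetI false
set_option synthInstance.maxHeartbeats 400000
set_option maxHeartbeats 1000000

open HahnSeries ModularCurve Fermat.Agent.T1 Fermat.Agent.T2 Fermat.Agent.T4 Fermat.Agent.TW
  Fermat.Agent.S05Lib Fermat.Agent.S24Lib IntermediateField AlgebraicCurve Fermat.Agent.Curve Module
  Fermat.Agent.S33 Fermat.Agent.S33Q Fermat.Agent.Delta Fermat.Agent.Curve.PlaceAux

noncomputable section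

namespace Fermat.Agent.MLT

local notation "Qb" => AlgebraicClosure ℚ
local notation "GQ" => (AlgebraicClosure ℚ ≃ₐ[ℚ] AlgebraicClosure ℚ)

attribute [local instance] t2i_dvr t2i_isAlgClosed t2i_charP t2i_fact
attribute [local instance 10000] dliAlgF dliAlgE

/-- **`MltJ6ValRat → MltJ6PlaceUniq`** -/
theorem mltj7_placeUniq (hVR : MltJ6ValRat) : MltJ6PlaceUniq := by
  intro 𝔓 N _ H Q Q' hQ hRes
  refine mltj7_place_unique (L := ↥(tbFix 𝔓 H)) (N := N) Q Q' ?_ ?_
  · intro f hf
    have h1 : f ∈ mltj6Res H N Q := hf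
    rw [hRes] at h1
    exact h1
  · intro f hf
    obtain ⟨θ, hθ⟩ := mltj6_exists_val (𝔓 := 𝔓) (H := H) (N := N) Q (f := f) hf
    have hmem : θ ∈ tbFix 𝔓 H := hVR 𝔓 N H Q hQ f θ hθ
    exact ⟨⟨θ, hmem⟩, hθ⟩

end Fermat.Agent.MLT
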