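/-
MLT (project S59) / L2-JL, package P7 (helper2), file 12: (S3) Hecke-equivariance of slopes, **the global
statements**: `ℓ ∤ K q` a prime, `α' = t3pIncl K ℓ q`, `β' = dleBetaI K q ℓ : F̄_{Kq} → F̄_{Kℓq}` (over `ℚ̄`),
`ᾱ = dlhAlphaC`, `β̄ = dlhBetaC : E_K → E_{Kℓ}` (over `𝔽̄_q`).

* `mltj7_pos_nonneg`   : `0 ≤ pos_P(y)`;
* `mltj7_ss_up`        : a place of `E_{Kℓ}` over a supersingular place (along `ᾱ`) is supersingular;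
* `mltj7_ramA_eq_one`  : `e_ᾱ(R) = 1` for `R ∈ Σ_{Kℓ}`;
* `mltj7_keyA`, `mltj7_keyB` : `∑_{x ∣ y} e(x) pos_R(x) = pos_{R|φ̄}(y)` for all `R ∈ Σ_{Kℓ}` and ALL places `y`
  (from `MltJ6LawQ`, `MltJ6LevelFix`, `MltJ6ValRat`);
* `mltj7_posA_push`    : `pos_R(x) ≠ 0 ⟹ pos_{R|ᾱ}(x|_{α'}) = pos_R(x)`;
* `mltj7_pos_excl`     : `pos_R(x) ≠ 0`, `R' ≠ R` in `Σ_{Kℓ}`  ⟹  `pos_{R'}(x) = 0`.
-/
import Mathlib
import Fermat.Agent.Lib.MLT.L2.P7.HeckeKey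
import Fermat.Agent.Lib.MLT.L2.P7.BrSS
import Fermat.Agent.Lib.MLT.L2.P8.Excl

set_option autoImplicit false
set_option linter.style.haveILetI false
set_option linter.unusedSectionVars false
set_option linter.unusedVariables false
set_option synthInstance.maxHeartbeats 400000
set_option maxHeartbeats 1000000

open HahnSeries ModularCurve Fermat.Agent.T1 Fermat.Agent.T2 Fermat.Agent.T4 Fermat.Agent.TW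
  Fermat.Agent.S05Lib Fermat.Agent.S24Lib IntermediateField AlgebraicCurve Fermat.Agent.Curve Module
  Fermat.Agent.S33 Fermat.Agent.S33Q Fermat.Agent.T3 Fermat.Agent.Delta Fermat.Agent.Igusa
  Fermat.Agent.Curve.PlaceAux Polynomial Fermat.Agent.Ihara Fermat.Agent.Mazur

noncomputable section

namespace Fermat.Agent.MLT

local notation "Qb" => AlgebraicClosure ℚ
local notation "GQ" => (AlgebraicClosure ℚ ≃ₐ[ℚ] AlgebraicClosure ℚ)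

attribute [local instance] t2i_dvr t2i_isAlgClosed t2i_charP t2i_fact
attribute [local instance 10000] dliAlgF dliAlgE
attribute [local instance 5000] dlhAlgK

/-! ### Positions are non-negative -/

section Nonneg

variable {𝔓 : FFPlace} {N' : ℕ} [NeZero N'] {h : ¬ 𝔓.p ∣ N'} {h49 : 4 ∣ N' ∨ 9 ∣ N'}
  {P : Place (IsLocalRing.ResidueField ↥𝔓.P) ↥(tbBarF 𝔓 N')}

/-- the value of `t` at a place through the node has `v ≤ 1` -/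
theorem mltj7_ord_ev_le_one {H : Subgroup 𝔓.I} [H.FiniteIndex] (d : MltJ6NodeAt 𝔓 N' h h49 H P)
    (Q : Place Qb ↥(modularFunctionFieldBar (N' * 𝔓.p))) (hthr : mltj6Through d Q) :
    𝔓.v.ord (mltj6Ev d Q hthr ⟨d.𝒩.t, d.𝒩.ht⟩) ≤ 1 := by
  have hw := mltj8_w_mul_ord d
  have hϖO : d.𝒩.ϖ ^ d.𝒩.w ∈ d.𝒩.O := mltj7_pi_pow_mem d.𝒩 d.𝒩.w
  have hcA : algebraMap ↥(tbFix 𝔓 H) ↥(tbLevF 𝔓 (N' * 𝔓.p) H) (d.𝒩.ϖ ^ d.𝒩.w) ∈ d.𝒩.A :=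
    d.𝒩.O_le _ hϖO
  have hprod : (⟨d.𝒩.t, d.𝒩.ht⟩ : ↥d.𝒩.A) * ⟨d.𝒩.t', d.𝒩.ht'⟩ = ⟨_, hcA⟩ := by
    apply Subtype.ext
    show d.𝒩.t * d.𝒩.t' = algebraMap ↥(tbFix 𝔓 H) ↥(tbLevF 𝔓 (N' * 𝔓.p) H) (d.𝒩.ϖ ^ d.𝒩.w)
    rw [d.𝒩.tt', map_pow]
  have h1 := congrArg (mltj6Ev d Q hthr) hprod
  rw [map_mul, mltj6Ev_const d Q hthr _ hcA] at h1
  have ht0 := mltj7_ev_t_ne_zero d Q hthr
  have hϖ0 : (((d.ϖ : ↥(tbFixO 𝔓 H)) : ↥(tbFix 𝔓 H)) : Qb) ≠ 0 := by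
    intro h0
    rw [h0] at hw
    have : 𝔓.v.ord (0 : Qb) = 0 ∨ True := Or.inr trivial
    have h2 : (d.ϖ : ↥(tbFixO 𝔓 H)) = 0 := Subtype.ext (Subtype.ext h0)
    exact d.hϖ.ne_zero h2
  have hc : ((d.𝒩.ϖ ^ d.𝒩.w : ↥(tbFix 𝔓 H)) : Qb) =
      (((d.ϖ : ↥(tbFixO 𝔓 H)) : ↥(tbFix 𝔓 H)) : Qb) ^ d.𝒩.w := by
    rw [mltj6_nodeAt_ϖ]
    simp
  rw [hc] at h1
  have hc0 : (((d.ϖ : ↥(tbFixO 𝔓 H)) : ↥(tbFix 𝔓 H)) : Qb) ^ d.𝒩.w ≠ 0 := pow_ne_zero _ hϖ0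
  have ht'0 : mltj6Ev d Q hthr ⟨d.𝒩.t', d.𝒩.ht'⟩ ≠ 0 := by
    intro h0
    rw [h0, mul_zero] at h1
    exact hc0 h1.symm
  have h2 := congrArg 𝔓.v.ord h1
  rw [𝔓.v.ord_mul' ht0 ht'0, 𝔓.v.ord_pow hϖ0, hw] at h2
  have h3 := (𝔓.mem_P_iff _).mp (mltj6Ev_mem_P d Q hthr ⟨d.𝒩.t', d.𝒩.ht'⟩)
  rcases h3 with h3 | h3
  · exact absurd h3 ht'0
  · linarith

/-- **positions are non-negative** -/
theorem mltj7_pos_nonneg (Q : Place Qb ↥(modularFunctionFieldBar (N' * 𝔓.p))) :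
    0 ≤ mltj6Pos 𝔓 N' h h49 P Q := by
  by_cases hex : ∃ r : ℚ, ∃ d : MltJ6NodeAt 𝔓 N' h h49 ⊤ P, MltJ6PosAt d Q r
  · obtain ⟨r, d, hr⟩ := hex
    rw [mltj6_charI 𝔓 N' h h49 ⊤ P d Q r hr]
    obtain ⟨hthr, rfl⟩ := (mltj6_posAt_iff d Q).mp hr
    have := mltj7_ord_ev_le_one d Q hthr
    linarith
  · unfold mltj6Pos
    rw [dif_neg hex]

end Nonneg

/-! ### The global statements -/

section Glob

variable (𝔓 : FFPlace) (K : ℕ) [NeZero K] (hK : ¬ 𝔓.p ∣ K) (h49 : 4 ∣ K ∨ 9 ∣ K)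
  (ℓ : ℕ) [NeZero ℓ] [hℓ : Fact ℓ.Prime] (hK' : ¬ 𝔓.p ∣ K * ℓ) (h49' : 4 ∣ K * ℓ ∨ 9 ∣ K * ℓ)
  (hα : (dlhAlphaC (IsLocalRing.ResidueField ↥𝔓.P) K ℓ).toRingHom.IsIntegral)
  (hβ : (dlhBetaC (IsLocalRing.ResidueField ↥𝔓.P) K ℓ).toRingHom.IsIntegral)

/-- `β' = dleBetaI` is integral -/
theorem mltj7_betaI_integral : (dleBetaI K 𝔓.p ℓ).toRingHom.IsIntegral :=
  t3h_isIntegralAlong (t3h_gen (K * 𝔓.p)) (t3h_gen (K * ℓ * 𝔓.p)) (dleBetaI K 𝔓.p ℓ)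

include hα in
/-- a place of `E_{Kℓ}` over a supersingular place (along `ᾱ`) is supersingular -/
theorem mltj7_ss_up {P : Place (IsLocalRing.ResidueField ↥𝔓.P) ↥(tbBarF 𝔓 K)}
    (hP : P ∈ mltjSS 𝔓 K hK h49)
    {R : Place (IsLocalRing.ResidueField ↥𝔓.P) ↥(tbBarF 𝔓 (K * ℓ))}
    (hRP : R.restrictAlong (dlhAlphaC (IsLocalRing.ResidueField ↥𝔓.P) K ℓ) hα = P) :
    R ∈ mltjSS 𝔓 (K * ℓ) hK' h49' := by
  obtain ⟨n, su, hx, hxb, Q₀, hs⟩ := hP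
  obtain ⟨n', su', hx', hxb'⟩ := s33q_exists_setup_level 𝔓 (K * ℓ) hK' h49' ⊤
  have hϖ := t4cy_irreducible_p 𝔓
  set hA := mltj7HomA 𝔓 ⊤ hϖ K ℓ hK hK' h49 h49' su hx hxb su' hx' hxb' hα with hAdef
  have hs' : (hA.dn₁ R, Q₀) ∈ (dlxChart1 𝔓 ⊤ hϖ K hK h49 su hx hxb).G.nodes := by
    show (R.restrictAlong (dlhAlphaC (IsLocalRing.ResidueField ↥𝔓.P) K ℓ) hα, Q₀) ∈ _
    rw [hRP]
    exact hs
  have hR : 0 ≤ R.ord (dlxChart1 𝔓 ⊤ hϖ (K * ℓ) hK' h49' su' hx' hxb').G.x.1 :=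
    (hA.hfin₁ R).mpr ((dlxChart1 𝔓 ⊤ hϖ K hK h49 su hx hxb).G.nodes_fin hs').1
  obtain ⟨Q', hQ'⟩ := hA.node_up (dlqVert 𝔓 ⊤ hϖ K hK h49 su hx hxb) R hR hs'
  exact ⟨n', su', hx', hxb', Q', hQ'⟩

include hK h49 hα in
/-- `e_ᾱ(R) = 1` for a supersingular place `R` of `E_{Kℓ}` -/
theorem mltj7_ramA_eq_one {R : Place (IsLocalRing.ResidueField ↥𝔓.P) ↥(tbBarF 𝔓 (K * ℓ))}
    (hR : R ∈ mltjSS 𝔓 (K * ℓ) hK' h49') :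
    Place.ramificationIndexAlong (dlhAlphaC (IsLocalRing.ResidueField ↥𝔓.P) K ℓ) R = 1 := by
  obtain ⟨n, su, hx, hxb⟩ := s33q_exists_setup_level 𝔓 K hK h49 ⊤
  obtain ⟨n', su', hx', hxb'⟩ := s33q_exists_setup_level 𝔓 (K * ℓ) hK' h49' ⊤
  have hϖ := t4cy_irreducible_p 𝔓
  obtain ⟨Q', hs'⟩ := mltj8_node_level 𝔓 (K * ℓ) hK' h49' ⊤ hϖ su' hx' hxb' hR
  exact mltj7_ram_eq_one (mltj7HomA 𝔓 ⊤ hϖ K ℓ hK hK' h49 h49' su hx hxb su' hx' hxb' hα) hs'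

include hα in
/-- **the key identity along `α`**, for all places `y` -/
theorem mltj7_keyA (hLaw : MltJ6LawQ) (hLF : MltJ6LevelFix) (hVR : MltJ6ValRat)
    {R : Place (IsLocalRing.ResidueField ↥𝔓.P) ↥(tbBarF 𝔓 (K * ℓ))}
    (hR : R ∈ mltjSS 𝔓 (K * ℓ) hK' h49')
    (y : Place Qb ↥(modularFunctionFieldBar (K * 𝔓.p))) :
    mltj7S hK' h49' (t3pIncl K ℓ 𝔓.p) (t3pIncl_integral K ℓ 𝔓.p) R y =
      mltj6Pos 𝔓 K hK h49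
        (R.restrictAlong (dlhAlphaC (IsLocalRing.ResidueField ↥𝔓.P) K ℓ) hα) y := by
  classical
  obtain ⟨H, hfin, -, hfix⟩ := hLF 𝔓 (K * 𝔓.p) ⊤ {y}
  haveI := hfin
  obtain ⟨ϖ, hϖ⟩ := IsDiscreteValuationRing.exists_irreducible ↥(tbFixO 𝔓 H)
  obtain ⟨n, su, hx, hxb⟩ := s33q_exists_setup_level 𝔓 K hK h49 H
  obtain ⟨n', su', hx', hxb'⟩ := s33q_exists_setup_level 𝔓 (K * ℓ) hK' h49' H
  obtain ⟨Q', hs'⟩ := mltj8_node_level 𝔓 (K * ℓ) hK' h49' H hϖ su' hx' hxb' hR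
  exact mltj7_key (mltj7HomA 𝔓 H hϖ K ℓ hK hK' h49 h49' su hx hxb su' hx' hxb' hα)
    (t3pIncl K ℓ 𝔓.p) (t3pIncl_integral K ℓ 𝔓.p) (fun f => tbPhiF_mltj7A 𝔓 H K ℓ f) hs' y hVR hLaw
    (fun σ hσ => hfix σ hσ y (Finset.mem_singleton_self y))

include hβ in
/-- **the key identity along `β`**, for all places `y` -/
theorem mltj7_keyB (hLaw : MltJ6LawQ) (hLF : MltJ6LevelFix) (hVR : MltJ6ValRat)
    {R : Place (IsLocalRing.ResidueField ↥𝔓.P) ↥(tbBarF 𝔓 (K * ℓ))}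
    (hR : R ∈ mltjSS 𝔓 (K * ℓ) hK' h49')
    (y : Place Qb ↥(modularFunctionFieldBar (K * 𝔓.p))) :
    mltj7S hK' h49' (dleBetaI K 𝔓.p ℓ) (mltj7_betaI_integral 𝔓 K ℓ) R y =
      mltj6Pos 𝔓 K hK h49
        (R.restrictAlong (dlhBetaC (IsLocalRing.ResidueField ↥𝔓.P) K ℓ) hβ) y := by
  classical
  obtain ⟨H, hfin, -, hfix⟩ := hLF 𝔓 (K * 𝔓.p) ⊤ {y}
  haveI := hfin
  obtain ⟨ϖ, hϖ⟩ := IsDiscreteValuationRing.exists_irreducible ↥(tbFixO 𝔓 H)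
  obtain ⟨n, su, hx, hxb⟩ := s33q_exists_setup_level 𝔓 K hK h49 H
  obtain ⟨n', su', hx', hxb'⟩ := s33q_exists_setup_level 𝔓 (K * ℓ) hK' h49' H
  obtain ⟨Q', hs'⟩ := mltj8_node_level 𝔓 (K * ℓ) hK' h49' H hϖ su' hx' hxb' hR
  exact mltj7_key (mltj7HomB 𝔓 H hϖ K ℓ hK hK' h49 h49' su hx hxb su' hx' hxb' hβ)
    (dleBetaI K 𝔓.p ℓ) (mltj7_betaI_integral 𝔓 K ℓ) (fun f => tbPhiF_mltj7B 𝔓 H K ℓ f) hs' y hVR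
    hLaw (fun σ hσ => hfix σ hσ y (Finset.mem_singleton_self y))

include hα in
/-- a place with a non-zero position at `R` and its restriction along `α'` have the same position -/
theorem mltj7_posA_push {R : Place (IsLocalRing.ResidueField ↥𝔓.P) ↥(tbBarF 𝔓 (K * ℓ))}
    (hR : R ∈ mltjSS 𝔓 (K * ℓ) hK' h49')
    (x : Place Qb ↥(modularFunctionFieldBar (K * ℓ * 𝔓.p)))
    (hx : mltj6Pos 𝔓 (K * ℓ) hK' h49' R x ≠ 0) :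
    mltj6Pos 𝔓 K hK h49 (R.restrictAlong (dlhAlphaC (IsLocalRing.ResidueField ↥𝔓.P) K ℓ) hα)
      (x.restrictAlong (t3pIncl K ℓ 𝔓.p) (t3pIncl_integral K ℓ 𝔓.p)) =
    mltj6Pos 𝔓 (K * ℓ) hK' h49' R x := by
  obtain ⟨n, su, hxs, hxb⟩ := s33q_exists_setup_level 𝔓 K hK h49 ⊤
  obtain ⟨n', su', hx', hxb'⟩ := s33q_exists_setup_level 𝔓 (K * ℓ) hK' h49' ⊤
  have hϖ := t4cy_irreducible_p 𝔓
  obtain ⟨Q', hs'⟩ := mltj8_node_level 𝔓 (K * ℓ) hK' h49' ⊤ hϖ su' hx' hxb' hR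
  have hthr : mltj6Through (mltj7Up hs') x := by
    by_contra hnot
    exact hx (mltj6_charII 𝔓 (K * ℓ) hK' h49' ⊤ R (mltj7Up hs') x hnot)
  exact mltj7_pos_push (mltj7HomA 𝔓 ⊤ hϖ K ℓ hK hK' h49 h49' su hxs hxb su' hx' hxb' hα)
    (t3pIncl K ℓ 𝔓.p) (t3pIncl_integral K ℓ 𝔓.p) (fun f => tbPhiF_mltj7A 𝔓 ⊤ K ℓ f) hs' x hthr

/-- **exclusivity**: a place has a non-zero position at one supersingular place at most -/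
theorem mltj7_pos_excl {R R' : Place (IsLocalRing.ResidueField ↥𝔓.P) ↥(tbBarF 𝔓 (K * ℓ))}
    (hR : R ∈ mltjSS 𝔓 (K * ℓ) hK' h49') (hR' : R' ∈ mltjSS 𝔓 (K * ℓ) hK' h49') (hne : R ≠ R')
    (x : Place Qb ↥(modularFunctionFieldBar (K * ℓ * 𝔓.p)))
    (hx : mltj6Pos 𝔓 (K * ℓ) hK' h49' R x ≠ 0) :
    mltj6Pos 𝔓 (K * ℓ) hK' h49' R' x = 0 := by
  obtain ⟨n', su', hx', hxb'⟩ := s33q_exists_setup_level 𝔓 (K * ℓ) hK' h49' ⊤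
  have hϖ := t4cy_irreducible_p 𝔓
  obtain ⟨Q₁, hs₁⟩ := mltj8_node_level 𝔓 (K * ℓ) hK' h49' ⊤ hϖ su' hx' hxb' hR
  obtain ⟨Q₂, hs₂⟩ := mltj8_node_level 𝔓 (K * ℓ) hK' h49' ⊤ hϖ su' hx' hxb' hR'
  have hthr : mltj6Through (mltj8NodeAt hs₁) x := by
    by_contra hnot
    exact hx (mltj6_charII 𝔓 (K * ℓ) hK' h49' ⊤ R (mltj8NodeAt hs₁) x hnot)
  exact mltj6_charII 𝔓 (K * ℓ) hK' h49' ⊤ R' (mltj8NodeAt hs₂) x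
    (mltj8_not_through_of_ne hs₁ hs₂ hne x hthr)

end Glob

end Fermat.Agent.MLT
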