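/-
MLT (project S59) / L2-JL, package P7 (helper2), file 11: (S3) Hecke-equivariance of slopes, **the key
local identity** (from the exact conservation law `MltJ6LawQ` at the two levels `K` and `K ℓ`).

Notation of `P7/HeckeLoc.lean`; `S_R(y) := ∑_{x ∣ y} e_{φ'}(x) · pos_R(x)` (`mltj7S`).
* `mltj7_sl_pullback` : `sl'(φ'^* D)_R = ∑_y D(y) · S_R(y)`;
* `mltj7_S_eq_zero`   : `pos_{R|φ̄}(y) = 0 ⟹ S_R(y) = 0`;
* `mltj7_ord_const`   : `v_𝔓(c) = ord_{O_H}(c) · v_𝔓(ϖ)`;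
* **`mltj7_key`**     : for an `H`-stable place `y`:  `S_R(y) = pos_{R|φ̄}(y)`.
  [`c := t(y) ∈ L_H` (`MltJ6ValRat`), `z := t − c`, `D := div(Φ z)`; the law at the level `K` gives
  `∑_{y'} D(y') pos(y') = pos(y)`, hence `y` is the only zero of `z` through the node and it is simple; the law
  at the level `K ℓ` for `ιF z` (`λ'(ιF z) = λ(z)`, `w' = w`) gives `∑_{y'} D(y') S_R(y') = pos(y)`.]
-/
import Mathlib
import Fermat.Agent.Lib.MLT.L2.P7.HeckeLoc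
import Fermat.Agent.Lib.MLT.L2.P6.LawDef

set_option autoImplicit false
set_option linter.style.haveILetI false
set_option linter.unusedSectionVars false
set_option linter.unusedVariables false
set_option synthInstance.maxHeartbeats 400000
set_option maxHeartbeats 1000000

open HahnSeries ModularCurve Fermat.Agent.T1 Fermat.Agent.T2 Fermat.Agent.T4 Fermat.Agent.TW
  Fermat.Agent.S05Lib Fermat.Agent.S24Lib IntermediateField AlgebraicCurve Fermat.Agent.Curve Module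
  Fermat.Agent.S33 Fermat.Agent.S33Q Fermat.Agent.T3 Fermat.Agent.Delta Fermat.Agent.Igusa
  Fermat.Agent.Curve.PlaceAux Polynomial Fermat.Agent.Ihara Fermat.Agent.Mazur

noncomputable section

namespace Fermat.Agent.MLT

local notation "Qb" => AlgebraicClosure ℚ
local notation "GQ" => (AlgebraicClosure ℚ ≃ₐ[ℚ] AlgebraicClosure ℚ)

attribute [local instance] t2i_dvr t2i_isAlgClosed t2i_charP t2i_fact
attribute [local instance 10000] dliAlgF dliAlgE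
attribute [local instance 5000] dlhAlgK

/-! ### The weighted sum of the positions over a fibre -/

section Sum

variable {𝔓 : FFPlace} {K ℓ : ℕ} [NeZero K] [NeZero ℓ] {hK' : ¬ 𝔓.p ∣ K * ℓ}
  {h49' : 4 ∣ K * ℓ ∨ 9 ∣ K * ℓ}
  (φ' : ↥(modularFunctionFieldBar (K * 𝔓.p)) →ₐ[Qb] ↥(modularFunctionFieldBar (K * ℓ * 𝔓.p)))
  (hφ' : φ'.toRingHom.IsIntegral)
  (R : Place (IsLocalRing.ResidueField ↥𝔓.P) ↥(tbBarF 𝔓 (K * ℓ)))

variable (hK' h49') in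
/-- `S_R(y) = ∑_{x ∣ y} e(x) · pos_R(x)` -/
def mltj7S (y : Place Qb ↥(modularFunctionFieldBar (K * 𝔓.p))) : ℚ :=
  ∑ x ∈ Place.fiberAlong φ' hφ' y,
    (x.ramificationIndexAlong φ' : ℚ) * mltj6Pos 𝔓 (K * ℓ) hK' h49' R x

/-- `sl'(φ'^* D)_R = ∑_y D(y) · S_R(y)` -/
theorem mltj7_sl_pullback (D : Divisor Qb ↥(modularFunctionFieldBar (K * 𝔓.p))) :
    mltj6Sl 𝔓 (K * ℓ) hK' h49' (Divisor.pullbackAlong φ' hφ' D) R =
      D.sum fun y n => (n : ℚ) * mltj7S hK' h49' φ' hφ' R y := by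
  induction D using Finsupp.induction_linear with
  | zero => simp
  | add D₁ D₂ h₁ h₂ =>
    rw [map_add, map_add, Pi.add_apply, h₁, h₂, Finsupp.sum_add_index']
    · intro y
      simp
    · intro y a b
      push_cast
      ring
  | single y n =>
    rw [Divisor.pullbackAlong_single, map_sum, Finset.sum_apply, Finsupp.sum_single_index (by simp)]
    unfold mltj7S
    rw [Finset.mul_sum]
    refine Finset.sum_congr rfl fun x _ => ?_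
    rw [mltj6Sl_single]
    push_cast
    ring

end Sum

/-! ### The order of a constant -/

section Const

variable {𝔓 : FFPlace} {H : Subgroup 𝔓.I} [H.FiniteIndex]

/-- `v_𝔓(c) = ord_{O_H}(c) · v_𝔓(ϖ)` -/
theorem mltj7_ord_const {ϖ : ↥(tbFixO 𝔓 H)} (hϖ : Irreducible ϖ) {c : ↥(tbFix 𝔓 H)} (hc0 : c ≠ 0)
    (hc : c ∈ tbFixO 𝔓 H) :
    𝔓.v.ord (c : Qb) =
      (dlOrd (tbFixO 𝔓 H) c : ℚ) * 𝔓.v.ord (((ϖ : ↥(tbFixO 𝔓 H)) : ↥(tbFix 𝔓 H)) : Qb) := by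
  have hc' : (⟨c, hc⟩ : ↥(tbFixO 𝔓 H)) ≠ 0 := fun h0 => hc0 (congrArg Subtype.val h0)
  obtain ⟨n, u, hu⟩ := IsDiscreteValuationRing.eq_unit_mul_pow_irreducible hc' hϖ
  have hce : c = (((u : ↥(tbFixO 𝔓 H)) : ↥(tbFixO 𝔓 H)) : ↥(tbFix 𝔓 H)) *
      ((ϖ : ↥(tbFixO 𝔓 H)) : ↥(tbFix 𝔓 H)) ^ n := by
    have := congrArg (fun x : ↥(tbFixO 𝔓 H) => (x : ↥(tbFix 𝔓 H))) hu
    simpa using this
  have hϖ0 : ((ϖ : ↥(tbFixO 𝔓 H)) : ↥(tbFix 𝔓 H)) ≠ 0 := fun h0 => hϖ.ne_zero (Subtype.ext h0)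
  have hu0 : (((u : ↥(tbFixO 𝔓 H)) : ↥(tbFixO 𝔓 H)) : ↥(tbFix 𝔓 H)) ≠ 0 := by
    intro h0
    rw [h0, zero_mul] at hce
    exact hc0 hce
  have h1 : dlOrd (tbFixO 𝔓 H) c = n := by
    rw [hce, dlOrd_mul _ hu0 (pow_ne_zero n hϖ0), dlOrd_coe_unit, dlOrd_pow,
      dlOrd_coe_irreducible _ hϖ]
    ring
  obtain ⟨hu0', huo⟩ := mltj6_ord_unit (𝔓 := 𝔓) (H := H) u.isUnit
  have hϖ0' : (((ϖ : ↥(tbFixO 𝔓 H)) : ↥(tbFix 𝔓 H)) : Qb) ≠ 0 := by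
    intro h0
    exact hϖ0 (Subtype.ext h0)
  have hce' : (c : Qb) = ((((u : ↥(tbFixO 𝔓 H)) : ↥(tbFixO 𝔓 H)) : ↥(tbFix 𝔓 H)) : Qb) *
      (((ϖ : ↥(tbFixO 𝔓 H)) : ↥(tbFix 𝔓 H)) : Qb) ^ n := by
    have := congrArg (fun x : ↥(tbFix 𝔓 H) => (x : Qb)) hce
    simpa using this
  rw [hce', 𝔓.v.ord_mul' hu0' (pow_ne_zero n hϖ0'), huo, zero_add, 𝔓.v.ord_pow hϖ0', h1]
  push_cast
  ring

end Const

/-! ### The key identity -/

section Key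

variable {𝔓 : FFPlace} {H : Subgroup 𝔓.I} [H.FiniteIndex] {ϖ : ↥(tbFixO 𝔓 H)}
  {hϖ : Irreducible ϖ} {K ℓ : ℕ} [NeZero K] [NeZero ℓ]
  {hK : ¬ 𝔓.p ∣ K} {hK' : ¬ 𝔓.p ∣ K * ℓ} {h49 : 4 ∣ K ∨ 9 ∣ K} {h49' : 4 ∣ K * ℓ ∨ 9 ∣ K * ℓ}
  {n n' : ℕ}
  {su : T2Setup (t2iBase2Fix 𝔓 H K hK) (Fin n)} {hx : su.x = t2gaX 𝔓 H K hK (𝔓.p ^ 2)}
  {hxb : su.xb = (s33qXi 𝔓 K, s33qXi 𝔓 K)}
  {su' : T2Setup (t2iBase2Fix 𝔓 H (K * ℓ) hK') (Fin n')}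
  {hx' : su'.x = t2gaX 𝔓 H (K * ℓ) hK' (𝔓.p ^ 2)}
  {hxb' : su'.xb = (s33qXi 𝔓 (K * ℓ), s33qXi 𝔓 (K * ℓ))}
  (hC : MltJ7ChartHom (dlxChart1 𝔓 H hϖ K hK h49 su hx hxb)
    (dlxChart1 𝔓 H hϖ (K * ℓ) hK' h49' su' hx' hxb'))
  (φ' : ↥(modularFunctionFieldBar (K * 𝔓.p)) →ₐ[Qb] ↥(modularFunctionFieldBar (K * ℓ * 𝔓.p)))
  (hφ' : φ'.toRingHom.IsIntegral)
  (hcomm : ∀ f : ↥(tbLevF 𝔓 (K * 𝔓.p) H),
    tbPhiF 𝔓 (K * ℓ * 𝔓.p) H (hC.ιF f) = φ' (tbPhiF 𝔓 (K * 𝔓.p) H f))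
  {R Q' : Place (IsLocalRing.ResidueField ↥𝔓.P) ↥(tbBarF 𝔓 (K * ℓ))}
  (hs' : (R, Q') ∈ (dlxChart1 𝔓 H hϖ (K * ℓ) hK' h49' su' hx' hxb').G.nodes)
  (y : Place Qb ↥(modularFunctionFieldBar (K * 𝔓.p)))

include hcomm hs' in
/-- a place with position `0` at the image node has `S_R = 0` -/
theorem mltj7_S_eq_zero (hy : mltj6Pos 𝔓 K hK h49 (hC.dn₁ R) y = 0) :
    mltj7S hK' h49' φ' hφ' R y = 0 := by
  unfold mltj7S
  refine Finset.sum_eq_zero fun x hx => ?_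
  rw [Place.mem_fiberAlong] at hx
  by_cases hthr : mltj6Through (mltj7Up hs') x
  · have h1 := mltj7_pos_push hC φ' hφ' hcomm hs' x hthr
    rw [hx, hy] at h1
    rw [← h1, mul_zero]
  · rw [mltj6_charII 𝔓 (K * ℓ) hK' h49' H R (mltj7Up hs') x hthr, mul_zero]

include hcomm hs' in
/-- **the key identity**: `∑_{x ∣ y} e(x) · pos_R(x) = pos_{R|φ̄}(y)` for an `H`-stable place `y` -/
theorem mltj7_key (hVR : MltJ6ValRat) (hLaw : MltJ6LawQ)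
    (hst : ∀ σ : 𝔓.I, σ ∈ H →
      arithmeticGalois (modularFunctionFieldFull (K * 𝔓.p)) ((σ : 𝔓.I) : GQ) • y = y) :
    mltj7S hK' h49' φ' hφ' R y = mltj6Pos 𝔓 K hK h49 (hC.dn₁ R) y := by
  classical
  by_cases hpos : mltj6Pos 𝔓 K hK h49 (hC.dn₁ R) y = 0
  · rw [hpos]
    exact mltj7_S_eq_zero hC φ' hφ' hcomm hs' y hpos
  set d := mltj7Dn hC hs' with hd
  set d' := mltj7Up hs' with hd'
  -- `y` passes through the node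
  have hthr : mltj6Through d y := by
    by_contra hnot
    exact hpos (mltj6_charII 𝔓 K hK h49 H (hC.dn₁ R) d y hnot)
  -- the value of `t` at `y` is rational
  set θ : Qb := mltj6Ev d y hthr ⟨d.𝒩.t, d.𝒩.ht⟩ with hθ
  have hθspec := mltj6Ev_spec d y hthr ⟨d.𝒩.t, d.𝒩.ht⟩
  have hθL : θ ∈ tbFix 𝔓 H := hVR 𝔓 (K * 𝔓.p) H y hst d.𝒩.t θ hθspec
  set c : ↥(tbFix 𝔓 H) := ⟨θ, hθL⟩ with hc
  have hcO : c ∈ tbFixO 𝔓 H :=
    (mem_tbFixO 𝔓 H c).mpr ((𝔓.mem_P_iff _).mp (mltj6Ev_mem_P d y hthr ⟨d.𝒩.t, d.𝒩.ht⟩))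
  have hcO' : c ∈ d.𝒩.O := by rw [mltj6_nodeAt_O]; exact hcO
  have hcA : algebraMap ↥(tbFix 𝔓 H) ↥(tbLevF 𝔓 (K * 𝔓.p) H) c ∈ d.𝒩.A := d.𝒩.O_le c hcO'
  have hval : MltJ6ValAt d.𝒩 (mltj6Res H (K * 𝔓.p) y) c := by
    refine ⟨hthr, hcO', ?_⟩
    have h1 : mltj6Ev d y hthr (⟨d.𝒩.t, d.𝒩.ht⟩ - ⟨_, hcA⟩) = 0 := by
      rw [map_sub, mltj6Ev_const d y hthr c hcA]
      exact sub_self _
    exact (mltj6Ev_eq_zero_iff d y hthr _).mp h1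
  have hc0 : c ≠ 0 := mltj6_valAt_ne_zero hval
  have hj0 : 0 < dlOrd d.𝒩.O c := mltj6_valAt_pos hval
  have hjw : dlOrd d.𝒩.O c < d.𝒩.w := mltj6_valAt_lt hval
  obtain ⟨hz0, hlam⟩ := mltj7_lam_sub_const d.𝒩 hc0 hj0 hjw
  set z : ↥(tbLevF 𝔓 (K * 𝔓.p) H) :=
    d.𝒩.t - algebraMap ↥(tbFix 𝔓 H) ↥(tbLevF 𝔓 (K * 𝔓.p) H) c with hz
  -- the position of `y`
  set ρ : ℚ := mltj6Pos 𝔓 K hK h49 (hC.dn₁ R) y with hρ
  have hρ1 : ρ = 1 - 𝔓.v.ord θ := mltj8_pos_eq mltj6_charI d y hthr θ hθspec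
  have hw := mltj8_w_mul_ord d
  have hdϖ : d.ϖ = ϖ := rfl
  rw [hdϖ] at hw
  have hvθ : 𝔓.v.ord θ =
      (dlOrd d.𝒩.O c : ℚ) * 𝔓.v.ord (((ϖ : ↥(tbFixO 𝔓 H)) : ↥(tbFix 𝔓 H)) : Qb) := by
    have h1 := mltj7_ord_const hϖ hc0 hcO
    rw [mltj6_dlOrd_congr (mltj6_nodeAt_O d)]
    exact h1
  have hρw : ρ * (d.𝒩.w : ℚ) = ((d.𝒩.w : ℤ) - dlOrd d.𝒩.O c : ℤ) := by
    rw [hρ1, hvθ]
    push_cast
    linear_combination (-(dlOrd d.𝒩.O c : ℚ)) * hw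
  have hwpos : (0 : ℚ) < (d.𝒩.w : ℚ) := by exact_mod_cast d.𝒩.hw
  -- the divisor of `Φ z`
  have hΦz : tbPhiF 𝔓 (K * 𝔓.p) H z ≠ 0 := (_root_.map_ne_zero _).mpr hz0
  obtain ⟨D, hD, -⟩ := HasPrincipalDivisors.exists_divisor (K := Qb) (tbPhiF 𝔓 (K * 𝔓.p) H z) hΦz
  -- the law at the level `K`
  have hlaw := hLaw 𝔓 K hK h49 H (hC.dn₁ R) d z hz0 D hD
  have hlaw1 : mltj6Sl 𝔓 K hK h49 D (hC.dn₁ R) * (d.𝒩.w : ℚ) = ρ * (d.𝒩.w : ℚ) := by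
    rw [hlaw, hρw]
    have : mltj7Lam d.𝒩 z = (d.𝒩.w : ℤ) - dlOrd d.𝒩.O c := hlam
    unfold mltj7Lam at this
    rw [this]
  have hsl1 : mltj6Sl 𝔓 K hK h49 D (hC.dn₁ R) = ρ := mul_right_cancel₀ hwpos.ne' hlaw1
  -- the law at the level `K ℓ`
  have hN : MltJ7NodeHomL d.𝒩 d'.𝒩 hC.ιF.toRingHom :=
    hC.nodeHom (dlqVert 𝔓 H hϖ K hK h49 su hx hxb)
      (dlqVert 𝔓 H hϖ (K * ℓ) hK' h49' su' hx' hxb') hs'
  have hιz0 : hC.ιF z ≠ 0 := (_root_.map_ne_zero _).mpr hz0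
  have hD' : ∀ v : Place Qb ↥(modularFunctionFieldBar (K * ℓ * 𝔓.p)),
      Divisor.pullbackAlong φ' hφ' D v = v.ord (tbPhiF 𝔓 (K * ℓ * 𝔓.p) H (hC.ιF z)) := by
    intro v
    rw [Divisor.pullbackAlong_apply, hD, hcomm, Place.ord_restrictAlong φ' hφ']
  have hlaw' := hLaw 𝔓 (K * ℓ) hK' h49' H R d' (hC.ιF z) hιz0 (Divisor.pullbackAlong φ' hφ' D) hD'
  have hww : (d'.𝒩.w : ℚ) = (d.𝒩.w : ℚ) := by
    have := mltj7_w_eq hC hs'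
    exact_mod_cast this.symm
  have hlaw1' : mltj6Sl 𝔓 (K * ℓ) hK' h49' (Divisor.pullbackAlong φ' hφ' D) R * (d.𝒩.w : ℚ) =
      ρ * (d.𝒩.w : ℚ) := by
    rw [← hww, hlaw', hww, hρw]
    have h1 : mltj7Lam d'.𝒩 (hC.ιF.toRingHom z) = mltj7Lam d.𝒩 z :=
      hN.toMltJ7NodeHom.lam_map hz0
    have h2 : mltj7Lam d.𝒩 z = (d.𝒩.w : ℤ) - dlOrd d.𝒩.O c := hlam
    rw [h2] at h1
    unfold mltj7Lam at h1
    have h3 : hC.ιF.toRingHom z = hC.ιF z := rfl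
    rw [h3] at h1
    rw [h1]
  have hsl2 : mltj6Sl 𝔓 (K * ℓ) hK' h49' (Divisor.pullbackAlong φ' hφ' D) R = ρ :=
    mul_right_cancel₀ hwpos.ne' hlaw1'
  rw [mltj7_sl_pullback] at hsl2
  rw [mltj6Sl_apply] at hsl1
  -- the places in the support with a non-zero position
  have hZ : ∀ y' : Place Qb ↥(modularFunctionFieldBar (K * 𝔓.p)), D y' ≠ 0 →
      mltj6Pos 𝔓 K hK h49 (hC.dn₁ R) y' ≠ 0 →
      1 ≤ D y' ∧ mltj6Pos 𝔓 K hK h49 (hC.dn₁ R) y' = ρ := by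
    intro y' hDy' hpy'
    have hthr' : mltj6Through d y' := by
      by_contra hnot
      exact hpy' (mltj6_charII 𝔓 K hK h49 H (hC.dn₁ R) d y' hnot)
    have hreg : tbPhiF 𝔓 (K * 𝔓.p) H z ∈ y'.toValuationSubring := by
      have hzA : z ∈ d.𝒩.A := d.𝒩.A.sub_mem d.𝒩.ht hcA
      exact mltj6_A_regular d y' hthr' hzA
    have h0 : 0 ≤ y'.ord (tbPhiF 𝔓 (K * 𝔓.p) H z) := ord_nonneg_of_mem y' hreg
    rw [hD y'] at hDy' ⊢
    have h1 : 1 ≤ y'.ord (tbPhiF 𝔓 (K * 𝔓.p) H z) := by omega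
    refine ⟨h1, ?_⟩
    rw [hρ1]
    refine mltj8_pos_eq mltj6_charI d y' hthr' θ ?_
    have h2 : tbPhiF 𝔓 (K * 𝔓.p) H z = tbPhiF 𝔓 (K * 𝔓.p) H d.𝒩.t -
        algebraMap Qb ↥(modularFunctionFieldBar (K * 𝔓.p)) θ := by
      rw [hz, map_sub, tbPhiF_algebraMap]
    rw [← h2, ordGE_iff]
    exact Or.inr h1
  -- `y` is in the support
  have hDy : 1 ≤ D y := by
    rw [hD y]
    have h2 : tbPhiF 𝔓 (K * 𝔓.p) H z = tbPhiF 𝔓 (K * 𝔓.p) H d.𝒩.t -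
        algebraMap Qb ↥(modularFunctionFieldBar (K * 𝔓.p)) θ := by
      rw [hz, map_sub, tbPhiF_algebraMap]
    rw [h2]
    rcases (ordGE_iff y).mp hθspec with h0 | h1
    · rw [← h2] at h0
      exact absurd h0 hΦz
    · exact h1
  -- the support with non-zero positions is `{y}` and `D y = 1`
  set Z : Finset (Place Qb ↥(modularFunctionFieldBar (K * 𝔓.p))) :=
    D.support.filter fun y' => mltj6Pos 𝔓 K hK h49 (hC.dn₁ R) y' ≠ 0 with hZdef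
  have hyZ : y ∈ Z := by
    rw [hZdef, Finset.mem_filter, Finsupp.mem_support_iff]
    exact ⟨by omega, hpos⟩
  have hsumZ : ∑ y' ∈ Z, (D y' : ℚ) = 1 := by
    have h1 : D.sum (fun Q n => (n : ℚ) * mltj6Pos 𝔓 K hK h49 (hC.dn₁ R) Q) =
        ∑ y' ∈ Z, (D y' : ℚ) * ρ := by
      unfold Finsupp.sum
      rw [hZdef, Finset.sum_filter]
      refine Finset.sum_congr rfl fun y' hy' => ?_
      beta_reduce
      by_cases hp : mltj6Pos 𝔓 K hK h49 (hC.dn₁ R) y' = 0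
      · rw [if_neg (not_not.mpr hp), hp, mul_zero]
      · rw [if_pos hp, (hZ y' (Finsupp.mem_support_iff.mp hy') hp).2]
    rw [h1, ← Finset.sum_mul] at hsl1
    have hρ0 : ρ ≠ 0 := hpos
    have : (∑ y' ∈ Z, (D y' : ℚ)) * ρ = 1 * ρ := by rw [hsl1, one_mul]
    exact mul_right_cancel₀ hρ0 this
  have hsumZ' : ∑ y' ∈ Z, D y' = 1 := by
    have : ((∑ y' ∈ Z, D y' : ℤ) : ℚ) = 1 := by
      rw [Int.cast_sum]
      exact hsumZ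
    exact_mod_cast this
  have hge : ∀ y' ∈ Z, 1 ≤ D y' := by
    intro y' hy'
    rw [hZdef, Finset.mem_filter, Finsupp.mem_support_iff] at hy'
    exact (hZ y' hy'.1 hy'.2).1
  have hsplit := Finset.add_sum_erase Z (fun y' => D y') hyZ
  have herase : ∀ y' ∈ Z.erase y, 1 ≤ D y' := fun y' hy' => hge y' (Finset.mem_of_mem_erase hy')
  have hcard : ((Z.erase y).card : ℤ) ≤ ∑ y' ∈ Z.erase y, D y' := by
    have := Finset.card_nsmul_le_sum (Z.erase y) (fun y' => D y') 1 herase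
    simpa using this
  have hDy1 : D y = 1 := by
    have : (0 : ℤ) ≤ ((Z.erase y).card : ℤ) := Int.natCast_nonneg _
    omega
  have hZe : Z.erase y = ∅ := by
    rw [← Finset.card_eq_zero]
    have : (0 : ℤ) ≤ ((Z.erase y).card : ℤ) := Int.natCast_nonneg _
    omega
  have hother : ∀ y' ∈ D.support, y' ≠ y → mltj6Pos 𝔓 K hK h49 (hC.dn₁ R) y' = 0 := by
    intro y' hy' hne
    by_contra hp
    have : y' ∈ Z.erase y := by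
      rw [Finset.mem_erase, hZdef, Finset.mem_filter]
      exact ⟨hne, hy', hp⟩
    rw [hZe] at this
    exact absurd this (Finset.notMem_empty _)
  -- conclusion
  have hySupp : y ∈ D.support := by
    rw [Finsupp.mem_support_iff, hDy1]
    exact one_ne_zero
  unfold Finsupp.sum at hsl2
  rw [Finset.sum_eq_single_of_mem y hySupp] at hsl2
  · rw [hDy1] at hsl2
    simpa using hsl2
  · intro y' hy' hne
    beta_reduce
    rw [mltj7_S_eq_zero hC φ' hφ' hcomm hs' y' (hother y' hy' hne), mul_zero]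

end Key

end Fermat.Agent.MLT
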