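/-
MLT (project S59) / L2-JL, package P7 (helper2), file 10: (S3) Hecke-equivariance of slopes, **the local
statements at a node of `X₀(K ℓ q)`** (fixed inertia level `H`).

`hC : MltJ7ChartHom C C'` a morphism of charts (`C` chart 1 of `X₀(K q)`, `C'` chart 1 of `X₀(K ℓ q)`, both at
the level `H` with the same uniformiser), `φ' : F̄_{Kq} → F̄_{Kℓq}` the corresponding map over `ℚ̄`
(`Φ'_H ∘ ιF = φ' ∘ Φ_H`), `(R, Q')` a node of `C'`, `d' = mltj7Up` its node datum, `d = mltj7Dn` the node datum of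
the image node (`MltJ7ChartHom.node_down`).  For a place `x` of `F̄_{Kℓq} / ℚ̄`:

* `mltj7_res_along`    : `Res_H (x|_{φ'}) = (Res_H x).comap ιF`;
* `mltj7_through_push` : `x` through `d'`  ⟹  `x|_{φ'}` through `d`;
* `mltj7_w_eq`, `mltj7_ram_eq_one` : the thicknesses agree, the ramification index of the branch is `1`;
* **`mltj7_pos_push`** : `x` through `d'`  ⟹  `pos_{R|φ̄}(x|_{φ'}) = pos_R(x)`.
-/
import Mathlib
import Fermat.Agent.Lib.MLT.L2.P7.ChartInst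
import Fermat.Agent.Lib.MLT.L2.P6.CharI
import Fermat.Agent.Lib.MLT.L2.P8.Nodes

set_option autoImplicit false
set_option linter.style.haveILetI false
set_option linter.unusedSectionVars false
set_option linter.unusedVariables false
set_option synthInstance.maxHeartbeats 400000
set_option maxHeartbeats 1000000

open HahnSeries ModularCurve Fermat.Agent.T1 Fermat.Agent.T2 Fermat.Agent.T4 Fermat.Agent.TW
  Fermat.Agent.S05Lib Fermat.Agent.S24Lib IntermediateField AlgebraicCurve Fermat.Agent.Curve Module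
  Fermat.Agent.S33 Fermat.Agent.S33Q Fermat.Agent.T3 Fermat.Agent.Delta Fermat.Agent.Igusa
  Fermat.Agent.Curve.PlaceAux Polynomial Fermat.Agent.Ihara Fermat.Agent.Mazur

noncomputable section

namespace Fermat.Agent.MLT

local notation "Qb" => AlgebraicClosure ℚ

attribute [local instance] t2i_dvr t2i_isAlgClosed t2i_charP t2i_fact
attribute [local instance 10000] dliAlgF dliAlgE
attribute [local instance 5000] dlhAlgK

section Loc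

variable {𝔓 : FFPlace} {H : Subgroup 𝔓.I} [H.FiniteIndex] {ϖ : ↥(tbFixO 𝔓 H)}
  {hϖ : Irreducible ϖ} {K ℓ : ℕ} [NeZero K] [NeZero ℓ]
  {hK : ¬ 𝔓.p ∣ K} {hK' : ¬ 𝔓.p ∣ K * ℓ} {h49 : 4 ∣ K ∨ 9 ∣ K} {h49' : 4 ∣ K * ℓ ∨ 9 ∣ K * ℓ}
  {n n' : ℕ}
  {su : T2Setup (t2iBase2Fix 𝔓 H K hK) (Fin n)} {hx : su.x = t2gaX 𝔓 H K hK (𝔓.p ^ 2)}
  {hxb : su.xb = (s33qXi 𝔓 K, s33qXi 𝔓 K)}
  {su' : T2Setup (t2iBase2Fix 𝔓 H (K * ℓ) hK') (Fin n')}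
  {hx' : su'.x = t2gaX 𝔓 H (K * ℓ) hK' (𝔓.p ^ 2)}
  {hxb' : su'.xb = (s33qXi 𝔓 (K * ℓ), s33qXi 𝔓 (K * ℓ))}
  (hC : MltJ7ChartHom (dlxChart1 𝔓 H hϖ K hK h49 su hx hxb)
    (dlxChart1 𝔓 H hϖ (K * ℓ) hK' h49' su' hx' hxb'))
  (φ' : ↥(modularFunctionFieldBar (K * 𝔓.p)) →ₐ[Qb] ↥(modularFunctionFieldBar (K * ℓ * 𝔓.p)))
  (hφ' : φ'.toRingHom.IsIntegral)
  (hcomm : ∀ f : ↥(tbLevF 𝔓 (K * 𝔓.p) H),
    tbPhiF 𝔓 (K * ℓ * 𝔓.p) H (hC.ιF f) = φ' (tbPhiF 𝔓 (K * 𝔓.p) H f))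
  {R Q' : Place (IsLocalRing.ResidueField ↥𝔓.P) ↥(tbBarF 𝔓 (K * ℓ))}
  (hs' : (R, Q') ∈ (dlxChart1 𝔓 H hϖ (K * ℓ) hK' h49' su' hx' hxb').G.nodes)
  (x : Place Qb ↥(modularFunctionFieldBar (K * ℓ * 𝔓.p)))

local notation "C₀" => dlxChart1 𝔓 H hϖ K hK h49 su hx hxb
local notation "C₁" => dlxChart1 𝔓 H hϖ (K * ℓ) hK' h49' su' hx' hxb'

/-- the node datum of the node `(R, Q')` of `C'` -/
abbrev mltj7Up : MltJ6NodeAt 𝔓 (K * ℓ) hK' h49' H R := mltj8NodeAt hs'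

/-- the node datum of the image node of `C` -/
abbrev mltj7Dn : MltJ6NodeAt 𝔓 K hK h49 H (hC.dn₁ R) := mltj8NodeAt (hC.node_down hs')

include hcomm in
/-- `Res_H (x|_{φ'}) = (Res_H x).comap ιF` -/
theorem mltj7_res_along :
    mltj6Res H (K * 𝔓.p) (x.restrictAlong φ' hφ') =
      (mltj6Res H (K * ℓ * 𝔓.p) x).comap hC.ιF.toRingHom := by
  ext f
  rw [mem_mltj6Res, mltj7_mem_restrictAlong, ← hcomm f]
  rfl

include hcomm in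
/-- **push-forward of "through the node"** -/
theorem mltj7_through_push (hthr : mltj6Through (mltj7Up hs') x) :
    mltj6Through (mltj7Dn hC hs') (x.restrictAlong φ' hφ') := by
  rw [mltj6_through_iff] at hthr ⊢
  have hres := mltj7_res_along hC φ' hφ' hcomm x
  have hR : 0 ≤ R.ord (C₁).G.x.1 := (mltj7Up hs').hP
  have hthr' : mltj6Res H (K * ℓ * 𝔓.p) x ∈ (C₁).P.through ((C₁).n₁ R hR) := hthr
  -- the chart coordinate is regular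
  have hxB : hC.ιF (C₀).x ∈ (C₁).P.B := hC.hB _ (C₀).x_mem_B
  have hxV : hC.ιF (C₀).x ∈ mltj6Res H (K * ℓ * 𝔓.p) x := (C₁).P.B_le hthr'.1 hxB
  have hxx : tbPhiF 𝔓 (K * 𝔓.p) H (C₀).x ∈ (x.restrictAlong φ' hφ').toValuationSubring := by
    rw [mltj7_mem_restrictAlong, ← hcomm]
    exact hxV
  have hhor : mltj6Res H (K * 𝔓.p) (x.restrictAlong φ' hφ') ∈ t4vpHor ↥(tbFix 𝔓 H) (C₀).x :=
    mltj6Res_mem_hor _ hxx
  have hvals : mltj6Res H (K * 𝔓.p) (x.restrictAlong φ' hφ') ∈ (C₀).P.vals := (C₀).hor_mem hhor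
  refine ⟨hvals, fun b hb => ?_⟩
  have h1 : (hC.mapB b) ∈ (C₁).n₁ R hR := by
    refine hthr'.2 (hC.mapB b) ?_
    rw [hC.coe_mapB]
    rw [hres] at hb
    exact (mltj6_val_comap_lt hC.ιF.toRingHom _ _).mp hb
  exact (hC.mem_n₁_mapB R hR b).mp h1

/-- the thicknesses of the two nodes agree -/
theorem mltj7_w_eq : (mltj7Dn hC hs').𝒩.w = (mltj7Up hs').𝒩.w := by
  have h1 := mltj8_w_mul_ord (mltj7Dn hC hs')
  have h2 := mltj8_w_mul_ord (mltj7Up hs')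
  have h3 : (mltj7Dn hC hs').ϖ = ϖ := rfl
  have h4 : (mltj7Up hs').ϖ = ϖ := rfl
  rw [h3] at h1
  rw [h4] at h2
  have hne : 𝔓.v.ord (((ϖ : ↥(tbFixO 𝔓 H)) : ↥(tbFix 𝔓 H)) : Qb) ≠ 0 := by
    intro h0
    rw [h0, mul_zero] at h1
    exact zero_ne_one h1
  have h5 : ((mltj7Dn hC hs').𝒩.w : ℚ) = ((mltj7Up hs').𝒩.w : ℚ) :=
    mul_right_cancel₀ hne (h1.trans h2.symm)
  exact_mod_cast h5

include hs' in
/-- the ramification index of the branch `R` over its image is `1` -/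
theorem mltj7_ram_eq_one : Place.ramificationIndexAlong hC.φ₁ R = 1 := by
  have h1 := hC.thick_eq (dlqVert 𝔓 H hϖ K hK h49 su hx hxb)
    (dlqVert 𝔓 H hϖ (K * ℓ) hK' h49' su' hx' hxb') hs'
  have h2 := mltj7_w_eq hC hs'
  have h3 : ((mltj7Dn hC hs').𝒩.w : ℤ) =
      Place.ramificationIndexAlong hC.φ₁ R * ((mltj7Up hs').𝒩.w : ℤ) := h1
  rw [h2] at h3
  have hpos : (0 : ℤ) < ((mltj7Up hs').𝒩.w : ℤ) := by exact_mod_cast (mltj7Up hs').𝒩.hw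
  have h4 : (Place.ramificationIndexAlong hC.φ₁ R : ℤ) = 1 := by
    have h5 : (1 : ℤ) * ((mltj7Up hs').𝒩.w : ℤ) =
        Place.ramificationIndexAlong hC.φ₁ R * ((mltj7Up hs').𝒩.w : ℤ) := by
      rw [one_mul]; exact h3
    exact (mul_right_cancel₀ hpos.ne' h5).symm
  exact_mod_cast h4

/-- the value of the node coordinate at a place through the node is not zero -/
theorem mltj7_ev_t_ne_zero {N' : ℕ} [NeZero N'] {h : ¬ 𝔓.p ∣ N'} {h49 : 4 ∣ N' ∨ 9 ∣ N'}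
    {P : Place (IsLocalRing.ResidueField ↥𝔓.P) ↥(tbBarF 𝔓 N')} (d : MltJ6NodeAt 𝔓 N' h h49 H P)
    (Q : Place Qb ↥(modularFunctionFieldBar (N' * 𝔓.p))) (hthr : mltj6Through d Q) :
    mltj6Ev d Q hthr ⟨d.𝒩.t, d.𝒩.ht⟩ ≠ 0 := by
  intro h0
  rw [mltj6Ev_eq_zero_iff] at h0
  haveI := d.𝒩.P.dvr _ hthr.1
  have h3 := d.𝒩.oH_t hthr
  have h4 := (dl_valuation_eq_one_iff (mltj6Res H (N' * 𝔓.p) Q) d.𝒩.t_ne_zero).mpr h3
  rw [h4] at h0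
  exact lt_irrefl _ h0

include hcomm in
/-- **push-forward of the position**: a place through the node over `R` and its restriction have the same
position -/
theorem mltj7_pos_push (hthr : mltj6Through (mltj7Up hs') x) :
    mltj6Pos 𝔓 K hK h49 (hC.dn₁ R) (x.restrictAlong φ' hφ') = mltj6Pos 𝔓 (K * ℓ) hK' h49' R x := by
  have hthr₀ := mltj7_through_push hC φ' hφ' hcomm hs' x hthr
  set d := mltj7Dn hC hs' with hd
  set d' := mltj7Up hs' with hd'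
  set y := x.restrictAlong φ' hφ' with hy
  rw [mltj8_pos_eq mltj6_charI d' x hthr _ (mltj6Ev_spec d' x hthr ⟨d'.𝒩.t, d'.𝒩.ht⟩),
    mltj8_pos_eq mltj6_charI d y hthr₀ _ (mltj6Ev_spec d y hthr₀ ⟨d.𝒩.t, d.𝒩.ht⟩)]
  congr 1
  -- the morphism of nodes
  have hN : MltJ7NodeHomL d.𝒩 d'.𝒩 hC.ιF.toRingHom :=
    hC.nodeHom (dlqVert 𝔓 H hϖ K hK h49 su hx hxb)
      (dlqVert 𝔓 H hϖ (K * ℓ) hK' h49' su' hx' hxb') hs'
  have hμ : d'.𝒩.slope (hC.ιF d.𝒩.t) = 1 := by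
    have h1 := hC.slope_map_t (dlqVert 𝔓 H hϖ K hK h49 su hx hxb)
      (dlqVert 𝔓 H hϖ (K * ℓ) hK' h49' su' hx' hxb') hs'
    have h2 := mltj7_ram_eq_one hC hs'
    have h3 : d'.𝒩.slope (hC.ιF d.𝒩.t) = (Place.ramificationIndexAlong hC.φ₁ R : ℤ) := h1
    rw [h3, h2]
    rfl
  have hU : d'.𝒩.IsU (hC.ιF d.𝒩.t / d'.𝒩.t) := by
    have h1 := hN.toMltJ7NodeHom.isU_t
    have h2 : d'.𝒩.slope (hC.ιF.toRingHom d.𝒩.t) = 1 := hμ
    rw [h2, zpow_one] at h1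
    exact h1
  set u := hC.ιF d.𝒩.t / d'.𝒩.t with hu
  have hzA : hC.ιF d.𝒩.t ∈ d'.𝒩.A := hN.toMltJ7NodeHom.mem _ d.𝒩.ht
  -- the value of `ιF t` at `x` is the value of `t` at `y`
  have h1 : mltj6Ev d' x hthr ⟨_, hzA⟩ = mltj6Ev d y hthr₀ ⟨d.𝒩.t, d.𝒩.ht⟩ := by
    rw [mltj6Ev_eq_iff]
    show OrdGE x (tbPhiF 𝔓 (K * ℓ * 𝔓.p) H (hC.ιF d.𝒩.t) - _) 1
    rw [hcomm]
    exact (mltj7_val_along φ' hφ' x).mpr (mltj6Ev_spec d y hthr₀ ⟨d.𝒩.t, d.𝒩.ht⟩)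
  have h2 : (⟨_, hzA⟩ : ↥d'.𝒩.A) = ⟨u, hU.1⟩ * ⟨d'.𝒩.t, d'.𝒩.ht⟩ := by
    apply Subtype.ext
    show hC.ιF d.𝒩.t = u * d'.𝒩.t
    rw [hu, div_mul_cancel₀ _ d'.𝒩.t_ne_zero]
  rw [h2, map_mul] at h1
  obtain ⟨hu0, huo⟩ := mltj6Ev_isU d' x hthr hU
  have ht0 := mltj7_ev_t_ne_zero d' x hthr
  rw [← h1, 𝔓.v.ord_mul' hu0 ht0, huo, zero_add]

end Loc

end Fermat.Agent.MLT
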