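/-
MLT (project S59) / L2-JL, package P7, file 14 (helper8, joining helper2): (S3) Hecke-equivariance of slopes,
**(★) and the end of (S3)**.

Notation of `P7/HeckeGlob.lean`, `P7/HeckeSum.lean`.

* `mltj7t_finrank_cast`  : `[F̄_M : α' F̄_N] = ℓ + 1` for any `α'` which is the inclusion on the Laurent series, `M = N ℓ`;
* `mltj7t_star`          : **(★)** `pos_P(x|_{α'}) = ∑_{R ∣ P} pos_R(x)`.
  [If some `R₀ ∣ P` has `pos_{R₀}(x) ≠ 0`: `mltj7_posA_push` + `mltj7_pos_excl`.  Otherwise, if `pos_P(y') ≠ 0`,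
  `y' = x|_{α'}`: the key identity along `α` gives for EACH of the `ℓ + 1` places `R ∣ P` (`e_ᾱ = 1` on `Σ_{Kℓ}`) a
  place `x'_R ∣ y'` with `pos_R(x'_R) ≠ 0`; these are pairwise different (exclusivity) and different from `x`; so
  `y'` has `ℓ + 2` places over it, but `∑_{x' ∣ y'} e(x') = ℓ + 1`.]
* **`mltj7t_heckeAt`**   : `MltJ6LawQ → MltJ6LevelFix → MltJ6ValRat → Mltj8HeckeAt 𝔓 K hK h49`.
-/
import Mathlib
import Fermat.Agent.Lib.MLT.L2.P7.HeckeSum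
import Fermat.Agent.Lib.Ihara.B.Tau.Quad
import Fermat.Agent.Lib.Mazur.Red.R5.Inst

set_option autoImplicit false
set_option linter.style.haveILetI false
set_option linter.unusedSectionVars false
set_option linter.unusedVariables false
set_option synthInstance.maxHeartbeats 400000
set_option maxHeartbeats 1000000

open HahnSeries ModularCurve Fermat.Agent.T1 Fermat.Agent.T2 Fermat.Agent.T4 Fermat.Agent.TW
  Fermat.Agent.S05Lib Fermat.Agent.S24Lib IntermediateField AlgebraicCurve Fermat.Agent.Curve Module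
  Fermat.Agent.S33 Fermat.Agent.S33Q Fermat.Agent.T3 Fermat.Agent.Delta Fermat.Agent.Igusa
  Fermat.Agent.Curve.PlaceAux Polynomial Fermat.Agent.Ihara Fermat.Agent.Mazur

noncomputable section

namespace Fermat.Agent.MLT

local notation "Qb" => AlgebraicClosure ℚ
local notation "GQ" => (AlgebraicClosure ℚ ≃ₐ[ℚ] AlgebraicClosure ℚ)

attribute [local instance] t2i_dvr t2i_isAlgClosed t2i_charP t2i_fact
attribute [local instance 10000] dliAlgF dliAlgE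
attribute [local instance 5000] dlhAlgK

/-- `[F̄_M : α' F̄_N] = ℓ + 1` for any `α'` which is the inclusion on the Laurent series, `M = N ℓ`, `ℓ ∤ N` -/
theorem mltj7t_finrank_cast (N ℓ M : ℕ) [NeZero N] [Fact ℓ.Prime] [NeZero M] (h : N * ℓ = M)
    (hℓN : ¬ ℓ ∣ N)
    (α' : ↥(modularFunctionFieldBar N) →ₐ[Qb] ↥(modularFunctionFieldBar M))
    (hαc : ∀ x, ((α' x : ↥(modularFunctionFieldBar M)) : LaurentSeries Qb) = (x : LaurentSeries Qb)) :
    finrankAlong Qb α' = ℓ + 1 := by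
  subst h
  have h1 : α' = heckeAlphaBar Qb N ℓ :=
    AlgHom.ext fun x => Subtype.ext (by rw [hαc, coe_heckeAlphaBar])
  subst h1
  exact t3k_finrank_alpha N ℓ hℓN

section Star

variable (𝔓 : FFPlace) (K : ℕ) [NeZero K] (hK : ¬ 𝔓.p ∣ K) (h49 : 4 ∣ K ∨ 9 ∣ K)
  (ℓ : ℕ) [NeZero ℓ] [hℓ : Fact ℓ.Prime] (hK' : ¬ 𝔓.p ∣ K * ℓ) (h49' : 4 ∣ K * ℓ ∨ 9 ∣ K * ℓ)

/-- **(★)** -/
theorem mltj7t_star (hℓp : ℓ ≠ 𝔓.p) (hℓK : ¬ ℓ ∣ K)
    (hLaw : MltJ6LawQ) (hLF : MltJ6LevelFix) (hVR : MltJ6ValRat) :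
    MltJ7Star 𝔓 K hK h49 ℓ hK' h49' (mzr5i_alphaC_integral 𝔓 K ℓ) := by
  classical
  haveI := ihbc_hasPrincipalDivisors 𝔓 (K * ℓ) hK'
  intro x P hP
  set hα := mzr5i_alphaC_integral 𝔓 K ℓ with hhα
  set y' := x.restrictAlong (t3pIncl K ℓ 𝔓.p) (t3pIncl_integral K ℓ 𝔓.p) with hy'
  set S := Place.fiberAlong (dlhAlphaC (IsLocalRing.ResidueField ↥𝔓.P) K ℓ) hα P with hS
  -- the places over `P` are supersingular
  have hSS : ∀ R ∈ S, R ∈ mltjSS 𝔓 (K * ℓ) hK' h49' := fun R hR =>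
    mltj7_ss_up 𝔓 K hK h49 ℓ hK' h49' hα hP (Place.mem_fiberAlong.mp hR)
  by_cases hex : ∃ R₀ ∈ S, mltj6Pos 𝔓 (K * ℓ) hK' h49' R₀ x ≠ 0
  · -- case 1
    obtain ⟨R₀, hR₀, hne⟩ := hex
    rw [Finset.sum_eq_single_of_mem R₀ hR₀ (fun R hR hRne =>
      mltj7_pos_excl 𝔓 K ℓ hK' h49' (hSS R₀ hR₀) (hSS R hR) hRne.symm x hne)]
    have h1 := mltj7_posA_push 𝔓 K hK h49 ℓ hK' h49' hα (hSS R₀ hR₀) x hne
    rwa [Place.mem_fiberAlong.mp hR₀] at h1
  · -- case 2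
    push Not at hex
    rw [Finset.sum_eq_zero hex]
    by_contra hpos
    set T := Place.fiberAlong (t3pIncl K ℓ 𝔓.p) (t3pIncl_integral K ℓ 𝔓.p) y' with hT
    have hxT : x ∈ T := Place.mem_fiberAlong.mpr rfl
    -- for every `R ∣ P` a place over `y'` with a non-zero position at `R`
    have hchoose : ∀ R ∈ S, ∃ x' ∈ T, mltj6Pos 𝔓 (K * ℓ) hK' h49' R x' ≠ 0 := by
      intro R hR
      have hkey := mltj7_keyA 𝔓 K hK h49 ℓ hK' h49' hα hLaw hLF hVR (hSS R hR) y'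
      rw [Place.mem_fiberAlong.mp hR] at hkey
      have hne : mltj7S hK' h49' (t3pIncl K ℓ 𝔓.p) (t3pIncl_integral K ℓ 𝔓.p) R y' ≠ 0 := by
        rw [hkey]; exact hpos
      obtain ⟨x', hx'T, hx'⟩ := Finset.exists_ne_zero_of_sum_ne_zero hne
      exact ⟨x', hx'T, right_ne_zero_of_mul hx'⟩
    haveI : Nonempty (Place Qb ↥(modularFunctionFieldBar (K * ℓ * 𝔓.p))) := ⟨x⟩
    choose! f hfT hfpos using hchoose
    -- `f` maps `S` injectively into `T ∖ {x}`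
    have hmaps : ∀ R ∈ S, f R ∈ T.erase x := by
      intro R hR
      refine Finset.mem_erase.mpr ⟨?_, hfT R hR⟩
      intro hfx
      exact hfpos R hR (hfx ▸ hex R hR)
    have hinj : Set.InjOn f (↑S : Set (Place (IsLocalRing.ResidueField ↥𝔓.P) ↥(tbBarF 𝔓 (K * ℓ)))) := by
      intro R hR R' hR' hff
      by_contra hne
      have h1 := mltj7_pos_excl 𝔓 K ℓ hK' h49' (hSS R hR) (hSS R' hR') hne (f R) (hfpos R hR)
      rw [hff] at h1
      exact hfpos R' hR' h1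
    have hcard := Finset.card_le_card_of_injOn f hmaps hinj
    rw [Finset.card_erase_of_mem hxT] at hcard
    -- `#S = ℓ + 1`
    have hSc : (S.card : ℤ) = ℓ + 1 := by
      have hFI := mzr5i_alphaC_fundamental 𝔓 K ℓ h49 hK hℓ.out hℓp
      have hsum := ihbt_sum_ramificationIndexAlong
        (dlhAlphaC (IsLocalRing.ResidueField ↥𝔓.P) K ℓ) hα hFI
        (fun w => PlaceAux.deg_eq_one (tbq_bar_isFunctionFieldGen 𝔓 (K * ℓ)) w)
        (fun v => PlaceAux.deg_eq_one (tbq_bar_isFunctionFieldGen 𝔓 K) v) P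
      have hfr : finrankAlong (IsLocalRing.ResidueField ↥𝔓.P)
          (dlhAlphaC (IsLocalRing.ResidueField ↥𝔓.P) K ℓ) = ℓ + 1 :=
        dlh_finrank_alphaC 𝔓 h49 hK hℓ.out hℓK hℓp
      rw [hfr, Finset.sum_congr rfl (fun R hR => by
        rw [mltj7_ramA_eq_one 𝔓 K hK h49 ℓ hK' h49' hα (hSS R hR)])] at hsum
      simpa using hsum
    -- `#T ≤ ℓ + 1`
    have hTc : (T.card : ℤ) ≤ ℓ + 1 := by
      haveI : NeZero (K * ℓ * 𝔓.p) := ⟨by
        have := NeZero.ne (K * 𝔓.p * ℓ)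
        rwa [mul_right_comm] at this⟩
      have hsum := t3h_sum_ramificationIndexAlong (t3h_gen (K * 𝔓.p)) (t3h_gen (K * ℓ * 𝔓.p))
        (t3pIncl K ℓ 𝔓.p) (t3pIncl_integral K ℓ 𝔓.p) y'
      have hℓN : ¬ ℓ ∣ K * 𝔓.p := by
        intro hd
        rcases (Nat.Prime.dvd_mul hℓ.out).mp hd with h1 | h1
        · exact hℓK h1
        · exact hℓp ((Nat.prime_dvd_prime_iff_eq hℓ.out 𝔓.hp).mp h1)
      rw [mltj7t_finrank_cast (K * 𝔓.p) ℓ (K * ℓ * 𝔓.p) (by ring) hℓN (t3pIncl K ℓ 𝔓.p)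
        (fun x => coe_t3pIncl K ℓ 𝔓.p x)] at hsum
      have h1 : (T.card : ℤ) ≤ ∑ W ∈ T, ((W.ramificationIndexAlong (t3pIncl K ℓ 𝔓.p) : ℕ) : ℤ) := by
        rw [Finset.card_eq_sum_ones]
        push_cast
        refine Finset.sum_le_sum fun W _ => ?_
        exact_mod_cast ihbt_ramificationIndexAlong_pos (t3pIncl K ℓ 𝔓.p) (t3pIncl_integral K ℓ 𝔓.p) W
      rw [hsum] at h1
      exact_mod_cast h1
    have hT1 : 1 ≤ T.card := Finset.card_pos.mpr ⟨x, hxT⟩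
    omega

/-- **(S3)**: the slope map of P6 commutes with the Hecke correspondences -/
theorem mltj7t_heckeAt (hLaw : MltJ6LawQ) (hLF : MltJ6LevelFix) (hVR : MltJ6ValRat) :
    Mltj8HeckeAt 𝔓 K hK h49 :=
  mltj7s_heckeAt_of_star 𝔓 K hK h49
    (fun ℓ _ _ hK' h49' hℓp hℓK => mltj7t_star 𝔓 K hK h49 ℓ hK' h49' hℓp hℓK hLaw hLF hVR)
    hLaw hLF hVR

end Star

end Fermat.Agent.MLT
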