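/-
MLT (project S59) / L2-JL, package P7, file 13 (helper8, joining helper2): (S3) Hecke-equivariance of slopes,
**the global summation**.

Notation of `P7/HeckeGlob.lean`: `α' = t3pIncl K ℓ q`, `β' = dleBetaI K q ℓ : F̄_{Kq} → F̄_{Kℓq}`,
`ᾱ = dlhAlphaC`, `β̄ = dlhBetaC : E_K → E_{Kℓ}`.

* `mltj7s_hecke_cast`    : `heckeDivBar` of the level `K q` is the correspondence `α'_* β'^*`;
* `MltJ7Star`            : (★) `pos_P(x|_{α'}) = ∑_{R ∣ P} pos_R(x)` for every place `x` of `F̄_{Kℓq}` and `P ∈ Σ_K`;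
* `mltj7s_hecke_of_star` : (★) + `mltj7_keyB` + `e_ᾱ = 1` on `Σ_{Kℓ}`  ⟹  the Hecke compatibility of the slope map,
                           `sl (T_ℓ D)_P = ∑_Q (β̄_* ᾱ^* P)(Q) · sl(D)_Q`.
-/
import Mathlib
import Fermat.Agent.Lib.MLT.L2.P7.HeckeGlob
import Fermat.Agent.Lib.MLT.L2.P8.Slope

set_option autoImplicit false
set_option linter.style.haveILetI false
set_option linter.unusedSectionVars false
set_option linter.unusedVariables false
set_option synthInstance.maxHeartbeats 400000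
set_option maxHeartbeats 1000000

open HahnSeries ModularCurve Fermat.Agent.T1 Fermat.Agent.T2 Fermat.Agent.T4 Fermat.Agent.TW
  Fermat.Agent.S05Lib Fermat.Agent.S24Lib IntermediateField AlgebraicCurve Fermat.Agent.Curve Module
  Fermat.Agent.S33 Fermat.Agent.S33Q Fermat.Agent.T3 Fermat.Agent.Delta Fermat.Agent.Igusa
  Fermat.Agent.Curve.PlaceAux Polynomial Fermat.Agent.Ihara Fermat.Agent.Mazur

noncomputable section

namespace Fermat.Agent.MLT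

local notation "Qb" => AlgebraicClosure ℚ
local notation "GQ" => (AlgebraicClosure ℚ ≃ₐ[ℚ] AlgebraicClosure ℚ)

attribute [local instance] t2i_dvr t2i_isAlgClosed t2i_charP t2i_fact
attribute [local instance 10000] dliAlgF dliAlgE
attribute [local instance 5000] dlhAlgK

/-! ### `heckeDivBar` and the two names of the level `K ℓ q` -/

/-- `heckeDivBar` of the level `N` is the correspondence `α'_* β'^*` for ANY pair of maps `α', β'` into a field of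
functions of a level `M = N ℓ` which are the inclusion, resp. `𝔮 ↦ 𝔮^ℓ`, on the Laurent series -/
theorem mltj7s_hecke_cast (N ℓ M : ℕ) [NeZero N] [NeZero ℓ] [NeZero M] (h : N * ℓ = M)
    (α' β' : ↥(modularFunctionFieldBar N) →ₐ[Qb] ↥(modularFunctionFieldBar M))
    (hα' : α'.toRingHom.IsIntegral) (hβ' : β'.toRingHom.IsIntegral)
    (hαc : ∀ x, ((α' x : ↥(modularFunctionFieldBar M)) : LaurentSeries Qb) = (x : LaurentSeries Qb))
    (hβc : ∀ x, ((β' x : ↥(modularFunctionFieldBar M)) : LaurentSeries Qb) =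
      qExpand Qb ℓ (x : LaurentSeries Qb))
    (D : Divisor Qb ↥(modularFunctionFieldBar N)) :
    heckeDivBar (t3h_alphaIntegral N ℓ) (t3h_betaIntegral N ℓ) D =
      Divisor.correspondence β' α' hβ' hα' D := by
  subst h
  have h1 : α' = heckeAlphaBar Qb N ℓ :=
    AlgHom.ext fun x => Subtype.ext (by rw [hαc, coe_heckeAlphaBar])
  have h2 : β' = heckeBetaBar Qb N ℓ :=
    AlgHom.ext fun x => Subtype.ext (by rw [hβc, coe_heckeBetaBar])
  subst h1 h2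
  rfl

/-- the `Finsupp.sum` of a finite sum of single divisors -/
theorem mltj7s_sum_singles {ι α : Type*} (s : Finset ι) (f : ι → α) (m : ι → ℤ) (c : α → ℚ) :
    (∑ i ∈ s, Finsupp.single (f i) (m i)).sum (fun Q n => (n : ℚ) * c Q) =
      ∑ i ∈ s, (m i : ℚ) * c (f i) := by
  rw [← Finsupp.sum_finsetSum_index (by intro a; simp) (by intro a b₁ b₂; push_cast; ring)]
  refine Finset.sum_congr rfl fun i _ => ?_
  rw [Finsupp.sum_single_index (by simp)]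

/-! ### The global summation -/

section Sum

variable (𝔓 : FFPlace) (K : ℕ) [NeZero K] (hK : ¬ 𝔓.p ∣ K) (h49 : 4 ∣ K ∨ 9 ∣ K)
  (ℓ : ℕ) [NeZero ℓ] [hℓ : Fact ℓ.Prime] (hK' : ¬ 𝔓.p ∣ K * ℓ) (h49' : 4 ∣ K * ℓ ∨ 9 ∣ K * ℓ)
  (hα : (dlhAlphaC (IsLocalRing.ResidueField ↥𝔓.P) K ℓ).toRingHom.IsIntegral)
  (hβ : (dlhBetaC (IsLocalRing.ResidueField ↥𝔓.P) K ℓ).toRingHom.IsIntegral)

/-- **(★)**: the position of the restriction `x|_{α'}` at a supersingular place `P` of the level `K` is the sum of the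
positions of `x` at the places of the level `K ℓ` over `P` -/
def MltJ7Star : Prop :=
  haveI := ihbc_hasPrincipalDivisors 𝔓 (K * ℓ) hK'
  ∀ (x : Place Qb ↥(modularFunctionFieldBar (K * ℓ * 𝔓.p))), ∀ P ∈ mltjSS 𝔓 K hK h49,
    mltj6Pos 𝔓 K hK h49 P (x.restrictAlong (t3pIncl K ℓ 𝔓.p) (t3pIncl_integral K ℓ 𝔓.p)) =
      ∑ R ∈ Place.fiberAlong (dlhAlphaC (IsLocalRing.ResidueField ↥𝔓.P) K ℓ) hα P,
        mltj6Pos 𝔓 (K * ℓ) hK' h49' R x

/-- **the global summation**: the slope vector of `α'_* β'^* D` -/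
theorem mltj7s_sl_corr (hstar : MltJ7Star 𝔓 K hK h49 ℓ hK' h49' hα)
    (hLaw : MltJ6LawQ) (hLF : MltJ6LevelFix) (hVR : MltJ6ValRat)
    (D : Divisor Qb ↥(modularFunctionFieldBar (K * 𝔓.p)))
    {P : Place (IsLocalRing.ResidueField ↥𝔓.P) ↥(tbBarF 𝔓 K)} (hP : P ∈ mltjSS 𝔓 K hK h49) :
    haveI := ihbc_hasPrincipalDivisors 𝔓 (K * ℓ) hK'
    mltj6Sl 𝔓 K hK h49
        (Divisor.correspondence (dleBetaI K 𝔓.p ℓ) (t3pIncl K ℓ 𝔓.p)
          (mltj7_betaI_integral 𝔓 K ℓ) (t3pIncl_integral K ℓ 𝔓.p) D) P =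
      (Divisor.correspondence (dlhAlphaC (IsLocalRing.ResidueField ↥𝔓.P) K ℓ)
          (dlhBetaC (IsLocalRing.ResidueField ↥𝔓.P) K ℓ) hα hβ (Finsupp.single P 1)).sum
        (fun Q n => (n : ℚ) * mltj6Sl 𝔓 K hK h49 D Q) := by
  classical
  haveI := ihbc_hasPrincipalDivisors 𝔓 (K * ℓ) hK'
  -- the right side, unfolded
  have hE := t3h_correspondence_single (tbq_bar_isFunctionFieldGen 𝔓 (K * ℓ))
    (dlhAlphaC (IsLocalRing.ResidueField ↥𝔓.P) K ℓ) (dlhBetaC (IsLocalRing.ResidueField ↥𝔓.P) K ℓ)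
    hα hβ P 1
  rw [hE]
  induction D using Finsupp.induction_linear with
  | zero => simp
  | add D₁ D₂ h₁ h₂ =>
    rw [map_add, map_add, Pi.add_apply, h₁, h₂, ← Finsupp.sum_add]
    refine Finsupp.sum_congr fun Q _ => ?_
    rw [map_add, Pi.add_apply, mul_add]
  | single y n =>
    rw [mltj7s_sum_singles,
      t3h_correspondence_single (t3h_gen (K * ℓ * 𝔓.p)) (dleBetaI K 𝔓.p ℓ) (t3pIncl K ℓ 𝔓.p)
        (mltj7_betaI_integral 𝔓 K ℓ) (t3pIncl_integral K ℓ 𝔓.p) y n,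
      map_sum, Finset.sum_apply]
    -- the left side: (★)
    have hL : ∀ x ∈ Place.fiberAlong (dleBetaI K 𝔓.p ℓ) (mltj7_betaI_integral 𝔓 K ℓ) y,
        mltj6Sl 𝔓 K hK h49 (Finsupp.single
            (x.restrictAlong (t3pIncl K ℓ 𝔓.p) (t3pIncl_integral K ℓ 𝔓.p))
            (n * (x.ramificationIndexAlong (dleBetaI K 𝔓.p ℓ) : ℤ))) P =
          ∑ R ∈ Place.fiberAlong (dlhAlphaC (IsLocalRing.ResidueField ↥𝔓.P) K ℓ) hα P,
            (n : ℚ) * ((x.ramificationIndexAlong (dleBetaI K 𝔓.p ℓ) : ℚ) *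
              mltj6Pos 𝔓 (K * ℓ) hK' h49' R x) := by
      intro x _
      rw [mltj6Sl_single, hstar x P hP, Finset.mul_sum]
      refine Finset.sum_congr rfl fun R _ => ?_
      push_cast
      ring
    rw [Finset.sum_congr rfl hL, Finset.sum_comm]
    refine Finset.sum_congr rfl fun R hR => ?_
    -- the right side: `e_ᾱ = 1` and the key identity along `β`
    have hRP : R.restrictAlong (dlhAlphaC (IsLocalRing.ResidueField ↥𝔓.P) K ℓ) hα = P :=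
      Place.mem_fiberAlong.mp hR
    have hRS : R ∈ mltjSS 𝔓 (K * ℓ) hK' h49' := mltj7_ss_up 𝔓 K hK h49 ℓ hK' h49' hα hP hRP
    have he := mltj7_ramA_eq_one 𝔓 K hK h49 ℓ hK' h49' hα hRS
    have hkey := mltj7_keyB 𝔓 K hK h49 ℓ hK' h49' hβ hLaw hLF hVR hRS y
    rw [mltj6Sl_single, ← hkey, he]
    unfold mltj7S
    rw [← Finset.mul_sum]
    push_cast
    ring

end Sum

/-! ### The Hecke compatibility of the slope map -/

section Final

variable (𝔓 : FFPlace) (K : ℕ) [NeZero K] (hK : ¬ 𝔓.p ∣ K) (h49 : 4 ∣ K ∨ 9 ∣ K)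

/-- **(S3) from (★)**: the slope map of P6 commutes with the Hecke correspondences -/
theorem mltj7s_heckeAt_of_star
    (hstar : ∀ (ℓ : ℕ) [NeZero ℓ] [Fact ℓ.Prime] (hK' : ¬ 𝔓.p ∣ K * ℓ)
      (h49' : 4 ∣ K * ℓ ∨ 9 ∣ K * ℓ), ℓ ≠ 𝔓.p → ¬ ℓ ∣ K →
      MltJ7Star 𝔓 K hK h49 ℓ hK' h49' (mzr5i_alphaC_integral 𝔓 K ℓ))
    (hLaw : MltJ6LawQ) (hLF : MltJ6LevelFix) (hVR : MltJ6ValRat) :
    Mltj8HeckeAt 𝔓 K hK h49 := by
  intro ℓ _ hℓ hℓp hℓK D P hP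
  haveI : Fact ℓ.Prime := ⟨hℓ⟩
  have hK' : ¬ 𝔓.p ∣ K * ℓ := dlh_not_dvd_mul 𝔓 hK hℓ hℓp
  have h49' : 4 ∣ K * ℓ ∨ 9 ∣ K * ℓ := h49.imp (fun h => h.mul_right ℓ) (fun h => h.mul_right ℓ)
  haveI : NeZero (K * ℓ * 𝔓.p) := ⟨by
    have := NeZero.ne (K * 𝔓.p * ℓ)
    rwa [mul_right_comm] at this⟩
  rw [mltj7s_hecke_cast (K * 𝔓.p) ℓ (K * ℓ * 𝔓.p) (by ring) (t3pIncl K ℓ 𝔓.p) (dleBetaI K 𝔓.p ℓ)
    (t3pIncl_integral K ℓ 𝔓.p) (mltj7_betaI_integral 𝔓 K ℓ) (fun x => coe_t3pIncl K ℓ 𝔓.p x)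
    (fun x => coe_dleBetaI K 𝔓.p ℓ x) D]
  exact mltj7s_sl_corr 𝔓 K hK h49 ℓ hK' h49' (mzr5i_alphaC_integral 𝔓 K ℓ)
    (mzr5p_integral_beta (IsLocalRing.ResidueField ↥𝔓.P) K ℓ)
    (hstar ℓ hK' h49' hℓp hℓK) hLaw hLF hVR D hP

end Final

end Fermat.Agent.MLT
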